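import Fermat.Agent.S24.Main
import Fermat.Agent.S24.EmbedTheta
import Fermat.Agent.S24.HDeg
import Fermat.Agent.S24.CombIndex
import Fermat.Prelude.Def_ModularCurve_HeckeOperator

set_option autoImplicit false

noncomputable section

namespace Fermat.Agent.Gateway.ESC

open AlgebraicCurve IntermediateField ModularCurve CongruenceSubgroup
open scoped MatrixGroups
open Fermat.Agent.S24 Fermat.Agent.S24.Setup

/-- **Degree of `X₀(N) → X(1)`** (from the landed proof of S24): `[F_N : Q̄(j)] = ψ(N)`. -/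
theorem finrank_FF_eq_dedekindPsi (N : ℕ) [NeZero N] :
    FiniteDimensional Kbar⟮jF N⟯ (FF N) ∧
      Module.finrank Kbar⟮jF N⟯ (FF N) = dedekindPsi N := by
  have hdeg := EmbedTheta.hdeg_of N
    (fun θ hfix hgr hper a hq => HDeg.exists_poly N θ hfix hgr hper a hq)
  have halg : ∀ g ∈ genSetF N, IsAlgebraic Kbar⟮jF N⟯ g := by
    intro g hg
    obtain ⟨p, hp0, -, hpa⟩ := hdeg g (Algebra.subset_adjoin hg)
    exact ⟨p, hp0, hpa⟩
  have hgen := GenRing.exists_div N halg
  obtain ⟨D, hD⟩ := Embed.exists_embData' N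
  obtain ⟨hfd, hfr, -⟩ := Conj.finrank_and_norm D hgen hdeg
  exact ⟨hfd, by rw [hfr, Comb.index_Gamma0]⟩

section Abstract

variable {K F F' : Type*} [Field K] [Field F] [Field F'] [Algebra K F] [Algebra K F']

/-- Tower law along an algebra homomorphism `α : F → F'` carrying the intermediate field `A` onto
`A'`. -/
theorem finrank_mul_finrank_along (α : F →ₐ[K] F') (A : IntermediateField K F)
    (A' : IntermediateField K F') (h : A.map α = A') :
    letI := algebraAlong α
    Module.finrank A F * Module.finrank F F' = Module.finrank A' F' := by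
  letI := algebraAlong α
  subst h
  letI : Algebra A F' := ((algebraMap F F').comp (algebraMap A F)).toAlgebra
  haveI : IsScalarTower A F F' := IsScalarTower.of_algebraMap_eq fun _ => rfl
  have h1 : Module.finrank A F' = Module.finrank (A.map α) F' :=
    Algebra.finrank_eq_of_equiv_equiv (IntermediateField.equivMap A α).toRingEquiv
      (RingEquiv.refl _) (RingHom.ext fun x => rfl)
  rw [← h1]
  exact Module.finrank_mul_finrank A F F'

end Abstract

section Along

variable (N ℓ : ℕ) [NeZero N] [NeZero ℓ]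

theorem heckeAlphaBar_jF : heckeAlphaBar Kbar N ℓ (jF N) = jF (N * ℓ) :=
  Subtype.ext rfl

/-- **Degree of `α`**: `[F_{Nℓ} : α F_N] = ℓ + 1` for a prime `ℓ ∤ N`. -/
theorem finrank_along_alpha (hℓ : ℓ.Prime) (hℓN : ¬ ℓ ∣ N) :
    letI := algebraAlong (heckeAlphaBar Kbar N ℓ)
    Module.finrank (FF N) (FF (N * ℓ)) = ℓ + 1 := by
  obtain ⟨hfd1, hr1⟩ := finrank_FF_eq_dedekindPsi N
  obtain ⟨hfd2, hr2⟩ := finrank_FF_eq_dedekindPsi (N * ℓ)
  have h2 := finrank_mul_finrank_along (heckeAlphaBar Kbar N ℓ) Kbar⟮jF N⟯ Kbar⟮jF (N * ℓ)⟯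
    (by rw [IntermediateField.adjoin_map, Set.image_singleton, heckeAlphaBar_jF])
  rw [hr2, hr1, Fermat.Agent.S24.Comb.dedekindPsi_mul_prime_of_not_dvd (NeZero.ne N) hℓ hℓN,
    mul_comm] at h2
  have hpos : 0 < dedekindPsi N := by
    rw [← hr1]
    exact Module.finrank_pos
  exact Nat.eq_of_mul_eq_mul_right hpos h2

end Along

end Fermat.Agent.Gateway.ESC
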