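import Mathlib

/-!
# (C1) `NormQExpFormula`, algebraic route, part 2: norm = product over classified embeddings
-/

set_option autoImplicit false

noncomputable section

namespace Fermat.Agent.Gateway.ESC

section NormProd

variable {F F' E ι : Type*} [Field F] [Field F'] [Field E] [Algebra F F'] [Algebra F E]
  [FiniteDimensional F F'] [Algebra.IsSeparable F F'] [IsAlgClosed E] [Fintype ι]

/-- If the `F`-embeddings of `F'` into an algebraically closed field are classified by an
injective map into a finite type of cardinality `[F' : F]`, on which the values at `y` are given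
by `v`, then the norm of `y` is the product of the `v i`. -/
theorem norm_eq_prod_of_classification (hcard : Fintype.card ι = Module.finrank F F')
    (c : (F' →ₐ[F] E) → ι) (hc : Function.Injective c) (y : F') (v : ι → E)
    (hv : ∀ σ : F' →ₐ[F] E, σ y = v (c σ)) :
    algebraMap F E (Algebra.norm F y) = ∏ i, v i := by
  rw [Algebra.norm_eq_prod_embeddings F E y]
  have hbij : Function.Bijective c := by
    rw [Fintype.bijective_iff_injective_and_card]
    exact ⟨hc, by rw [AlgHom.card F F' E, hcard]⟩
  exact Fintype.prod_bijective c hbij _ _ hv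

/-- Version for a family of ring homomorphisms `τ i : G → E` describing `σ ∘ β`. -/
theorem norm_eq_prod_of_family {G : Type*} [Semiring G] (β : G →+* F')
    (hcard : Fintype.card ι = Module.finrank F F') (τ : ι → G →+* E)
    (h1 : ∀ σ : F' →ₐ[F] E, ∃ i, ∀ u, σ (β u) = τ i u)
    (h2 : ∀ σ σ' : F' →ₐ[F] E, (∀ u, σ (β u) = σ' (β u)) → σ = σ') (u : G) :
    algebraMap F E (Algebra.norm F (β u)) = ∏ i, τ i u := by
  choose c hc using h1
  refine norm_eq_prod_of_classification hcard c ?_ (β u) (fun i => τ i u) (fun σ => hc σ u)
  intro σ σ' h
  apply h2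
  intro u
  rw [hc σ u, hc σ' u, h]

end NormProd

end Fermat.Agent.Gateway.ESC
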