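import Fermat.Agent.Gateway.ESC.NormQExpGen
import Fermat.Agent.Gateway.ESC.NormProdAbstract
import Fermat.Agent.Gateway.ESC.DegreeS24
import Fermat.Agent.Gateway.Kummer.HeckeRed
import Fermat.Agent.Gateway.Hecke.Inputs
import Fermat.Agent.S28.Tower.BAdapter
import Fermat.Agent.S28.ModEq.Final

/-!
# (C1) `NormQExpFormula` over `Q̄`, algebraic route: assembly
-/

set_option autoImplicit false
set_option linter.style.haveILetI false

noncomputable section

namespace Fermat.Agent.Gateway.ESC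

open Polynomial ModularCurve AlgebraicCurve IntermediateField
open Fermat.Agent.S28 Fermat.Agent.S28.Tower Fermat.Agent.Gateway.Hecke

section Generic

variable (L : Type*) [Field L] [Algebra ℚ L]

theorem jL_eq_jS (d : ℕ) [NeZero d] : jL L d = jS L 1 d := by
  rw [jL, coeffEmb, coeffMap_qExpand, ← jqModC_rat, coeffMap_jqModC, jS_eq_qExpand]

theorem kummer_twist_eq (ζ : Lˣ) : Kummer.twist ζ = Tower.twist ζ := by
  ext f n
  rw [Kummer.twist_coeff, Tower.twist_coeff]

variable (M : ℕ) [NeZero M]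

/-- Two ring homomorphisms out of `F_L(M)` into a field which agree on the constants and on the
generators `j(q^d)`, `d ∣ M`, are equal. -/
theorem ringHom_ext_FL {E : Type*} [Field E] (φ ψ : FL L M →+* E)
    (hc : ∀ c : L, φ (algebraMap L (FL L M) c) = ψ (algebraMap L (FL L M) c))
    (hg : ∀ (d : ℕ) [NeZero d] (hd : d ∣ M), φ (gen L M hd) = ψ (gen L M hd)) : φ = ψ := by
  let E' : IntermediateField L (FL L M) :=
    { RingHom.eqLocusField φ ψ with algebraMap_mem' := hc }
  have hE : ∀ x, x ∈ E' ↔ φ x = ψ x := fun _ => Iff.rfl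
  have hle : IntermediateField.adjoin L (genSetF L M) ≤ E' := by
    rw [IntermediateField.adjoin_le_iff]
    rintro x ⟨d, hd0, hd, rfl⟩
    exact (hE _).mpr (hg d hd)
  rw [adjoin_genSetF] at hle
  exact RingHom.ext fun x => (hE x).mp (hle (IntermediateField.mem_top))

end Generic

section Main

variable (L : Type) [Field L] [Algebra ℚ L] [IsAlgClosed L]
variable (N ℓ : ℕ) [NeZero N] [NeZero ℓ]

/-- The ring endomorphism of `L((t))` attached to the conjugate number `c`. -/
def tauHom (ζ : Lˣ) : Option (Fin ℓ) → (LaurentSeries L →+* LaurentSeries L)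
  | none => qExpand L (ℓ * ℓ)
  | some i => Tower.twist (ζ ^ (i : ℕ))

omit [Algebra ℚ L] [IsAlgClosed L] in
theorem tauHom_jS (ζ : Lˣ) (c : Option (Fin ℓ)) {d : ℕ} (hd : d ≠ 0) :
    tauHom L ℓ ζ c (jS L 1 d) = tauJ ζ ℓ c d := by
  cases c with
  | none =>
    simp only [tauHom, tauJ]
    rw [← expand_eq_qExpand, expand_jS (Nat.mul_ne_zero (NeZero.ne ℓ) (NeZero.ne ℓ)) hd]
    congr 1
    ring
  | some i =>
    simp only [tauHom, tauJ]
    rw [twist_jS hd, mul_one, ← pow_mul]

omit [Algebra ℚ L] [IsAlgClosed L] in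
theorem tauHom_C (ζ : Lˣ) (c : Option (Fin ℓ)) (a : L) :
    tauHom L ℓ ζ c (HahnSeries.C a) = HahnSeries.C a := by
  cases c with
  | none => simp only [tauHom]; rw [qExpand_C]
  | some i => simp only [tauHom]; rw [Tower.twist_C]

omit [IsAlgClosed L] in
theorem jS_mem_FL {d : ℕ} (hd0 : d ≠ 0) (hd : d ∣ N) : jS L 1 d ∈ FL L N := by
  haveI : NeZero d := ⟨hd0⟩
  rw [← jL_eq_jS]
  exact jL_mem L N hd

/-- The generator `j(q^d)` of `F_L(N)`, in the `jS` vocabulary. -/
def genS {d : ℕ} (hd0 : d ≠ 0) (hd : d ∣ N) : FL L N := ⟨jS L 1 d, jS_mem_FL L N hd0 hd⟩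

omit [IsAlgClosed L] in
theorem gen_eq_genS {d : ℕ} [NeZero d] (hd : d ∣ N) : gen L N hd = genS L N (NeZero.ne d) hd :=
  Subtype.ext (jL_eq_jS L d)

omit [IsAlgClosed L] in
theorem coe_alpha_genS {d : ℕ} (hd0 : d ≠ 0) (hd : d ∣ N) :
    ((heckeAlphaBar L N ℓ (genS L N hd0 hd) : FL L (N * ℓ)) : LaurentSeries L) = jS L 1 d := rfl

omit [IsAlgClosed L] in
theorem coe_beta_genS {d : ℕ} (hd0 : d ≠ 0) (hd : d ∣ N) :
    ((heckeBetaBar L N ℓ (genS L N hd0 hd) : FL L (N * ℓ)) : LaurentSeries L) = jS L 1 (d * ℓ) := by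
  rw [coe_heckeBetaBar]
  show qExpand L ℓ (jS L 1 d) = _
  rw [← expand_eq_qExpand, expand_jS (NeZero.ne ℓ) hd0, mul_comm]

omit [IsAlgClosed L] in
/-- `Rel` descends to subfields. -/
theorem rel_of_coe (M : ℕ) [NeZero M] {Φ : ℤ[X][X]} {a b : FL L M}
    (h : Tower.Rel Φ (a : LaurentSeries L) (b : LaurentSeries L)) : Tower.Rel Φ a b :=
  Rel.of_map_injective (algebraMap (FL L M) (LaurentSeries L))
    (algebraMap (FL L M) (LaurentSeries L)).injective h

theorem exists_prim_unit [CharZero L] (n : ℕ) (hn : n ≠ 0) : ∃ ζ : Lˣ, IsPrimitiveRoot ζ n := by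
  have : NeZero (n : L) := ⟨by exact_mod_cast hn⟩
  obtain ⟨ζ, hζ⟩ := HasEnoughRootsOfUnity.exists_primitiveRoot L n
  exact ⟨(hζ.isUnit hn).unit, hζ.isUnit_unit hn⟩

omit [Algebra ℚ L] in
theorem exists_unit_root (η : Lˣ) {p : ℕ} (hp : 0 < p) : ∃ η₁ : Lˣ, η₁ ^ p = η := by
  obtain ⟨z, hz⟩ := IsAlgClosed.exists_pow_nat_eq (η : L) hp
  have hz0 : z ≠ 0 := by
    rintro rfl
    rw [zero_pow hp.ne'] at hz
    exact η.ne_zero hz.symm
  exact ⟨Units.mk0 z hz0, Units.ext (by simpa using hz)⟩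

/-- **(C1), conditional on the degree**: the `q`-expansion norm formula. -/
theorem normQExpFormula_of_finrank (hℓ : ℓ.Prime) (hℓN : ¬ ℓ ∣ N) (ζ : Lˣ)
    (hζ : IsPrimitiveRoot ζ ℓ)
    (hdeg : finrankAlong L (heckeAlphaBar L N ℓ) = ℓ + 1) :
    Kummer.NormQExpFormula L N ℓ ζ := by
  classical
  intro u
  haveI : CharZero L := charZero_of_ratAlgebra L
  -- modular equations
  obtain ⟨Eℓ⟩ := exists_modularEquation ℓ hℓ
  have hAℓ : IsModEq Eℓ.Φ ℓ L := isModEq_of_modularEquation Eℓ L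
  have hex : ∀ p : ℕ, ∃ Φp : ℤ[X][X], p.Prime → IsModEq Φp p L := by
    intro p
    by_cases hp : p.Prime
    · haveI : NeZero p := ⟨hp.ne_zero⟩
      obtain ⟨Ep⟩ := exists_modularEquation p hp
      exact ⟨Ep.Φ, fun _ => isModEq_of_modularEquation Ep L⟩
    · exact ⟨0, fun h => absurd h hp⟩
  choose Φ hΦ using hex
  -- the `t`-world
  let emb : LaurentSeries L →+* AlgebraicClosure (LaurentSeries L) :=
    algebraMap (LaurentSeries L) (AlgebraicClosure (LaurentSeries L))
  letI algFF' : Algebra (FL L N) (FL L (N * ℓ)) := algebraAlong (heckeAlphaBar L N ℓ)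
  let tE : FL L N →+* AlgebraicClosure (LaurentSeries L) :=
    emb.comp ((qExpand L ℓ).comp (algebraMap (FL L N) (LaurentSeries L)))
  letI algFE : Algebra (FL L N) (AlgebraicClosure (LaurentSeries L)) := tE.toAlgebra
  haveI : FiniteDimensional (FL L N) (FL L (N * ℓ)) := finiteAlong_alpha L N ℓ
  haveI : CharZero (FL L N) := charZero_of_injective_algebraMap (algebraMap L (FL L N)).injective
  have hcard : Fintype.card (Option (Fin ℓ)) = Module.finrank (FL L N) (FL L (N * ℓ)) := by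
    rw [Fintype.card_option, Fintype.card_fin]
    exact hdeg.symm
  -- the family of homomorphisms
  let τ : Option (Fin ℓ) → (FL L N →+* AlgebraicClosure (LaurentSeries L)) := fun c =>
    emb.comp ((tauHom L ℓ ζ c).comp (algebraMap (FL L N) (LaurentSeries L)))
  have h1 : ∀ σ : FL L (N * ℓ) →ₐ[FL L N] AlgebraicClosure (LaurentSeries L),
      ∃ c, ∀ v, σ ((heckeBetaBar L N ℓ).toRingHom v) = τ c v := by
    intro σ
    have hcomm : ∀ x : FL L N, σ (heckeAlphaBar L N ℓ x) = tE x := fun x => σ.commutes x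
    let x : ℕ → AlgebraicClosure (LaurentSeries L) := fun d =>
      if h : d ≠ 0 ∧ d ∣ N then σ (heckeBetaBar L N ℓ (genS L N h.1 h.2)) else 0
    have hx : ∀ {d : ℕ} (hd0 : d ≠ 0) (hd : d ∣ N),
        x d = σ (heckeBetaBar L N ℓ (genS L N hd0 hd)) := fun hd0 hd => dif_pos ⟨hd0, hd⟩
    have hb : ∀ d, d ≠ 0 → d ∣ N → Tower.Rel Eℓ.Φ (x d) (emb (jS L 1 (d * ℓ))) := by
      intro d hd0 hd
      have hrel : Tower.Rel Eℓ.Φ (heckeBetaBar L N ℓ (genS L N hd0 hd))
          (heckeAlphaBar L N ℓ (genS L N hd0 hd)) := by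
        apply rel_of_coe L (N * ℓ)
        rw [coe_beta_genS, coe_alpha_genS]
        exact rel_fwd_K hAℓ hℓ.ne_zero hζ hd0
      have h3 := hrel.map (σ : FL L (N * ℓ) →+* AlgebraicClosure (LaurentSeries L))
      rw [hx hd0 hd]
      have h4 : (σ : FL L (N * ℓ) →+* AlgebraicClosure (LaurentSeries L))
          (heckeAlphaBar L N ℓ (genS L N hd0 hd)) = emb (jS L 1 (d * ℓ)) := by
        show σ _ = _
        rw [hcomm]
        show emb (qExpand L ℓ (jS L 1 d)) = _
        rw [← expand_eq_qExpand, expand_jS (NeZero.ne ℓ) hd0, mul_comm]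
      rw [h4] at h3
      exact h3
    have hc : ∀ d' p, p.Prime → d' ≠ 0 → d' * p ∣ N → Tower.Rel (Φ p) (x (d' * p)) (x d') := by
      intro d' p hp hd'0 hdN
      have hd'N : d' ∣ N := (Dvd.intro _ rfl).trans hdN
      have hdp0 : d' * p ≠ 0 := Nat.mul_ne_zero hd'0 hp.ne_zero
      obtain ⟨ζp, hζp⟩ := exists_prim_unit L p hp.ne_zero
      have hrel : Tower.Rel (Φ p) (genS L N hdp0 hdN) (genS L N hd'0 hd'N) := by
        apply rel_of_coe L N
        exact rel_fwd_K (hΦ p hp) hp.ne_zero hζp hd'0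
      have h3 := hrel.map ((σ : FL L (N * ℓ) →+* AlgebraicClosure (LaurentSeries L)).comp
        (heckeBetaBar L N ℓ).toRingHom)
      rw [hx hdp0 hdN, hx hd'0 hd'N]
      exact h3
    obtain ⟨c, hcx⟩ := exists_tauJ hAℓ Φ (fun p hp _ => hΦ p hp) hℓ hℓN hζ
      (fun p hp => exists_prim_unit L p hp.ne_zero)
      (fun p hp a => exists_unit_root L a hp.pos) emb x hb hc
    refine ⟨c, ?_⟩
    have hring : (σ : FL L (N * ℓ) →+* AlgebraicClosure (LaurentSeries L)).comp
        (heckeBetaBar L N ℓ).toRingHom = τ c := by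
      apply ringHom_ext_FL L N
      · intro a
        have h5 : (heckeBetaBar L N ℓ).toRingHom (algebraMap L (FL L N) a)
            = heckeAlphaBar L N ℓ (algebraMap L (FL L N) a) := by
          show heckeBetaBar L N ℓ _ = _
          rw [(heckeBetaBar L N ℓ).commutes a, (heckeAlphaBar L N ℓ).commutes a]
        rw [RingHom.comp_apply, h5]
        show σ _ = _
        rw [hcomm]
        show emb (qExpand L ℓ (algebraMap L (LaurentSeries L) a))
          = emb (tauHom L ℓ ζ c (algebraMap L (LaurentSeries L) a))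
        rw [← Fermat.Agent.S28.C_eq_algebraMap_laurent, qExpand_C, tauHom_C]
      · intro d _ hd
        rw [gen_eq_genS, RingHom.comp_apply]
        show σ (heckeBetaBar L N ℓ _) = emb (tauHom L ℓ ζ c (jS L 1 d))
        rw [← hx (NeZero.ne d) hd, hcx d (NeZero.ne d) hd, tauHom_jS L ℓ ζ c (NeZero.ne d)]
    intro v
    exact congrFun (congrArg DFunLike.coe hring) v
  have h2 : ∀ σ σ' : FL L (N * ℓ) →ₐ[FL L N] AlgebraicClosure (LaurentSeries L),
      (∀ v, σ ((heckeBetaBar L N ℓ).toRingHom v) = σ' ((heckeBetaBar L N ℓ).toRingHom v)) →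
        σ = σ' := by
    intro σ σ' hσ
    have hcomm : ∀ (ρ : FL L (N * ℓ) →ₐ[FL L N] AlgebraicClosure (LaurentSeries L)) (x : FL L N),
        ρ (heckeAlphaBar L N ℓ x) = tE x := fun ρ x => ρ.commutes x
    have hring : (σ : FL L (N * ℓ) →+* AlgebraicClosure (LaurentSeries L)) = σ' := by
      apply ringHom_ext_FL L (N * ℓ)
      · intro c
        have hc : algebraMap L (FL L (N * ℓ)) c
            = heckeAlphaBar L N ℓ (algebraMap L (FL L N) c) := ((heckeAlphaBar L N ℓ).commutes c).symm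
        rw [hc]
        show σ _ = σ' _
        rw [hcomm σ, hcomm σ']
      · intro d'' _ hd''
        by_cases hℓd : ℓ ∣ d''
        · obtain ⟨d, rfl⟩ := hℓd
          have hd0 : d ≠ 0 := by
            rintro rfl
            exact (NeZero.ne (ℓ * 0)) (mul_zero ℓ)
          have hdN : d ∣ N := by
            rw [mul_comm N ℓ] at hd''
            exact Nat.dvd_of_mul_dvd_mul_left hℓ.pos hd''
          have hgen : gen L (N * ℓ) hd'' = heckeBetaBar L N ℓ (genS L N hd0 hdN) := by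
            apply Subtype.ext
            rw [coe_beta_genS, coe_gen, jL_eq_jS, mul_comm]
          rw [hgen]
          exact hσ (genS L N hd0 hdN)
        · have hdN : d'' ∣ N := (Nat.Coprime.dvd_of_dvd_mul_right
            ((Nat.Prime.coprime_iff_not_dvd hℓ).mpr hℓd).symm hd'')
          have hgen : gen L (N * ℓ) hd'' = heckeAlphaBar L N ℓ (gen L N hdN) :=
            (heckeAlphaBar_gen L N ℓ hdN).symm
          rw [hgen]
          show σ _ = σ' _
          rw [hcomm σ, hcomm σ']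
    exact AlgHom.coe_ringHom_injective hring
  have key := norm_eq_prod_of_family (F := FL L N) (F' := FL L (N * ℓ))
    (E := AlgebraicClosure (LaurentSeries L)) (heckeBetaBar L N ℓ).toRingHom hcard τ h1 h2 u
  rw [Fintype.prod_option] at key
  have hL : algebraMap (FL L N) (AlgebraicClosure (LaurentSeries L))
      (Algebra.norm (FL L N) ((heckeBetaBar L N ℓ).toRingHom u)) =
      emb (qExpand L ℓ ((Kummer.heckeFun L N ℓ u : FL L N) : LaurentSeries L)) := rfl
  have hR : τ none u * ∏ i : Fin ℓ, τ (some i) u =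
      emb (qExpand L (ℓ * ℓ) (u : LaurentSeries L)
        * ∏ b ∈ Finset.range ℓ, Kummer.twist (ζ ^ b) (u : LaurentSeries L)) := by
    rw [map_mul, map_prod, ← Fin.prod_univ_eq_prod_range
      (fun b => emb (Kummer.twist (ζ ^ b) (u : LaurentSeries L))) ℓ]
    congr 1
  rw [hL, hR] at key
  exact emb.injective key

end Main

section Final

variable (N ℓ : ℕ) [NeZero N] [NeZero ℓ]

/-- **(C1)**: the `q`-expansion norm formula over `Q̄`, for a prime `ℓ ∤ N` and a primitive
`ℓ`-th root of unity `ζ`: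
`(Norm_α (β u))(t^ℓ) = u(t^(ℓ²)) * ∏_{b<ℓ} u(ζ^b t)`. -/
theorem normQExpFormula_algebraicClosure (hℓ : ℓ.Prime) (hℓN : ¬ ℓ ∣ N)
    (ζ : (AlgebraicClosure ℚ)ˣ) (hζ : IsPrimitiveRoot ζ ℓ) :
    Kummer.NormQExpFormula (AlgebraicClosure ℚ) N ℓ ζ :=
  normQExpFormula_of_finrank (AlgebraicClosure ℚ) N ℓ hℓ hℓN ζ hζ (finrank_along_alpha N ℓ hℓ hℓN)

end Final

end Fermat.Agent.Gateway.ESC
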