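import Fermat.Agent.Gateway.ESC.EmbClassify

/-!
# The characteristic polynomial of `α g` over `β F_N` (explicit conjugates)

`L` algebraically closed of characteristic zero, `ℓ ∤ N` prime, `ζ` a primitive `ℓ`-th root of
unity, `[F_{Nℓ} : α F_N] = ℓ + 1`.  Then `[F_{Nℓ} : β F_N] = ℓ + 1` and for `g ∈ F_N` the
characteristic polynomial of `α g` over `β F_N`, with coefficients read through
`c ↦ c(q^ℓ)`, is `(X - g(q^(ℓ²))) * ∏_{i<ℓ} (X - g(ζ^i q))`.  The characteristic polynomial of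
`β g` over `α F_N` is given by the same formula.
-/

set_option autoImplicit false
set_option linter.style.haveILetI false

noncomputable section

namespace Fermat.Agent.Gateway.ESC

open Polynomial ModularCurve AlgebraicCurve IntermediateField
open Fermat.Agent.S28 Fermat.Agent.S28.Tower Fermat.Agent.Gateway.Hecke

section Main

variable (L : Type) [Field L] [Algebra ℚ L] [IsAlgClosed L]
variable (N ℓ : ℕ) [NeZero N] [NeZero ℓ]

/-- The base embedding `c ↦ c(q^ℓ)` of `F_N` into `L((q))`. -/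
def baseHom : FL L N →+* LaurentSeries L :=
  (qExpand L ℓ).comp (algebraMap (FL L N) (LaurentSeries L))

/-- The conjugate number `c` of `g`: `g(q^(ℓ²))` resp. `g(ζ^i q)`. -/
def conjHom (ζ : Lˣ) (c : Option (Fin ℓ)) : FL L N →+* LaurentSeries L :=
  (tauHom L ℓ ζ c).comp (algebraMap (FL L N) (LaurentSeries L))

/-- The product formula for the conjugates. -/
def conjPoly (ζ : Lˣ) (g : FL L N) : (LaurentSeries L)[X] :=
  ∏ c : Option (Fin ℓ), (X - C (conjHom L N ℓ ζ c g))

variable {L N ℓ}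

omit [IsAlgClosed L] in
theorem baseHom_apply (x : FL L N) :
    baseHom L N ℓ x = qExpand L ℓ (x : LaurentSeries L) := rfl

omit [IsAlgClosed L] in
theorem conjHom_apply (ζ : Lˣ) (c : Option (Fin ℓ)) (x : FL L N) :
    conjHom L N ℓ ζ c x = tauHom L ℓ ζ c (x : LaurentSeries L) := rfl

omit [IsAlgClosed L] in
theorem conjHom_injective (hℓ : ℓ.Prime) {ζ : Lˣ} (hζ : IsPrimitiveRoot ζ ℓ) :
    Function.Injective (conjHom L N ℓ ζ) := by
  intro c c' h
  have h1 := congrFun (congrArg DFunLike.coe h) (genS L N one_ne_zero (one_dvd N))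
  rw [conjHom_apply, conjHom_apply] at h1
  have h2 : tauJ ζ ℓ c 1 = tauJ ζ ℓ c' 1 := by
    rw [← tauHom_jS L ℓ ζ c one_ne_zero, ← tauHom_jS L ℓ ζ c' one_ne_zero]
    exact h1
  have hℓ2 : 1 < ℓ ^ 2 := Nat.one_lt_pow (by norm_num) hℓ.one_lt
  cases c with
  | none =>
    cases c' with
    | none => rfl
    | some i' =>
      exfalso
      simp only [tauJ] at h2
      have := ((jS_eq_jS_iff (by positivity) one_ne_zero).mp h2).1
      omega
  | some i =>
    cases c' with
    | none =>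
      exfalso
      simp only [tauJ] at h2
      have := ((jS_eq_jS_iff one_ne_zero (by positivity)).mp h2).1
      omega
    | some i' =>
      simp only [tauJ, mul_one] at h2
      have h3 := ((jS_eq_jS_iff one_ne_zero one_ne_zero).mp h2).2
      have h4 := hζ.pow_inj i.2 i'.2 h3
      exact congrArg some (Fin.ext h4)

variable {a b : FL L N →ₐ[L] FL L (N * ℓ)}

/-- Classification in ring-homomorphism form. -/
theorem DegPair.exists_index' (hab : DegPair L N ℓ a b) (hℓ : ℓ.Prime) (hℓN : ¬ ℓ ∣ N) (ζ : Lˣ)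
    (hζ : IsPrimitiveRoot ζ ℓ) {E : Type*} [Field E] (emb : LaurentSeries L →+* E)
    (σ : FL L (N * ℓ) →+* E) (hσ : σ.comp a.toRingHom = emb.comp (baseHom L N ℓ)) :
    ∃ c : Option (Fin ℓ), ∀ v : FL L N,
      σ (b.toRingHom v) = (emb.comp (conjHom L N ℓ ζ c)) v :=
  hab.exists_index hℓ hℓN ζ hζ emb σ fun x => congrFun (congrArg DFunLike.coe hσ) x

omit [IsAlgClosed L] in
theorem DegPair.ringHom_ext' (hab : DegPair L N ℓ a b) {E : Type*} [Field E]
    (e : FL L N →+* E) (σ σ' : FL L (N * ℓ) →+* E) (hσ : σ.comp a.toRingHom = e)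
    (hσ' : σ'.comp a.toRingHom = e)
    (h : ∀ v : FL L N, σ (b.toRingHom v) = σ' (b.toRingHom v)) : σ = σ' :=
  hab.ringHom_ext σ σ' (fun x => by
    have h1 := congrFun (congrArg DFunLike.coe hσ) x
    have h2 := congrFun (congrArg DFunLike.coe hσ') x
    exact h1.trans h2.symm) h

omit [IsAlgClosed L] in
theorem isSeparable_along (a : FL L N →ₐ[L] FL L (N * ℓ)) (hfin : FiniteAlong L a) :
    letI := a.toRingHom.toAlgebra
    Algebra.IsSeparable (FL L N) (FL L (N * ℓ)) := by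
  letI := a.toRingHom.toAlgebra
  haveI : CharZero L := charZero_of_ratAlgebra L
  haveI : CharZero (FL L N) := charZero_of_injective_algebraMap (algebraMap L (FL L N)).injective
  haveI : FiniteDimensional (FL L N) (FL L (N * ℓ)) := hfin
  infer_instance

omit [IsAlgClosed L] in
theorem infinite_FL : Infinite (FL L N) := by
  haveI : CharZero L := charZero_of_ratAlgebra L
  haveI : CharZero (FL L N) := charZero_of_injective_algebraMap (algebraMap L (FL L N)).injective
  infer_instance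

/-- For a pair `(a, b)` with `[F_{Nℓ} : a F_N] = ℓ + 1`, all indices occur. -/
theorem DegPair.exists_ringHom (hab : DegPair L N ℓ a b)
    (hfin : FiniteAlong L a) (hdeg : finrankAlong L a = ℓ + 1)
    (hℓ : ℓ.Prime) (hℓN : ¬ ℓ ∣ N) (ζ : Lˣ) (hζ : IsPrimitiveRoot ζ ℓ)
    {E : Type*} [Field E] [IsAlgClosed E] (emb : LaurentSeries L →+* E) (c : Option (Fin ℓ)) :
    ∃ σ : FL L (N * ℓ) →+* E, σ.comp a.toRingHom = emb.comp (baseHom L N ℓ) ∧
      ∀ v : FL L N, σ (b.toRingHom v) = (emb.comp (conjHom L N ℓ ζ c)) v := by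
  have hcard : Fintype.card (Option (Fin ℓ)) = finrankAlongHom a.toRingHom := by
    rw [Fintype.card_option, Fintype.card_fin]
    exact hdeg.symm
  exact exists_ringHom_of_family a.toRingHom (emb.comp (baseHom L N ℓ)) hfin
    (isSeparable_along a hfin) b.toRingHom hcard (fun c => emb.comp (conjHom L N ℓ ζ c))
    (fun σ hσ => hab.exists_index' hℓ hℓN ζ hζ emb σ hσ)
    (fun σ σ' hσ hσ' h => hab.ringHom_ext' _ σ σ' hσ hσ' h) c

/-- The characteristic polynomial formula for a pair `(a, b)` of known degree. -/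
theorem DegPair.charpoly_eq (hab : DegPair L N ℓ a b)
    (hfin : FiniteAlong L a) (hdeg : finrankAlong L a = ℓ + 1)
    (hℓ : ℓ.Prime) (hℓN : ¬ ℓ ∣ N) (ζ : Lˣ) (hζ : IsPrimitiveRoot ζ ℓ) (g : FL L N) :
    (charpolyAlongHom a.toRingHom (b g)).map (baseHom L N ℓ) = conjPoly L N ℓ ζ g := by
  haveI := infinite_FL (L := L) (N := N)
  let emb : LaurentSeries L →+* AlgebraicClosure (LaurentSeries L) :=
    algebraMap (LaurentSeries L) (AlgebraicClosure (LaurentSeries L))
  have hcard : Fintype.card (Option (Fin ℓ)) = finrankAlongHom a.toRingHom := by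
    rw [Fintype.card_option, Fintype.card_fin]
    exact hdeg.symm
  have key := charpolyAlongHom_map_eq_prod_of_family a.toRingHom (emb.comp (baseHom L N ℓ)) hfin
    (isSeparable_along a hfin) b.toRingHom hcard (fun c => emb.comp (conjHom L N ℓ ζ c))
    (fun σ hσ => hab.exists_index' hℓ hℓN ζ hζ emb σ hσ)
    (fun σ σ' hσ hσ' h => hab.ringHom_ext' _ σ σ' hσ hσ' h) g
  apply Polynomial.map_injective emb emb.injective
  rw [Polynomial.map_map]
  refine key.trans ?_
  rw [conjPoly, Polynomial.map_prod]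
  refine Finset.prod_congr rfl fun c _ => ?_
  rw [Polynomial.map_sub, Polynomial.map_X, Polynomial.map_C]
  rfl

omit [IsAlgClosed L] in
theorem finrankAlongHom_toRingHom (a : FL L N →ₐ[L] FL L (N * ℓ)) :
    finrankAlongHom a.toRingHom = finrankAlong L a := rfl

/-- The explicit embedding `f(q) ↦ f(ζ^i q)` of `F_{Nℓ}`. -/
def twistEmb (ζ : Lˣ) (i : ℕ) : FL L (N * ℓ) →+* LaurentSeries L :=
  (Tower.twist (ζ ^ i)).comp (algebraMap (FL L (N * ℓ)) (LaurentSeries L))

omit [IsAlgClosed L] [Algebra ℚ L] in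
theorem tauHom_some (ζ : Lˣ) (i : Fin ℓ) :
    tauHom L ℓ ζ (some i) = Tower.twist (ζ ^ (i : ℕ)) := rfl

omit [IsAlgClosed L] [Algebra ℚ L] in
theorem tauHom_none (ζ : Lˣ) : tauHom L ℓ ζ none = qExpand L (ℓ * ℓ) := rfl

omit [IsAlgClosed L] in
theorem twistEmb_beta {ζ : Lˣ} (hζ : ζ ^ ℓ = 1) (i : ℕ) (v : FL L N) :
    twistEmb (N := N) (ℓ := ℓ) ζ i ((heckeBetaBar L N ℓ).toRingHom v) = baseHom L N ℓ v := by
  unfold twistEmb baseHom
  rw [RingHom.comp_apply, RingHom.comp_apply, IntermediateField.algebraMap_apply,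
    IntermediateField.algebraMap_apply, AlgHom.toRingHom_eq_coe, RingHom.coe_coe,
    coe_heckeBetaBar, ← expand_eq_qExpand,
    twist_expand_of_pow_eq_one (NeZero.ne ℓ) _ (by rw [← pow_mul, mul_comm, pow_mul, hζ,
      one_pow])]

omit [IsAlgClosed L] in
theorem twistEmb_alpha (ζ : Lˣ) (i : Fin ℓ) (v : FL L N) :
    twistEmb (N := N) (ℓ := ℓ) ζ (i : ℕ) ((heckeAlphaBar L N ℓ).toRingHom v) =
      conjHom L N ℓ ζ (some i) v := by
  unfold twistEmb conjHom
  rw [RingHom.comp_apply, RingHom.comp_apply, tauHom_some, IntermediateField.algebraMap_apply,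
    IntermediateField.algebraMap_apply, AlgHom.toRingHom_eq_coe, RingHom.coe_coe,
    coe_heckeAlphaBar]

/-- The non-explicit embedding over `β F_N`: `β v ↦ v(q^ℓ)`, `α v ↦ v(q^(ℓ²))`. -/
theorem exists_ringHom_beta_none (hdeg : finrankAlong L (heckeAlphaBar L N ℓ) = ℓ + 1)
    (hℓ : ℓ.Prime) (hℓN : ¬ ℓ ∣ N) (ζ : Lˣ) (hζ : IsPrimitiveRoot ζ ℓ)
    {E : Type*} [Field E] [IsAlgClosed E] (emb : LaurentSeries L →+* E) :
    ∃ σ : FL L (N * ℓ) →+* E,
      σ.comp (heckeBetaBar L N ℓ).toRingHom = emb.comp (baseHom L N ℓ) ∧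
      ∀ v : FL L N, σ ((heckeAlphaBar L N ℓ).toRingHom v) =
        (emb.comp (conjHom L N ℓ ζ none)) v := by
  obtain ⟨σ, hσ1, hσ2⟩ := (degPair_alpha_beta L N ℓ hℓ ζ hζ).exists_ringHom
    (finiteAlong_alpha L N ℓ) hdeg hℓ hℓN ζ hζ (emb.comp (qExpand L ℓ)) (some ⟨0, hℓ.pos⟩)
  refine ⟨σ, ?_, ?_⟩
  · ext v
    rw [RingHom.comp_apply, hσ2 v, RingHom.comp_apply, RingHom.comp_apply, RingHom.comp_apply,
      conjHom_apply, tauHom_some, baseHom_apply]
    simp only [pow_zero, Tower.twist_one]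
  · intro v
    have h1 := congrFun (congrArg DFunLike.coe hσ1) v
    rw [RingHom.comp_apply] at h1
    rw [h1, RingHom.comp_apply, RingHom.comp_apply, RingHom.comp_apply, baseHom_apply,
      conjHom_apply, tauHom_none, qExpand_qExpand]

/-- **Degree of `β`**: `[F_{Nℓ} : β F_N] = ℓ + 1`, deduced from the degree of `α`. -/
theorem finrankAlong_beta (hdeg : finrankAlong L (heckeAlphaBar L N ℓ) = ℓ + 1)
    (hℓ : ℓ.Prime) (hℓN : ¬ ℓ ∣ N) (ζ : Lˣ) (hζ : IsPrimitiveRoot ζ ℓ) :
    finrankAlong L (heckeBetaBar L N ℓ) = ℓ + 1 := by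
  let emb : LaurentSeries L →+* AlgebraicClosure (LaurentSeries L) :=
    algebraMap (LaurentSeries L) (AlgebraicClosure (LaurentSeries L))
  have hβα := degPair_beta_alpha L N ℓ hℓ ζ hζ
  have key := finrankAlongHom_eq_card_of_family (heckeBetaBar L N ℓ).toRingHom
    (emb.comp (baseHom L N ℓ)) (finiteAlong_beta L N ℓ)
    (isSeparable_along _ (finiteAlong_beta L N ℓ)) (heckeAlphaBar L N ℓ).toRingHom
    (fun c => emb.comp (conjHom L N ℓ ζ c))
    (fun c c' h => conjHom_injective hℓ hζ (RingHom.ext fun x => emb.injective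
      (congrFun (congrArg DFunLike.coe h) x)))
    (fun σ hσ => hβα.exists_index' hℓ hℓN ζ hζ emb σ hσ)
    (fun σ σ' hσ hσ' h => hβα.ringHom_ext' _ σ σ' hσ hσ' h) ?_
  · rw [Fintype.card_option, Fintype.card_fin, finrankAlongHom_toRingHom] at key
    exact key.symm
  · intro c
    cases c with
    | none => exact exists_ringHom_beta_none hdeg hℓ hℓN ζ hζ emb
    | some i =>
      refine ⟨emb.comp (twistEmb ζ (i : ℕ)), ?_, ?_⟩
      · ext v
        rw [RingHom.comp_apply, RingHom.comp_apply, twistEmb_beta hζ.pow_eq_one, RingHom.comp_apply]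
      · intro v
        rw [RingHom.comp_apply, twistEmb_alpha, RingHom.comp_apply]

/-- **The characteristic polynomial of `α g` over `β F_N`.** -/
theorem charpoly_alpha_along_beta (hdeg : finrankAlong L (heckeAlphaBar L N ℓ) = ℓ + 1)
    (hℓ : ℓ.Prime) (hℓN : ¬ ℓ ∣ N) (ζ : Lˣ) (hζ : IsPrimitiveRoot ζ ℓ) (g : FL L N) :
    (charpolyAlongHom (heckeBetaBar L N ℓ).toRingHom (heckeAlphaBar L N ℓ g)).map
      (baseHom L N ℓ) = conjPoly L N ℓ ζ g :=
  (degPair_beta_alpha L N ℓ hℓ ζ hζ).charpoly_eq (finiteAlong_beta L N ℓ)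
    (finrankAlong_beta hdeg hℓ hℓN ζ hζ) hℓ hℓN ζ hζ g

/-- **The characteristic polynomial of `β g` over `α F_N`** (full version of (C1)). -/
theorem charpoly_beta_along_alpha (hdeg : finrankAlong L (heckeAlphaBar L N ℓ) = ℓ + 1)
    (hℓ : ℓ.Prime) (hℓN : ¬ ℓ ∣ N) (ζ : Lˣ) (hζ : IsPrimitiveRoot ζ ℓ) (g : FL L N) :
    (charpolyAlongHom (heckeAlphaBar L N ℓ).toRingHom (heckeBetaBar L N ℓ g)).map
      (baseHom L N ℓ) = conjPoly L N ℓ ζ g :=
  (degPair_alpha_beta L N ℓ hℓ ζ hζ).charpoly_eq (finiteAlong_alpha L N ℓ) hdeg hℓ hℓN ζ hζ g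

end Main

end Fermat.Agent.Gateway.ESC
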