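import Mathlib

/-!
# Characteristic polynomial of a multiplication map as a product over embeddings

For a finite separable field extension `F'/F`, `y ∈ F'` and an algebraically closed field `E`
over `F`:  `charpoly (y ·) = ∏_σ (X - σ y)`, the product over the `F`-embeddings `σ : F' → E`.
Also versions for a classified family of embeddings (as in `NormProdAbstract`).
-/

set_option autoImplicit false
set_option linter.style.haveILetI false

noncomputable section

namespace Fermat.Agent.Gateway.ESC

open Polynomial

section Eval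

variable {F F' : Type*} [Field F] [Field F'] [Algebra F F'] [FiniteDimensional F F']

/-- The characteristic polynomial of multiplication by `y`, evaluated at `μ`, is the norm of
`μ - y`. -/
theorem eval_charpoly_lmul (y : F') (μ : F) :
    (LinearMap.charpoly (Algebra.lmul F F' y)).eval μ =
      Algebra.norm F (algebraMap F F' μ - y) := by
  set f : Module.End F F' := Algebra.lmul F F' y with hf
  have h1 : Algebra.lmul F F' (algebraMap F F' μ - y) = (-1 : F) • (f - μ • 1) := by
    ext z
    simp [hf, Algebra.smul_def]
  rw [Algebra.norm_apply, h1, LinearMap.det_smul, LinearMap.det_eq_sign_charpoly_coeff,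
    LinearMap.charpoly_sub_smul, coeff_zero_eq_eval_zero, eval_comp, eval_add, eval_X, eval_C,
    zero_add, ← mul_assoc, ← mul_pow]
  norm_num

end Eval

section Embeddings

variable {F F' E : Type*} [Field F] [Field F'] [Field E] [Algebra F F'] [Algebra F E]
  [FiniteDimensional F F'] [Algebra.IsSeparable F F'] [IsAlgClosed E] [Infinite F]

/-- **Characteristic polynomial = product over the embeddings.** -/
theorem charpoly_lmul_map_eq_prod_embeddings (y : F') :
    (LinearMap.charpoly (Algebra.lmul F F' y)).map (algebraMap F E) =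
      ∏ σ : F' →ₐ[F] E, (X - C (σ y)) := by
  apply eq_of_infinite_eval_eq
  refine Set.Infinite.mono ?_ (Set.infinite_range_of_injective (algebraMap F E).injective)
  rintro _ ⟨μ, rfl⟩
  show eval _ _ = eval _ _
  rw [eval_map_algebraMap, Polynomial.aeval_algebraMap_apply_eq_algebraMap_eval,
    eval_charpoly_lmul, Algebra.norm_eq_prod_embeddings F E, eval_prod]
  refine Finset.prod_congr rfl fun σ _ => ?_
  rw [map_sub, AlgHom.commutes, eval_sub, eval_X, eval_C]

variable {ι : Type*} [Fintype ι]

/-- Version for a classification of the embeddings by a finite type of the right cardinality. -/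
theorem charpoly_map_eq_prod_of_classification (hcard : Fintype.card ι = Module.finrank F F')
    (c : (F' →ₐ[F] E) → ι) (hc : Function.Injective c) (y : F') (v : ι → E)
    (hv : ∀ σ : F' →ₐ[F] E, σ y = v (c σ)) :
    (LinearMap.charpoly (Algebra.lmul F F' y)).map (algebraMap F E) = ∏ i, (X - C (v i)) := by
  rw [charpoly_lmul_map_eq_prod_embeddings]
  have hbij : Function.Bijective c := by
    rw [Fintype.bijective_iff_injective_and_card]
    exact ⟨hc, by rw [AlgHom.card F F' E, hcard]⟩
  exact Fintype.prod_bijective c hbij _ _ fun σ => by rw [hv σ]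

/-- Version for a family of ring homomorphisms `τ i : G → E` describing `σ ∘ β`. -/
theorem charpoly_map_eq_prod_of_family {G : Type*} [Semiring G] (β : G →+* F')
    (hcard : Fintype.card ι = Module.finrank F F') (τ : ι → G →+* E)
    (h1 : ∀ σ : F' →ₐ[F] E, ∃ i, ∀ u, σ (β u) = τ i u)
    (h2 : ∀ σ σ' : F' →ₐ[F] E, (∀ u, σ (β u) = σ' (β u)) → σ = σ') (u : G) :
    (LinearMap.charpoly (Algebra.lmul F F' (β u))).map (algebraMap F E) =
      ∏ i, (X - C (τ i u)) := by
  choose c hc using h1
  refine charpoly_map_eq_prod_of_classification hcard c ?_ (β u) (fun i => τ i u)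
    (fun σ => hc σ u)
  intro σ σ' h
  apply h2
  intro u
  rw [hc σ u, hc σ' u, h]

omit [Infinite F] in
/-- Under the hypotheses of the classification, every index is attained by an embedding. -/
theorem exists_algHom_of_family {G : Type*} [Semiring G] (β : G →+* F')
    (hcard : Fintype.card ι = Module.finrank F F') (τ : ι → G →+* E)
    (h1 : ∀ σ : F' →ₐ[F] E, ∃ i, ∀ u, σ (β u) = τ i u)
    (h2 : ∀ σ σ' : F' →ₐ[F] E, (∀ u, σ (β u) = σ' (β u)) → σ = σ') (i : ι) :
    ∃ σ : F' →ₐ[F] E, ∀ u, σ (β u) = τ i u := by
  choose c hc using h1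
  have hinj : Function.Injective c := by
    intro σ σ' h
    apply h2
    intro u
    rw [hc σ u, hc σ' u, h]
  have hbij : Function.Bijective c := by
    rw [Fintype.bijective_iff_injective_and_card]
    exact ⟨hinj, by rw [AlgHom.card F F' E, hcard]⟩
  obtain ⟨σ, rfl⟩ := hbij.2 i
  exact ⟨σ, hc σ⟩

end Embeddings

end Fermat.Agent.Gateway.ESC

namespace Fermat.Agent.Gateway.ESC

open Polynomial

/-! ### Ring-homomorphism form (no algebra instances in the statements) -/

section RingHomForm

variable {F F' E : Type*} [Field F] [Field F'] [Field E]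

/-- Characteristic polynomial of multiplication by `y` on `F'` over `F` along a ring homomorphism
`f : F → F'` (junk value `1` if `F'` is not finite over `F`). -/
def charpolyAlongHom (f : F →+* F') (y : F') : F[X] :=
  letI := f.toAlgebra
  open Classical in
  if _h : Module.Finite F F' then LinearMap.charpoly (Algebra.lmul F F' y) else 1

/-- Degree of `F'` over `F` along a ring homomorphism. -/
def finrankAlongHom (f : F →+* F') : ℕ :=
  letI := f.toAlgebra
  Module.finrank F F'

theorem charpolyAlongHom_monic (f : F →+* F') (y : F') : (charpolyAlongHom f y).Monic := by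
  letI := f.toAlgebra
  unfold charpolyAlongHom
  split_ifs with h
  · exact LinearMap.charpoly_monic _
  · exact monic_one

theorem charpolyAlongHom_natDegree (f : F →+* F')
    (hfin : letI := f.toAlgebra; Module.Finite F F') (y : F') :
    (charpolyAlongHom f y).natDegree = finrankAlongHom f := by
  letI := f.toAlgebra
  haveI : Module.Finite F F' := hfin
  unfold charpolyAlongHom finrankAlongHom
  rw [dif_pos hfin]
  exact LinearMap.charpoly_natDegree _

variable {ι : Type*} [Fintype ι] {G : Type*} [Semiring G]

/-- The characteristic polynomial along `f` as a product over a classified family of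
homomorphisms. -/
theorem charpolyAlongHom_map_eq_prod_of_family [IsAlgClosed E] [Infinite F]
    (f : F →+* F') (e : F →+* E)
    (hfin : letI := f.toAlgebra; Module.Finite F F')
    (hsep : letI := f.toAlgebra; Algebra.IsSeparable F F')
    (β : G →+* F') (hcard : Fintype.card ι = finrankAlongHom f) (τ : ι → G →+* E)
    (h1 : ∀ σ : F' →+* E, σ.comp f = e → ∃ i, ∀ u, σ (β u) = τ i u)
    (h2 : ∀ σ σ' : F' →+* E, σ.comp f = e → σ'.comp f = e →
      (∀ u, σ (β u) = σ' (β u)) → σ = σ') (u : G) :
    (charpolyAlongHom f (β u)).map e = ∏ i, (X - C (τ i u)) := by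
  letI := f.toAlgebra
  letI := e.toAlgebra
  haveI : Module.Finite F F' := hfin
  haveI : Algebra.IsSeparable F F' := hsep
  have hcomp : ∀ σ : F' →ₐ[F] E, (σ : F' →+* E).comp f = e := fun σ =>
    RingHom.ext fun x => σ.commutes x
  unfold charpolyAlongHom
  rw [dif_pos hfin]
  exact charpoly_map_eq_prod_of_family (F := F) (F' := F') (E := E) β hcard τ
    (fun σ => h1 (σ : F' →+* E) (hcomp σ))
    (fun σ σ' h => AlgHom.coe_ringHom_injective
      (h2 (σ : F' →+* E) (σ' : F' →+* E) (hcomp σ) (hcomp σ') h)) u

/-- Every index of a classified family is attained. -/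
theorem exists_ringHom_of_family [IsAlgClosed E]
    (f : F →+* F') (e : F →+* E)
    (hfin : letI := f.toAlgebra; Module.Finite F F')
    (hsep : letI := f.toAlgebra; Algebra.IsSeparable F F')
    (β : G →+* F') (hcard : Fintype.card ι = finrankAlongHom f) (τ : ι → G →+* E)
    (h1 : ∀ σ : F' →+* E, σ.comp f = e → ∃ i, ∀ u, σ (β u) = τ i u)
    (h2 : ∀ σ σ' : F' →+* E, σ.comp f = e → σ'.comp f = e →
      (∀ u, σ (β u) = σ' (β u)) → σ = σ') (i : ι) :
    ∃ σ : F' →+* E, σ.comp f = e ∧ ∀ u, σ (β u) = τ i u := by
  letI := f.toAlgebra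
  letI := e.toAlgebra
  haveI : Module.Finite F F' := hfin
  haveI : Algebra.IsSeparable F F' := hsep
  have hcomp : ∀ σ : F' →ₐ[F] E, (σ : F' →+* E).comp f = e := fun σ =>
    RingHom.ext fun x => σ.commutes x
  obtain ⟨σ, hσ⟩ := exists_algHom_of_family (F := F) (F' := F') (E := E) β hcard τ
    (fun σ => h1 (σ : F' →+* E) (hcomp σ))
    (fun σ σ' h => AlgHom.coe_ringHom_injective
      (h2 (σ : F' →+* E) (σ' : F' →+* E) (hcomp σ) (hcomp σ') h)) i
  exact ⟨(σ : F' →+* E), hcomp σ, hσ⟩

/-- If a classified family is injective and every index is attained, the degree is the number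
of indices. -/
theorem finrankAlongHom_eq_card_of_family [IsAlgClosed E]
    (f : F →+* F') (e : F →+* E)
    (hfin : letI := f.toAlgebra; Module.Finite F F')
    (hsep : letI := f.toAlgebra; Algebra.IsSeparable F F')
    (β : G →+* F') (τ : ι → G →+* E) (hτ : Function.Injective τ)
    (h1 : ∀ σ : F' →+* E, σ.comp f = e → ∃ i, ∀ u, σ (β u) = τ i u)
    (h2 : ∀ σ σ' : F' →+* E, σ.comp f = e → σ'.comp f = e →
      (∀ u, σ (β u) = σ' (β u)) → σ = σ')
    (hex : ∀ i, ∃ σ : F' →+* E, σ.comp f = e ∧ ∀ u, σ (β u) = τ i u) :
    Fintype.card ι = finrankAlongHom f := by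
  classical
  letI := f.toAlgebra
  letI := e.toAlgebra
  haveI : Module.Finite F F' := hfin
  haveI : Algebra.IsSeparable F F' := hsep
  have hcomp : ∀ σ : F' →ₐ[F] E, (σ : F' →+* E).comp f = e := fun σ =>
    RingHom.ext fun x => σ.commutes x
  have hcardHom : Fintype.card (F' →ₐ[F] E) = finrankAlongHom f := AlgHom.card F F' E
  rw [← hcardHom]
  choose c hc using fun σ : F' →ₐ[F] E => h1 (σ : F' →+* E) (hcomp σ)
  choose s hs using hex
  have hsx : ∀ i x, s i (f x) = e x := fun i x => by
    rw [← (hs i).1]; rfl
  let s' : ι → (F' →ₐ[F] E) := fun i =>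
    { s i with commutes' := fun x => hsx i x }
  have hs' : ∀ i u, s' i (β u) = τ i u := fun i u => (hs i).2 u
  apply le_antisymm
  · refine Fintype.card_le_of_injective s' ?_
    intro i j hij
    apply hτ
    ext u
    rw [← hs' i u, ← hs' j u, hij]
  · refine Fintype.card_le_of_injective c ?_
    intro σ σ' h
    apply AlgHom.coe_ringHom_injective
    apply h2 _ _ (hcomp σ) (hcomp σ')
    intro u
    rw [hc σ u, hc σ' u, h]

end RingHomForm

end Fermat.Agent.Gateway.ESC
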