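/-
helper44 (P-GATEWAY (c), ESC block, Step A part 1): identification of two weighted families of
points from the equality of the polynomials `∏ (X - v(s))^m` for a separating function `v`.
-/
import Mathlib

set_option autoImplicit false

noncomputable section

namespace Fermat.Agent.Gateway.ESC

open Polynomial

section RootCount

variable {ι S k : Type*} [Field k]

theorem prod_X_sub_C_pow_ne_zero (I : Finset ι) (a : ι → k) (m : ι → ℕ) :
    ∏ i ∈ I, (X - C (a i)) ^ (m i) ≠ 0 :=
  Finset.prod_ne_zero_iff.mpr fun i _ => pow_ne_zero _ (X_sub_C_ne_zero (a i))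

theorem count_roots_prod_X_sub_C_pow [DecidableEq k] (I : Finset ι) (a : ι → k) (m : ι → ℕ)
    (c : k) :
    Multiset.count c (∏ i ∈ I, (X - C (a i)) ^ (m i)).roots =
      ∑ i ∈ I, if a i = c then m i else 0 := by
  classical
  rw [Polynomial.roots_prod _ _ (prod_X_sub_C_pow_ne_zero I a m)]
  rw [Multiset.count_bind]
  rw [Finset.sum_map_val]
  refine Finset.sum_congr rfl fun i _ => ?_
  rw [roots_pow, roots_X_sub_C, Multiset.count_nsmul, Multiset.count_singleton]
  split_ifs with h1 h2 h2
  · simp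
  · exact absurd h1.symm h2
  · exact absurd h2.symm h1
  · simp

/-- If `v` is injective on `T` and `∏ (X - v(s i))^(m i) = ∏ (X - v(s' j))^(m' j)` with all
points in `T`, then the two weighted families of points coincide. -/
theorem sum_single_eq_of_prod_eq {κ : Type*} (I : Finset ι) (J : Finset κ)
    (s : ι → S) (s' : κ → S) (m : ι → ℕ) (m' : κ → ℕ) (v : S → k) (T : Set S)
    (hv : Set.InjOn v T) (hs : ∀ i ∈ I, s i ∈ T) (hs' : ∀ j ∈ J, s' j ∈ T)
    (h : ∏ i ∈ I, (X - C (v (s i))) ^ (m i) = ∏ j ∈ J, (X - C (v (s' j))) ^ (m' j)) :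
    ∑ i ∈ I, Finsupp.single (s i) (m i : ℤ) = ∑ j ∈ J, Finsupp.single (s' j) (m' j : ℤ) := by
  classical
  ext s₀
  rw [Finsupp.finsetSum_apply, Finsupp.finsetSum_apply]
  simp only [Finsupp.single_apply]
  by_cases h0 : s₀ ∈ T
  · have e1 := count_roots_prod_X_sub_C_pow I (fun i => v (s i)) m (v s₀)
    have e2 := count_roots_prod_X_sub_C_pow J (fun j => v (s' j)) m' (v s₀)
    rw [h, e2] at e1
    have c1 : ∀ i ∈ I, (if v (s i) = v s₀ then m i else 0) = if s i = s₀ then m i else 0 := by
      intro i hi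
      by_cases hi0 : s i = s₀
      · rw [if_pos hi0, if_pos (by rw [hi0])]
      · rw [if_neg hi0, if_neg fun hh => hi0 (hv (hs i hi) h0 hh)]
    have c2 : ∀ j ∈ J, (if v (s' j) = v s₀ then m' j else 0) = if s' j = s₀ then m' j else 0 := by
      intro j hj
      by_cases hj0 : s' j = s₀
      · rw [if_pos hj0, if_pos (by rw [hj0])]
      · rw [if_neg hj0, if_neg fun hh => hj0 (hv (hs' j hj) h0 hh)]
    rw [Finset.sum_congr rfl c1, Finset.sum_congr rfl c2] at e1
    have e3 := congrArg (Nat.cast : ℕ → ℤ) e1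
    push_cast at e3
    rw [← e3]
  · rw [Finset.sum_eq_zero, Finset.sum_eq_zero]
    · intro j hj
      rw [if_neg]
      intro hh
      exact h0 (hh ▸ hs' j hj)
    · intro i hi
      rw [if_neg]
      intro hh
      exact h0 (hh ▸ hs i hi)

end RootCount

end Fermat.Agent.Gateway.ESC
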