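/-
helper44 (P-GATEWAY (c), ESC block, Step A part 2): calculus of values `HasValue P f c`
(helper64, `Red/ChartPlaces.lean`): finite sums and products, polynomials, transport along a
semilinear automorphism and along an embedding of function fields.
-/
import Fermat.Agent.Gateway.Red.ChartPlaces
import Fermat.Prelude.Def_AlgebraicCurve_Correspondence

set_option autoImplicit false

noncomputable section

namespace Fermat.Agent.Gateway.ESC

open Polynomial AlgebraicCurve Fermat.Agent.Gateway.Red

section Basic

variable {K F : Type*} [Field K] [Field F] [Algebra K F] {P : Place K F}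

theorem hasValue_one : HasValue P (1 : F) (1 : K) := by
  simpa using hasValue_algebraMap P (1 : K)

theorem hasValue_zero : HasValue P (0 : F) (0 : K) := by
  simpa using hasValue_algebraMap P (0 : K)

theorem HasValue.pow {f : F} {c : K} (h : HasValue P f c) (n : ℕ) : HasValue P (f ^ n) (c ^ n) := by
  induction n with
  | zero => simpa using hasValue_one
  | succ n ih => rw [pow_succ, pow_succ]; exact ih.mul h

theorem hasValue_sum {ι : Type*} (s : Finset ι) (f : ι → F) (c : ι → K)
    (h : ∀ i ∈ s, HasValue P (f i) (c i)) : HasValue P (∑ i ∈ s, f i) (∑ i ∈ s, c i) := by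
  classical
  induction s using Finset.induction_on with
  | empty => simpa using hasValue_zero
  | insert a s ha ih =>
    rw [Finset.sum_insert ha, Finset.sum_insert ha]
    exact (h a (Finset.mem_insert_self a s)).add
      (ih fun i hi => h i (Finset.mem_insert_of_mem hi))

theorem hasValue_prod {ι : Type*} (s : Finset ι) (f : ι → F) (c : ι → K)
    (h : ∀ i ∈ s, HasValue P (f i) (c i)) : HasValue P (∏ i ∈ s, f i) (∏ i ∈ s, c i) := by
  classical
  induction s using Finset.induction_on with
  | empty => simpa using hasValue_one
  | insert a s ha ih =>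
    rw [Finset.prod_insert ha, Finset.prod_insert ha]
    exact (h a (Finset.mem_insert_self a s)).mul
      (ih fun i hi => h i (Finset.mem_insert_of_mem hi))

/-- coefficientwise values of a polynomial -/
def PolyHasValue (P : Place K F) (p : F[X]) (q : K[X]) : Prop :=
  ∀ n, HasValue P (p.coeff n) (q.coeff n)

theorem PolyHasValue.add {p p' : F[X]} {q q' : K[X]} (h : PolyHasValue P p q)
    (h' : PolyHasValue P p' q') : PolyHasValue P (p + p') (q + q') := fun n => by
  rw [coeff_add, coeff_add]
  exact (h n).add (h' n)

theorem PolyHasValue.sub {p p' : F[X]} {q q' : K[X]} (h : PolyHasValue P p q)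
    (h' : PolyHasValue P p' q') : PolyHasValue P (p - p') (q - q') := fun n => by
  rw [coeff_sub, coeff_sub]
  exact (h n).sub (h' n)

theorem PolyHasValue.mul {p p' : F[X]} {q q' : K[X]} (h : PolyHasValue P p q)
    (h' : PolyHasValue P p' q') : PolyHasValue P (p * p') (q * q') := fun n => by
  rw [coeff_mul, coeff_mul]
  exact hasValue_sum _ _ _ fun x _ => (h x.1).mul (h' x.2)

theorem polyHasValue_one : PolyHasValue P (1 : F[X]) (1 : K[X]) := fun n => by
  rw [coeff_one, coeff_one]
  split_ifs
  · exact hasValue_one
  · exact hasValue_zero

theorem polyHasValue_X : PolyHasValue P (X : F[X]) (X : K[X]) := fun n => by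
  rw [coeff_X, coeff_X]
  split_ifs
  · exact hasValue_one
  · exact hasValue_zero

theorem polyHasValue_C {f : F} {c : K} (h : HasValue P f c) : PolyHasValue P (C f) (C c) :=
  fun n => by
    rw [coeff_C, coeff_C]
    split_ifs
    · exact h
    · exact hasValue_zero

theorem PolyHasValue.pow {p : F[X]} {q : K[X]} (h : PolyHasValue P p q) (n : ℕ) :
    PolyHasValue P (p ^ n) (q ^ n) := by
  induction n with
  | zero => simpa using polyHasValue_one
  | succ n ih => rw [pow_succ, pow_succ]; exact ih.mul h

theorem polyHasValue_prod {ι : Type*} (s : Finset ι) (p : ι → F[X]) (q : ι → K[X])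
    (h : ∀ i ∈ s, PolyHasValue P (p i) (q i)) :
    PolyHasValue P (∏ i ∈ s, p i) (∏ i ∈ s, q i) := by
  classical
  induction s using Finset.induction_on with
  | empty => simpa using polyHasValue_one
  | insert a s ha ih =>
    rw [Finset.prod_insert ha, Finset.prod_insert ha]
    exact (h a (Finset.mem_insert_self a s)).mul
      (ih fun i hi => h i (Finset.mem_insert_of_mem hi))

theorem PolyHasValue.unique {p : F[X]} {q q' : K[X]} (h : PolyHasValue P p q)
    (h' : PolyHasValue P p q') : q = q' :=
  Polynomial.ext fun n => (h n).unique (h' n)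

end Basic

section Semilinear

variable {K F : Type*} [Field K] [Field F] [Algebra K F]

theorem smul_mem_nonunits (g : SemilinearAut K F) (P : Place K F) {x : F}
    (hx : x ∈ P.toValuationSubring.nonunits) : g • x ∈ (g • P).toValuationSubring.nonunits := by
  rw [ValuationSubring.mem_nonunits_iff_or] at hx ⊢
  rcases hx with hx | hx
  · left
    rw [hx, smul_zero]
  · right
    intro h
    apply hx
    rw [SemilinearAut.smul_toValuationSubring,
      ValuationSubring.mem_pointwise_smul_iff_inv_smul_mem] at h
    rwa [← smul_inv'', inv_smul_smul] at h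

/-- transport of values along a semilinear automorphism -/
theorem HasValue.smul (g : SemilinearAut K F) {P : Place K F} {f : F} {c : K}
    (h : HasValue P f c) : HasValue (g • P) (g • f) (SemilinearAut.baseAut g c) := by
  have h1 := smul_mem_nonunits g P h
  rwa [smul_sub, SemilinearAut.smul_algebraMap] at h1

theorem hasValue_smul_iff (g : SemilinearAut K F) {P : Place K F} {f : F} {c : K} :
    HasValue (g • P) (g • f) (SemilinearAut.baseAut g c) ↔ HasValue P f c := by
  refine ⟨fun h => ?_, fun h => HasValue.smul g h⟩
  have h1 := HasValue.smul g⁻¹ h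
  rwa [inv_smul_smul, inv_smul_smul, SemilinearAut.baseAut_inv,
    show (SemilinearAut.baseAut g).symm (SemilinearAut.baseAut g c) = c from
      (SemilinearAut.baseAut g).symm_apply_apply c] at h1

end Semilinear

section Along

variable {K F F' : Type*} [Field K] [Field F] [Field F'] [Algebra K F] [Algebra K F']

/-- the value of a pulled back function at a place is its value at the restricted place -/
theorem hasValue_restrictAlong_iff (φ : F →ₐ[K] F') (hφ : φ.toRingHom.IsIntegral)
    (w : Place K F') (f : F) (c : K) :
    HasValue (w.restrictAlong φ hφ) f c ↔ HasValue w (φ f) c := by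
  have key : ∀ x : F, x ∈ (w.restrictAlong φ hφ).toValuationSubring.nonunits ↔
      φ x ∈ w.toValuationSubring.nonunits := by
    intro x
    rw [ValuationSubring.mem_nonunits_iff_or, ValuationSubring.mem_nonunits_iff_or]
    have h1 : x = 0 ↔ φ x = 0 := (map_eq_zero_iff φ φ.toRingHom.injective).symm
    have h2 : x⁻¹ ∈ (w.restrictAlong φ hφ).toValuationSubring ↔
        (φ x)⁻¹ ∈ w.toValuationSubring := by
      rw [← map_inv₀]
      rfl
    rw [h1, h2]
  rw [HasValue, HasValue, key, map_sub, AlgHom.commutes]

end Along

end Fermat.Agent.Gateway.ESC
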