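/-
helper44 (P-GATEWAY (c), ESC block, Step A part 3): the **Eichler-Shimura congruence at a place of
a chart**, abstract form.

Setting: a chart `Ch : ChartInput K A k F Fk` (helper64), a correspondence `(β, α) : F ⇉ F'`, a
semilinear automorphism `σ` of `Fk / k` inducing `c ↦ c ^ ℓ` on constants.  Inputs:
* `(KG)`: for `g ∈ O` the characteristic polynomial of `α g` over `β F` has coefficients in `O` and
  reduces to `(X - (σ⁻¹ ḡ)^ℓ) (X^ℓ - σ ḡ)` (`kronecker_gauss`);
* `(FC)`: the value at a place `v` of the characteristic polynomial of `y` is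
  `∏_{w | v} (X - y(w))^(e f)` (`FiberCharpolyAlong`, Step C);
* `(SUPP)`: the places of the support of `T (P₁)`, `P₁` reducing to `Q = red P`, are integral and
  reduce into a finite set `Sig` of places of the chart containing `σ Q` and `σ⁻¹ Q`.
Conclusion: `r_* (T P) = σ Q + ℓ σ⁻¹ Q`.
-/
import Fermat.Agent.Gateway.Red.ChartOfBase
import Fermat.Agent.Gateway.FkBasics.Sep
import Fermat.Agent.Gateway.ESC.ValueCalc
import Fermat.Agent.Gateway.ESC.RootCount
import Fermat.Agent.Gateway.ESC.CharpolyEmb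

set_option autoImplicit false
set_option linter.unusedSectionVars false

noncomputable section

namespace Fermat.Agent.Gateway.ESC

open Polynomial AlgebraicCurve IntermediateField Fermat.Agent.Gateway.Red

section Generalities

variable {K F F' : Type*} [Field K] [Field F] [Field F'] [Algebra K F] [Algebra K F']

/-- **Step C as a hypothesis**: the values of the coefficients of the characteristic polynomial
of `y ∈ F'` over `F` (along `β`) at a place `v` of `F`, in terms of the values of `y` at the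
places over `v`. -/
def FiberCharpolyAlong [HasPrincipalDivisors K F'] (β : F →ₐ[K] F')
    (hβ : β.toRingHom.IsIntegral) : Prop :=
  ∀ (v : Place K F) (y : F') (a : Place K F' → K),
    (∀ w ∈ Place.fiberAlong β hβ v, HasValue w y (a w)) →
    PolyHasValue v (charpolyAlongHom β.toRingHom y)
      (∏ w ∈ Place.fiberAlong β hβ v,
        (X - C (a w)) ^ (w.ramificationIndexAlong β * w.inertiaDegAlong β hβ))

theorem inertiaDegAlong_eq_one (hF : ∀ v : Place K F, v.deg = 1)
    (hF' : ∀ w : Place K F', w.deg = 1) (φ : F →ₐ[K] F') (hφ : φ.toRingHom.IsIntegral)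
    (w : Place K F') : w.inertiaDegAlong φ hφ = 1 := by
  let _ := algebraAlong φ
  have := isScalarTower_along φ
  have := isIntegral_along φ hφ
  have h := w.deg_restrict_mul_inertiaDeg (F := F)
  rw [hF, hF', one_mul] at h
  exact h

/-- the correspondence `α_* β^*` on a single place -/
theorem correspondence_single [HasPrincipalDivisors K F'] (α β : F →ₐ[K] F')
    (hα : α.toRingHom.IsIntegral) (hβ : β.toRingHom.IsIntegral) (P : Place K F) :
    Divisor.correspondence β α hβ hα (Finsupp.single P 1) =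
      ∑ W ∈ Place.fiberAlong β hβ P, Finsupp.single (W.restrictAlong α hα)
        ((W.ramificationIndexAlong β : ℤ) * W.inertiaDegAlong α hα) := by
  rw [Divisor.correspondence_apply, Divisor.pullbackAlong_single, map_sum]
  refine Finset.sum_congr rfl fun W _ => ?_
  rw [Divisor.pushforwardAlong_single, one_mul]

/-- existence of values at a place whose residue field is the constant field -/
theorem exists_hasValue_of_surjective (Q : Place K F)
    (hQ : Function.Surjective (algebraMap K Q.ResidueField)) {f : F}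
    (hf : f ∈ Q.toValuationSubring) : ∃ c : K, HasValue Q f c := by
  obtain ⟨c, hc⟩ := hQ (IsLocalRing.residue Q.toValuationSubring ⟨f, hf⟩)
  refine ⟨c, ?_⟩
  rw [hasValue_iff]
  exact ⟨hf, hc.symm⟩

end Generalities

section Abstract

variable {K : Type*} [Field K] {A : ValuationSubring K} {k : Type*} [Field k]
  {F : Type*} [Field F] [Algebra K F] {Fk : Type*} [Field Fk] [Algebra k Fk]
  (Ch : ChartInput K A k F Fk)
  [IsAlgClosed K] [FiniteDimensional K⟮Ch.t⟯ F] [Algebra.IsSeparable K⟮Ch.t⟯ F]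
  [IsAlgClosed k] [FiniteDimensional k⟮Ch.tb⟯ Fk] [Algebra.IsSeparable k⟮Ch.tb⟯ Fk]
  {F' : Type*} [Field F'] [Algebra K F'] [HasPrincipalDivisors K F']
  (α β : F →ₐ[K] F') (hα : α.toRingHom.IsIntegral) (hβ : β.toRingHom.IsIntegral)

/-- **The polynomial identity of values**: for `ḡ` regular on `Sig`, with value function `v`,
`∏_{W | P} (X - v(r(W|α)))^(e f) = (X - v(σ Q)) (X - v(σ⁻¹ Q))^ℓ`. -/
theorem chart_value_identity
    (hFC : FiberCharpolyAlong β hβ)
    (σ : SemilinearAut k Fk) (ℓ : ℕ) [Fact ℓ.Prime] [CharP k ℓ]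
    (hσ : ∀ c : k, SemilinearAut.baseAut σ c = c ^ ℓ)
    (hKG : ∀ g : Ch.O, ∃ H : (Ch.O)[X],
      H.map Ch.O.subtype = charpolyAlongHom β.toRingHom (α (g : F)) ∧
      H.map Ch.res = (X - C ((σ⁻¹ • Ch.res g) ^ ℓ)) * (X ^ ℓ - C (σ • Ch.res g)))
    (P : Place K F) (hP : Ch.IsIntegralPlace P) (Sig : Finset (Place k Fk))
    (hSig : ∀ Q' ∈ Sig, Ch.tb ∈ Q'.toValuationSubring)
    (h1 : σ • Ch.red P hP ∈ Sig) (h2 : σ⁻¹ • Ch.red P hP ∈ Sig)
    (hsupp : ∀ P₁ ∈ Ch.redFibre (Ch.red P hP), ∀ W ∈ Place.fiberAlong β hβ P₁,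
      ∃ h : Ch.IsIntegralPlace (W.restrictAlong α hα), Ch.red _ h ∈ Sig)
    (gb : Fk) (v : Place k Fk → k) (hv : ∀ Q' ∈ Sig, HasValue Q' gb (v Q'))
    (r : Place K F → Place k Fk)
    (hr : ∀ P' (h : Ch.IsIntegralPlace P'), Ch.red P' h ∈ Sig → r P' = Ch.red P' h) :
    ∏ W ∈ Place.fiberAlong β hβ P, (X - C (v (r (W.restrictAlong α hα)))) ^
        (W.ramificationIndexAlong β * W.inertiaDegAlong β hβ) =
      (X - C (v (σ • Ch.red P hP))) * (X - C (v (σ⁻¹ • Ch.red P hP))) ^ ℓ := by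
  classical
  set Q := Ch.red P hP with hQdef
  have htbQ : Ch.tb ∈ Q.toValuationSubring := Ch.tb_mem_red P hP
  -- lift `gb`
  obtain ⟨g, hg, hreg⟩ := Ch.lifting_red gb Sig
    (fun Q' hQ' => ⟨hSig Q' hQ', (hv Q' hQ').mem⟩)
  -- values of `g` at the integral places reducing into `Sig`
  have hval : ∀ P' (h : Ch.IsIntegralPlace P'), Ch.red P' h ∈ Sig →
      ∃ a : A, HasValue P' (g : F) (a : K) ∧ Ch.π a = v (r P') := by
    intro P' h hmem
    obtain ⟨-, hall⟩ := Ch.semiLocal_red g (Ch.red P' h) (hSig _ hmem) (hreg _ hmem)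
    obtain ⟨a, ha, ha'⟩ := hall P' ⟨h, rfl⟩
    refine ⟨a, ha, ?_⟩
    rw [hg] at ha'
    rw [hr P' h hmem]
    exact ha'.unique (hv _ hmem)
  -- the chosen values
  set aA : Place K F' → A := fun W =>
    if h : ∃ a : A, HasValue (W.restrictAlong α hα) (g : F) (a : K) then h.choose else 0
    with haA
  have haA_spec : ∀ P₁ ∈ Ch.redFibre Q, ∀ W ∈ Place.fiberAlong β hβ P₁,
      HasValue W (α (g : F)) ((aA W : A) : K) ∧ Ch.π (aA W) = v (r (W.restrictAlong α hα)) := by
    intro P₁ hP₁ W hW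
    obtain ⟨h, hmem⟩ := hsupp P₁ hP₁ W hW
    obtain ⟨a, ha, hπa⟩ := hval _ h hmem
    have hex : ∃ a : A, HasValue (W.restrictAlong α hα) (g : F) (a : K) := ⟨a, ha⟩
    have hch : HasValue (W.restrictAlong α hα) (g : F) ((aA W : A) : K) := by
      rw [haA]
      simp only [dif_pos hex]
      exact hex.choose_spec
    refine ⟨(hasValue_restrictAlong_iff α hα W _ _).mp hch, ?_⟩
    have : aA W = a := Subtype.ext (hch.unique ha)
    rw [this, hπa]
  -- the integral polynomial of values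
  set G : A[X] := ∏ W ∈ Place.fiberAlong β hβ P,
    (X - C (aA W)) ^ (W.ramificationIndexAlong β * W.inertiaDegAlong β hβ) with hG
  have hGK : G.map A.subtype = ∏ W ∈ Place.fiberAlong β hβ P,
      (X - C ((aA W : A) : K)) ^ (W.ramificationIndexAlong β * W.inertiaDegAlong β hβ) := by
    rw [hG, Polynomial.map_prod]
    refine Finset.prod_congr rfl fun W _ => ?_
    rw [Polynomial.map_pow, Polynomial.map_sub, Polynomial.map_X, Polynomial.map_C]
    rfl
  have hPQ : P ∈ Ch.redFibre Q := ⟨hP, rfl⟩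
  have hGk : G.map Ch.π = ∏ W ∈ Place.fiberAlong β hβ P,
      (X - C (v (r (W.restrictAlong α hα)))) ^
        (W.ramificationIndexAlong β * W.inertiaDegAlong β hβ) := by
    rw [hG, Polynomial.map_prod]
    refine Finset.prod_congr rfl fun W hW => ?_
    rw [Polynomial.map_pow, Polynomial.map_sub, Polynomial.map_X, Polynomial.map_C,
      (haA_spec P hPQ W hW).2]
  -- the characteristic polynomial
  obtain ⟨H, hH1, hH2⟩ := hKG g
  have hcoeff : ∀ n, ((H.coeff n : Ch.O) : F) =
      (charpolyAlongHom β.toRingHom (α (g : F))).coeff n := by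
    intro n
    rw [← hH1, coeff_map]
    rfl
  -- Step C at all places of the fibre
  have hstepC : ∀ P₁ ∈ Ch.redFibre Q, PolyHasValue P₁ (charpolyAlongHom β.toRingHom (α (g : F)))
      (∏ W ∈ Place.fiberAlong β hβ P₁,
        (X - C ((aA W : A) : K)) ^ (W.ramificationIndexAlong β * W.inertiaDegAlong β hβ)) :=
    fun P₁ hP₁ => hFC P₁ (α (g : F)) (fun W => ((aA W : A) : K))
      (fun W hW => (haA_spec P₁ hP₁ W hW).1)
  -- values of the coefficients at `Q`
  have hQval : PolyHasValue Q (H.map Ch.res) (G.map Ch.π) := by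
    intro n
    have hregn : ∀ P₁ ∈ Ch.redFibre Q, ((H.coeff n : Ch.O) : F) ∈ P₁.toValuationSubring := by
      intro P₁ hP₁
      rw [hcoeff n]
      exact (hstepC P₁ hP₁ n).mem
    obtain ⟨-, hall⟩ := Ch.semiLocal_red (H.coeff n) Q htbQ hregn
    obtain ⟨a, ha, ha'⟩ := hall P hPQ
    have h3 := hstepC P hPQ n
    rw [← hcoeff n, ← hGK, coeff_map] at h3
    have hae : a = G.coeff n := Subtype.ext (ha.unique h3)
    rw [coeff_map, coeff_map, ← hae]
    exact ha'
  -- the other description of the values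
  have hb1 : HasValue Q ((σ⁻¹ • gb) ^ ℓ) (v (σ • Q)) := by
    have e1 := HasValue.smul σ⁻¹ (hv _ h1)
    rw [inv_smul_smul] at e1
    have e2 := HasValue.pow e1 ℓ
    have e3 : (SemilinearAut.baseAut σ⁻¹ (v (σ • Q))) ^ ℓ = v (σ • Q) := by
      rw [← hσ, SemilinearAut.baseAut_inv]
      exact (SemilinearAut.baseAut σ).apply_symm_apply _
    rwa [e3] at e2
  have hb2 : HasValue Q (σ • gb) (v (σ⁻¹ • Q) ^ ℓ) := by
    have e1 := HasValue.smul σ (hv _ h2)
    rwa [smul_inv_smul, hσ] at e1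
  have hQval' : PolyHasValue Q (H.map Ch.res)
      ((X - C (v (σ • Q))) * (X ^ ℓ - C (v (σ⁻¹ • Q) ^ ℓ))) := by
    rw [hH2, hg]
    exact (polyHasValue_X.sub (polyHasValue_C hb1)).mul
      ((polyHasValue_X.pow ℓ).sub (polyHasValue_C hb2))
  have hfin := hQval.unique hQval'
  rw [hGk] at hfin
  rw [hfin, sub_pow_char, ← C_pow]

/-- **Eichler-Shimura congruence at a place of a chart** (abstract form). -/
theorem chart_congruence
    (hdegF' : ∀ w : Place K F', w.deg = 1)
    (hFC : FiberCharpolyAlong β hβ)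
    (σ : SemilinearAut k Fk) (ℓ : ℕ) [Fact ℓ.Prime] [CharP k ℓ]
    (hσ : ∀ c : k, SemilinearAut.baseAut σ c = c ^ ℓ)
    (hKG : ∀ g : Ch.O, ∃ H : (Ch.O)[X],
      H.map Ch.O.subtype = charpolyAlongHom β.toRingHom (α (g : F)) ∧
      H.map Ch.res = (X - C ((σ⁻¹ • Ch.res g) ^ ℓ)) * (X ^ ℓ - C (σ • Ch.res g)))
    (P : Place K F) (hP : Ch.IsIntegralPlace P) (Sig : Finset (Place k Fk))
    (hSig : ∀ Q' ∈ Sig, Ch.tb ∈ Q'.toValuationSubring)
    (h1 : σ • Ch.red P hP ∈ Sig) (h2 : σ⁻¹ • Ch.red P hP ∈ Sig)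
    (hsupp : ∀ P₁ ∈ Ch.redFibre (Ch.red P hP), ∀ W ∈ Place.fiberAlong β hβ P₁,
      ∃ h : Ch.IsIntegralPlace (W.restrictAlong α hα), Ch.red _ h ∈ Sig)
    (hsep : ∃ gb : Fk, (∀ Q' ∈ Sig, gb ∈ Q'.toValuationSubring) ∧
      ∀ Q' ∈ Sig, ∀ Q'' ∈ Sig, ∀ c, HasValue Q' gb c → HasValue Q'' gb c → Q' = Q'')
    (r : Place K F → Place k Fk)
    (hr : ∀ P' (h : Ch.IsIntegralPlace P'), Ch.red P' h ∈ Sig → r P' = Ch.red P' h) :
    Finsupp.mapDomain r (Divisor.correspondence β α hβ hα (Finsupp.single P 1)) =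
      Finsupp.single (σ • Ch.red P hP) 1 + (ℓ : ℤ) • Finsupp.single (σ⁻¹ • Ch.red P hP) 1 := by
  classical
  set Q := Ch.red P hP with hQdef
  obtain ⟨gb, hgb, hinj⟩ := hsep
  have hres : ∀ Q' : Place k Fk, Function.Surjective (algebraMap k Q'.ResidueField) :=
    fun Q' => FkBasics.residue_surjective Ch.tb_transcendental Q'
  -- the value function
  have hex : ∀ Q' ∈ Sig, ∃ c : k, HasValue Q' gb c :=
    fun Q' hQ' => exists_hasValue_of_surjective Q' (hres Q') (hgb Q' hQ')
  set v : Place k Fk → k := fun Q' => if h : ∃ c : k, HasValue Q' gb c then h.choose else 0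
    with hvdef
  have hv : ∀ Q' ∈ Sig, HasValue Q' gb (v Q') := by
    intro Q' hQ'
    rw [hvdef]
    simp only [dif_pos (hex Q' hQ')]
    exact (hex Q' hQ').choose_spec
  have hvinj : Set.InjOn v (Sig : Set (Place k Fk)) := by
    intro Q' hQ' Q'' hQ'' he
    refine hinj Q' hQ' Q'' hQ'' (v Q') (hv Q' hQ') ?_
    rw [he]
    exact hv Q'' hQ''
  have hid := chart_value_identity Ch α β hα hβ hFC σ ℓ hσ hKG P hP Sig hSig h1 h2 hsupp gb v hv
    r hr
  have hdegF : ∀ w : Place K F, w.deg = 1 :=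
    fun w => FkBasics.deg_eq_one Ch.t_transcendental w
  have hPQ : P ∈ Ch.redFibre Q := ⟨hP, rfl⟩
  -- both sides as weighted families
  have hL : Finsupp.mapDomain r (Divisor.correspondence β α hβ hα (Finsupp.single P 1)) =
      ∑ W ∈ Place.fiberAlong β hβ P, Finsupp.single (r (W.restrictAlong α hα))
        (((W.ramificationIndexAlong β * W.inertiaDegAlong β hβ : ℕ)) : ℤ) := by
    rw [correspondence_single, Finsupp.mapDomain_finsetSum]
    refine Finset.sum_congr rfl fun W _ => ?_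
    rw [Finsupp.mapDomain_single, inertiaDegAlong_eq_one hdegF hdegF' α hα,
      inertiaDegAlong_eq_one hdegF hdegF' β hβ]
    push_cast
    rfl
  have hR : Finsupp.single (σ • Q) (1 : ℤ) + (ℓ : ℤ) • Finsupp.single (σ⁻¹ • Q) (1 : ℤ) =
      ∑ j ∈ (Finset.univ : Finset Bool),
        Finsupp.single (if j then σ • Q else σ⁻¹ • Q) (((if j then 1 else ℓ : ℕ)) : ℤ) := by
    rw [Fintype.sum_bool]
    simp
  rw [hL, hR]
  refine sum_single_eq_of_prod_eq _ _ _ _ _ _ v (Sig : Set (Place k Fk)) hvinj ?_ ?_ ?_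
  · intro W hW
    obtain ⟨h, hmem⟩ := hsupp P hPQ W hW
    rw [hr _ h hmem]
    exact hmem
  · intro j _
    cases j
    · exact h2
    · exact h1
  · rw [hid, Fintype.prod_bool]
    simp
    rfl

end Abstract

end Fermat.Agent.Gateway.ESC
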