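/-
helper44 (P-GATEWAY (c), ESC block, Step A part 4): a function of the chart ring separating
finitely many places of a chart (Chinese remainder theorem in the Dedekind chart ring).
-/
import Fermat.Agent.Gateway.Red.ChartPlaces

set_option autoImplicit false
set_option linter.unusedSectionVars false

noncomputable section

namespace Fermat.Agent.Gateway.ESC

open Polynomial AlgebraicCurve IntermediateField IsDedekindDomain Fermat.Agent.Gateway.Red

section Sep

variable {K F : Type*} [Field K] [Field F] [Algebra K F] (x : F)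
  [IsDedekindDomain ↥(integralClosure ↥(Algebra.adjoin K {x}) F)]
  [IsFractionRing ↥(integralClosure ↥(Algebra.adjoin K {x}) F) F]

/-- a function of the chart ring with prescribed values at finitely many places of the chart -/
theorem exists_hasValue_prescribed (Sig : Finset (Place K F))
    (hSig : ∀ Q ∈ Sig, x ∈ Q.toValuationSubring) (c : Place K F → K) :
    ∃ b : ↥(integralClosure ↥(Algebra.adjoin K {x}) F), ∀ Q ∈ Sig, HasValue Q (b : F) (c Q) := by
  classical
  set Pid : Place K F → Ideal ↥(integralClosure ↥(Algebra.adjoin K {x}) F) := fun Q =>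
    if h : x ∈ Q.toValuationSubring then (chartPrime x Q h).asIdeal else ⊥ with hPid
  have hPid_eq : ∀ Q (h : x ∈ Q.toValuationSubring), Pid Q = (chartPrime x Q h).asIdeal := by
    intro Q h
    rw [hPid]
    simp only [dif_pos h]
  obtain ⟨y, hy⟩ := IsDedekindDomain.exists_forall_sub_mem_ideal (s := Sig) Pid (fun _ => 1)
    (fun Q hQ => by
      rw [hPid_eq Q (hSig Q hQ)]
      exact (chartPrime x Q (hSig Q hQ)).prime)
    (fun Q hQ Q' hQ' hne he => by
      rw [hPid_eq Q (hSig Q hQ), hPid_eq Q' (hSig Q' hQ')] at he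
      apply hne
      have h1 : chartPrime x Q (hSig Q hQ) = chartPrime x Q' (hSig Q' hQ') :=
        HeightOneSpectrum.ext he
      rw [← chartPlace_chartPrime x Q (hSig Q hQ), h1, chartPlace_chartPrime])
    (fun Q => algebraMap K _ (c Q.1))
  refine ⟨y, fun Q hQ => ?_⟩
  have h1 := hy Q hQ
  rw [pow_one, hPid_eq Q (hSig Q hQ), mem_chartPrime_iff] at h1
  exact h1

/-- **a separating function**: regular at the given places of the chart with pairwise distinct
values -/
theorem exists_separating [Infinite K] (Sig : Finset (Place K F))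
    (hSig : ∀ Q ∈ Sig, x ∈ Q.toValuationSubring) :
    ∃ gb : F, (∀ Q ∈ Sig, gb ∈ Q.toValuationSubring) ∧
      ∀ Q ∈ Sig, ∀ Q' ∈ Sig, ∀ c : K, HasValue Q gb c → HasValue Q' gb c → Q = Q' := by
  classical
  set c : Place K F → K := fun Q =>
    if h : Q ∈ Sig then Infinite.natEmbedding K ((Sig.equivFin ⟨Q, h⟩ : Fin _) : ℕ) else 0
    with hc
  have hcinj : ∀ Q ∈ Sig, ∀ Q' ∈ Sig, c Q = c Q' → Q = Q' := by
    intro Q hQ Q' hQ' he
    rw [hc] at he
    simp only [dif_pos hQ, dif_pos hQ'] at he
    have h1 := (Infinite.natEmbedding K).injective he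
    have h2 := Sig.equivFin.injective (Fin.ext h1)
    exact congrArg Subtype.val h2
  obtain ⟨b, hb⟩ := exists_hasValue_prescribed x Sig hSig c
  refine ⟨(b : F), fun Q hQ => (hb Q hQ).mem, fun Q hQ Q' hQ' d h1 h2 => ?_⟩
  apply hcinj Q hQ Q' hQ'
  rw [(hb Q hQ).unique h1, (hb Q' hQ').unique h2]

end Sep

end Fermat.Agent.Gateway.ESC
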