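/-
helper44 (P-GATEWAY (c), ESC block, Step A part 6): the Eichler-Shimura congruence at a place of a
chart whose coordinate `t` satisfies a modular relation `Φ(α t, β t) = 0` (chart `j`), resp.
`Φ((β t)⁻¹, (α t)⁻¹) = 0` (chart `1/j`, at the places where `t` has a value in `m_A`).  The support
condition `(SUPP)` and the separating function of `chart_congruence` are discharged here.
-/
import Fermat.Agent.Gateway.ESC.ChartCongruence
import Fermat.Agent.Gateway.ESC.RelPlaces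
import Fermat.Agent.Gateway.ESC.Separating

set_option autoImplicit false
set_option linter.unusedSectionVars false

noncomputable section

namespace Fermat.Agent.Gateway.ESC

open Polynomial AlgebraicCurve IntermediateField Fermat.Agent.Gateway.Red
open Fermat.Agent.S28

section Abstract

variable {K : Type*} [Field K] {A : ValuationSubring K} {k : Type*} [Field k]
  {F : Type*} [Field F] [Algebra K F] {Fk : Type*} [Field Fk] [Algebra k Fk]
  (Ch : ChartInput K A k F Fk)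
  [IsAlgClosed K] [FiniteDimensional K⟮Ch.t⟯ F] [Algebra.IsSeparable K⟮Ch.t⟯ F]
  [IsAlgClosed k] [FiniteDimensional k⟮Ch.tb⟯ Fk] [Algebra.IsSeparable k⟮Ch.tb⟯ Fk]

theorem tb_sub_ne_zero (c : k) : Ch.tb - algebraMap k Fk c ≠ 0 := by
  intro h
  have h' : Ch.tb = algebraMap k Fk c := sub_eq_zero.mp h
  have h2 : IsAlgebraic k Ch.tb := h' ▸ isAlgebraic_algebraMap _
  exact Ch.tb_transcendental h2

/-- the places where `tb` takes a given value form a finite set -/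
theorem finite_hasValue_tb (c : k) : {Q' : Place k Fk | HasValue Q' Ch.tb c}.Finite := by
  obtain ⟨Z, hZ, -⟩ := FkBasics.exists_finset_fibre Ch.tb_transcendental c
  refine Z.finite_toSet.subset fun Q' hQ' => ?_
  rw [Finset.mem_coe, hZ, Fermat.Agent.S24.ZP.ord_pos_iff _ (tb_sub_ne_zero Ch c)]
  exact hQ'

include Ch in
theorem exists_hasValue_Fk (Q : Place k Fk) {f : Fk} (hf : f ∈ Q.toValuationSubring) :
    ∃ c : k, HasValue Q f c :=
  exists_hasValue_of_surjective Q (FkBasics.residue_surjective Ch.tb_transcendental Q) hf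

/-- the places `Q'` of the chart with `Φ(tb(Q'), tb(Q)) = 0` -/
def relSet (Φ : ℤ[X][X]) (Q : Place k Fk) : Set (Place k Fk) :=
  {Q' | ∃ c c₀ : k, HasValue Q' Ch.tb c ∧ HasValue Q Ch.tb c₀ ∧ Tower.Rel Φ c c₀}

theorem relSet_finite {Φ : ℤ[X][X]} (hΦ : Φ.Monic) (Q : Place k Fk) :
    (relSet Ch Φ Q).Finite := by
  classical
  by_cases h : ∃ c₀ : k, HasValue Q Ch.tb c₀
  · obtain ⟨c₀, hc₀⟩ := h
    have hfin : (⋃ c ∈ ((Tower.polyAt Φ c₀).roots.toFinset : Set k),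
        {Q' : Place k Fk | HasValue Q' Ch.tb c}).Finite :=
      Set.Finite.biUnion (Finset.finite_toSet _) fun c _ => finite_hasValue_tb Ch c
    refine hfin.subset ?_
    rintro Q' ⟨c, c₀', hc, hc₀', hrel⟩
    have e : c₀' = c₀ := hc₀'.unique hc₀
    rw [e] at hrel
    refine Set.mem_biUnion (x := c) ?_ hc
    rw [Finset.mem_coe, Multiset.mem_toFinset, mem_roots (Tower.polyAt_monic hΦ c₀).ne_zero]
    exact hrel
  · refine Set.finite_empty.subset ?_
    rintro Q' ⟨c, c₀, -, hc₀, -⟩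
    exact (h ⟨c₀, hc₀⟩).elim

variable {F' : Type*} [Field F'] [Algebra K F'] [HasPrincipalDivisors K F']
  (α β : F →ₐ[K] F') (hα : α.toRingHom.IsIntegral) (hβ : β.toRingHom.IsIntegral)

/-- **Eichler-Shimura congruence at an integral place of a chart with a modular relation
`Φ(α t, β t) = 0`** (chart `j`). -/
theorem chart_congruence_rel
    (hdegF' : ∀ w : Place K F', w.deg = 1)
    (hresF' : ∀ w : Place K F', Function.Surjective (algebraMap K w.ResidueField))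
    (hFC : FiberCharpolyAlong β hβ)
    (σ : SemilinearAut k Fk) (ℓ : ℕ) [Fact ℓ.Prime] [CharP k ℓ]
    (hσ : ∀ c : k, SemilinearAut.baseAut σ c = c ^ ℓ)
    (hKG : ∀ g : Ch.O, ∃ H : (Ch.O)[X],
      H.map Ch.O.subtype = charpolyAlongHom β.toRingHom (α (g : F)) ∧
      H.map Ch.res = (X - C ((σ⁻¹ • Ch.res g) ^ ℓ)) * (X ^ ℓ - C (σ • Ch.res g)))
    (hσt : σ • Ch.tb = Ch.tb)
    (Φ : ℤ[X][X]) (hΦ : Φ.Monic) (hrel : Tower.Rel Φ (α Ch.t) (β Ch.t))
    (P : Place K F) (hP : Ch.IsIntegralPlace P)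
    (r : Place K F → Place k Fk) (hr : ∀ P' (h : Ch.IsIntegralPlace P'), r P' = Ch.red P' h) :
    Finsupp.mapDomain r (Divisor.correspondence β α hβ hα (Finsupp.single P 1)) =
      Finsupp.single (σ • Ch.red P hP) 1 + (ℓ : ℤ) • Finsupp.single (σ⁻¹ • Ch.red P hP) 1 := by
  classical
  set Q := Ch.red P hP with hQdef
  have htbQ : Ch.tb ∈ Q.toValuationSubring := Ch.tb_mem_red P hP
  obtain ⟨c₀, hc₀⟩ := exists_hasValue_Fk Ch Q htbQ
  have hσt' : σ⁻¹ • Ch.tb = Ch.tb := by rw [inv_smul_eq_iff, hσt]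
  have hm1 : Ch.tb ∈ (σ • Q).toValuationSubring := by
    have := HasValue.smul σ hc₀
    rw [hσt] at this
    exact this.mem
  have hm2 : Ch.tb ∈ (σ⁻¹ • Q).toValuationSubring := by
    have := HasValue.smul σ⁻¹ hc₀
    rw [hσt'] at this
    exact this.mem
  set Sig : Finset (Place k Fk) := (relSet_finite Ch hΦ Q).toFinset ∪ {σ • Q, σ⁻¹ • Q} with hSigdef
  have hSig : ∀ Q' ∈ Sig, Ch.tb ∈ Q'.toValuationSubring := by
    intro Q' hQ'
    rw [hSigdef, Finset.mem_union, Set.Finite.mem_toFinset, Finset.mem_insert,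
      Finset.mem_singleton] at hQ'
    rcases hQ' with ⟨c, -, hc, -, -⟩ | rfl | rfl
    · exact hc.mem
    · exact hm1
    · exact hm2
  have h1 : σ • Q ∈ Sig := by
    rw [hSigdef, Finset.mem_union, Finset.mem_insert]
    exact Or.inr (Or.inl rfl)
  have h2 : σ⁻¹ • Q ∈ Sig := by
    rw [hSigdef, Finset.mem_union, Finset.mem_insert, Finset.mem_singleton]
    exact Or.inr (Or.inr rfl)
  have hsupp : ∀ P₁ ∈ Ch.redFibre Q, ∀ W ∈ Place.fiberAlong β hβ P₁,
      ∃ h : Ch.IsIntegralPlace (W.restrictAlong α hα), Ch.red _ h ∈ Sig := by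
    rintro P₁ ⟨hP₁, hP₁Q⟩ W hW
    obtain ⟨b, hb⟩ := id hP₁
    have hWβ : W.restrictAlong β hβ = P₁ := Place.mem_fiberAlong.mp hW
    have hb' : HasValue W (β Ch.t) (b : K) := by
      rw [← hasValue_restrictAlong_iff β hβ, hWβ]
      exact hb
    obtain ⟨a, ha, hab⟩ := supp_chart A Ch.π hΦ hrel W (hresF' W) b hb'
    have ha' : HasValue (W.restrictAlong α hα) Ch.t (a : K) :=
      (hasValue_restrictAlong_iff α hα W _ _).mpr ha
    have hint : Ch.IsIntegralPlace (W.restrictAlong α hα) := ⟨a, ha'⟩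
    refine ⟨hint, ?_⟩
    have htint : IsIntegral (Algebra.adjoin K {Ch.t}) ((⟨Ch.t, Ch.t_mem⟩ : Ch.O) : F) :=
      isIntegral_algebraMap (x := (⟨Ch.t, Algebra.subset_adjoin rfl⟩ : Algebra.adjoin K {Ch.t}))
    have v1 : HasValue (Ch.red _ hint) Ch.tb (Ch.π a) :=
      Ch.hasValue_red _ hint ⟨Ch.t, Ch.t_mem⟩ htint a ha'
    have v2 : HasValue Q Ch.tb (Ch.π b) := by
      have := Ch.hasValue_red P₁ hP₁ ⟨Ch.t, Ch.t_mem⟩ htint b hb
      rwa [hP₁Q] at this
    rw [hSigdef, Finset.mem_union, Set.Finite.mem_toFinset]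
    exact Or.inl ⟨Ch.π a, Ch.π b, v1, v2, hab⟩
  exact chart_congruence Ch α β hα hβ hdegF' hFC σ ℓ hσ hKG P hP Sig hSig h1 h2 hsupp
    (exists_separating Ch.tb Sig hSig) r (fun P' h _ => hr P' h)

/-- **Eichler-Shimura congruence at a place of a chart where the coordinate has a value in
`m_A`, with a modular relation `Φ((β t)⁻¹, (α t)⁻¹) = 0`** (chart `1/j`, at the places reducing
to cusps). -/
theorem chart_congruence_rel_inv
    (hdegF' : ∀ w : Place K F', w.deg = 1)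
    (hresF' : ∀ w : Place K F', Function.Surjective (algebraMap K w.ResidueField))
    (hFC : FiberCharpolyAlong β hβ)
    (σ : SemilinearAut k Fk) (ℓ : ℕ) [Fact ℓ.Prime] [CharP k ℓ]
    (hσ : ∀ c : k, SemilinearAut.baseAut σ c = c ^ ℓ)
    (hKG : ∀ g : Ch.O, ∃ H : (Ch.O)[X],
      H.map Ch.O.subtype = charpolyAlongHom β.toRingHom (α (g : F)) ∧
      H.map Ch.res = (X - C ((σ⁻¹ • Ch.res g) ^ ℓ)) * (X ^ ℓ - C (σ • Ch.res g)))
    (hσt : σ • Ch.tb = Ch.tb)
    (Φ : ℤ[X][X]) (hΦ : Φ.Monic) (hrel : Tower.Rel Φ (β Ch.t)⁻¹ (α Ch.t)⁻¹)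
    (P : Place K F) (b₀ : A) (hb₀ : b₀ ∈ IsLocalRing.maximalIdeal A)
    (hPb : HasValue P Ch.t (b₀ : K))
    (r : Place K F → Place k Fk)
    (hr : ∀ P' (a : A), a ∈ IsLocalRing.maximalIdeal A → ∀ h : HasValue P' Ch.t (a : K),
      r P' = Ch.red P' ⟨a, h⟩) :
    Finsupp.mapDomain r (Divisor.correspondence β α hβ hα (Finsupp.single P 1)) =
      Finsupp.single (σ • Ch.red P ⟨b₀, hPb⟩) 1 +
        (ℓ : ℤ) • Finsupp.single (σ⁻¹ • Ch.red P ⟨b₀, hPb⟩) 1 := by
  classical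
  have hP : Ch.IsIntegralPlace P := ⟨b₀, hPb⟩
  set Q := Ch.red P hP with hQdef
  have htint : IsIntegral (Algebra.adjoin K {Ch.t}) ((⟨Ch.t, Ch.t_mem⟩ : Ch.O) : F) :=
    isIntegral_algebraMap (x := (⟨Ch.t, Algebra.subset_adjoin rfl⟩ : Algebra.adjoin K {Ch.t}))
  have hQ0 : HasValue Q Ch.tb 0 := by
    have := Ch.hasValue_red P hP ⟨Ch.t, Ch.t_mem⟩ htint b₀ hPb
    rwa [(Ch.π_ker b₀).mpr hb₀] at this
  have hσt' : σ⁻¹ • Ch.tb = Ch.tb := by rw [inv_smul_eq_iff, hσt]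
  set Sig : Finset (Place k Fk) := (finite_hasValue_tb Ch 0).toFinset with hSigdef
  have hmemSig : ∀ Q', Q' ∈ Sig ↔ HasValue Q' Ch.tb 0 := by
    intro Q'
    rw [hSigdef, Set.Finite.mem_toFinset]
    rfl
  have hSig : ∀ Q' ∈ Sig, Ch.tb ∈ Q'.toValuationSubring :=
    fun Q' hQ' => ((hmemSig Q').mp hQ').mem
  have h1 : σ • Q ∈ Sig := by
    rw [hmemSig]
    have := HasValue.smul σ hQ0
    rwa [hσt, map_zero] at this
  have h2 : σ⁻¹ • Q ∈ Sig := by
    rw [hmemSig]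
    have := HasValue.smul σ⁻¹ hQ0
    rwa [hσt', map_zero] at this
  have hβt0 : (β Ch.t)⁻¹ ≠ 0 := by
    rw [Ne, inv_eq_zero, map_eq_zero_iff β β.toRingHom.injective]
    intro h0
    apply Ch.t_transcendental
    rw [h0]
    exact isAlgebraic_zero
  -- integral places reducing into `Sig` have coordinate in `m_A`
  have hmA : ∀ P' (a : A) (h : HasValue P' Ch.t (a : K)), Ch.red P' ⟨a, h⟩ ∈ Sig →
      a ∈ IsLocalRing.maximalIdeal A := by
    intro P' a h hmem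
    have v1 := Ch.hasValue_red P' ⟨a, h⟩ ⟨Ch.t, Ch.t_mem⟩ htint a h
    have := v1.unique ((hmemSig _).mp hmem)
    exact (Ch.π_ker a).mp this
  have hsupp : ∀ P₁ ∈ Ch.redFibre Q, ∀ W ∈ Place.fiberAlong β hβ P₁,
      ∃ h : Ch.IsIntegralPlace (W.restrictAlong α hα), Ch.red _ h ∈ Sig := by
    rintro P₁ ⟨hP₁, hP₁Q⟩ W hW
    obtain ⟨b, hb⟩ := id hP₁
    have hbm : b ∈ IsLocalRing.maximalIdeal A := by
      have v2 := Ch.hasValue_red P₁ hP₁ ⟨Ch.t, Ch.t_mem⟩ htint b hb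
      rw [hP₁Q] at v2
      exact (Ch.π_ker b).mp (v2.unique hQ0)
    have hWβ : W.restrictAlong β hβ = P₁ := Place.mem_fiberAlong.mp hW
    have hb' : HasValue W ((β Ch.t)⁻¹)⁻¹ (b : K) := by
      rw [inv_inv, ← hasValue_restrictAlong_iff β hβ, hWβ]
      exact hb
    obtain ⟨a, ham, ha⟩ := supp_chart_inv A hΦ hrel hβt0 W (hresF' W) b hbm hb'
    rw [inv_inv] at ha
    have ha' : HasValue (W.restrictAlong α hα) Ch.t (a : K) :=
      (hasValue_restrictAlong_iff α hα W _ _).mpr ha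
    have hint : Ch.IsIntegralPlace (W.restrictAlong α hα) := ⟨a, ha'⟩
    refine ⟨hint, ?_⟩
    rw [hmemSig]
    have v1 := Ch.hasValue_red _ hint ⟨Ch.t, Ch.t_mem⟩ htint a ha'
    rwa [(Ch.π_ker a).mpr ham] at v1
  refine chart_congruence Ch α β hα hβ hdegF' hFC σ ℓ hσ hKG P hP Sig hSig h1 h2 hsupp
    (exists_separating Ch.tb Sig hSig) r ?_
  rintro P' ⟨a, h⟩ hmem
  exact hr P' a (hmA P' a h hmem) h

end Abstract

end Fermat.Agent.Gateway.ESC
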