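import Fermat.Agent.Gateway.ESC.NormQExp
import Fermat.Agent.Gateway.ESC.CharpolyEmb

/-!
# Classification of the embeddings of `F_{Nℓ}` over `α F_N` and over `β F_N`

`L` algebraically closed of characteristic zero, `ℓ ∤ N` prime, `ζ` a primitive `ℓ`-th root of
unity.  Let `(a, b)` be `(α, β)` or `(β, α)` (`α, β : F_N → F_{Nℓ}` the two degeneracy maps).
A ring homomorphism `σ : F_{Nℓ} → E` with `σ (a x) = emb (x(t^ℓ))` satisfies
`σ (b v) = emb (tauHom c v)` for a unique `c ∈ {∞, 0, …, ℓ-1}`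
(`tauHom ∞ v = v(t^(ℓ²))`, `tauHom i v = v(ζ^i t)`), and is determined by `c`.
-/

set_option autoImplicit false
set_option linter.style.haveILetI false

noncomputable section

namespace Fermat.Agent.Gateway.ESC

open Polynomial ModularCurve AlgebraicCurve IntermediateField
open Fermat.Agent.S28 Fermat.Agent.S28.Tower Fermat.Agent.Gateway.Hecke

section Classify

variable (L : Type) [Field L] [Algebra ℚ L] [IsAlgClosed L]
variable (N ℓ : ℕ) [NeZero N] [NeZero ℓ]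

/-- A pair `(a, b)` of embeddings `F_N → F_{Nℓ}` behaving like `(α, β)` or `(β, α)`. -/
structure DegPair (a b : FL L N →ₐ[L] FL L (N * ℓ)) : Prop where
  rel : ∀ (Φ : ℤ[X][X]), IsModEq Φ ℓ L → ∀ (d : ℕ) (hd0 : d ≠ 0) (hd : d ∣ N),
    Tower.Rel Φ (b (genS L N hd0 hd)) (a (genS L N hd0 hd))
  gen : ∀ (d'' : ℕ) [NeZero d''] (hd'' : d'' ∣ N * ℓ),
    ∃ (d : ℕ) (hd0 : d ≠ 0) (hd : d ∣ N),
      gen L (N * ℓ) hd'' = a (genS L N hd0 hd) ∨ gen L (N * ℓ) hd'' = b (genS L N hd0 hd)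

omit [IsAlgClosed L] in
theorem gen_Nℓ_cases (hℓ : ℓ.Prime) (d'' : ℕ) [NeZero d''] (hd'' : d'' ∣ N * ℓ) :
    ∃ (d : ℕ) (hd0 : d ≠ 0) (hd : d ∣ N),
      gen L (N * ℓ) hd'' = heckeAlphaBar L N ℓ (genS L N hd0 hd) ∨
      gen L (N * ℓ) hd'' = heckeBetaBar L N ℓ (genS L N hd0 hd) := by
  by_cases hℓd : ℓ ∣ d''
  · obtain ⟨d, rfl⟩ := hℓd
    have hd0 : d ≠ 0 := by
      rintro rfl
      exact (NeZero.ne (ℓ * 0)) (mul_zero ℓ)
    have hdN : d ∣ N := by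
      rw [mul_comm N ℓ] at hd''
      exact Nat.dvd_of_mul_dvd_mul_left hℓ.pos hd''
    refine ⟨d, hd0, hdN, Or.inr ?_⟩
    apply Subtype.ext
    rw [coe_beta_genS, coe_gen, jL_eq_jS, mul_comm]
  · have hdN : d'' ∣ N := (Nat.Coprime.dvd_of_dvd_mul_right
      ((Nat.Prime.coprime_iff_not_dvd hℓ).mpr hℓd).symm hd'')
    refine ⟨d'', NeZero.ne d'', hdN, Or.inl ?_⟩
    rw [← gen_eq_genS]
    exact (heckeAlphaBar_gen L N ℓ hdN).symm

omit [IsAlgClosed L] in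
theorem degPair_alpha_beta (hℓ : ℓ.Prime) (ζ : Lˣ) (hζ : IsPrimitiveRoot ζ ℓ) :
    DegPair L N ℓ (heckeAlphaBar L N ℓ) (heckeBetaBar L N ℓ) where
  rel := by
    intro Φ hΦ d hd0 hd
    apply rel_of_coe L (N * ℓ)
    rw [coe_beta_genS, coe_alpha_genS]
    exact rel_fwd_K hΦ hℓ.ne_zero hζ hd0
  gen := fun d'' _ hd'' => gen_Nℓ_cases L N ℓ hℓ d'' hd''

omit [IsAlgClosed L] in
theorem degPair_beta_alpha (hℓ : ℓ.Prime) (ζ : Lˣ) (hζ : IsPrimitiveRoot ζ ℓ) :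
    DegPair L N ℓ (heckeBetaBar L N ℓ) (heckeAlphaBar L N ℓ) where
  rel := by
    intro Φ hΦ d hd0 hd
    apply rel_of_coe L (N * ℓ)
    rw [coe_beta_genS, coe_alpha_genS]
    exact rel_bwd_K hΦ hℓ.ne_zero hζ hd0
  gen := by
    intro d'' _ hd''
    obtain ⟨d, hd0, hd, h⟩ := gen_Nℓ_cases L N ℓ hℓ d'' hd''
    exact ⟨d, hd0, hd, h.symm⟩

variable {L N ℓ}
variable {a b : FL L N →ₐ[L] FL L (N * ℓ)}

/-- **Classification**: the index `c` of a homomorphism `σ` with `σ ∘ a = emb ∘ (t ↦ t^ℓ)`. -/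
theorem DegPair.exists_index (hab : DegPair L N ℓ a b) (hℓ : ℓ.Prime) (hℓN : ¬ ℓ ∣ N) (ζ : Lˣ)
    (hζ : IsPrimitiveRoot ζ ℓ) {E : Type*} [Field E] (emb : LaurentSeries L →+* E)
    (σ : FL L (N * ℓ) →+* E)
    (hσ : ∀ x : FL L N, σ (a x) = emb (qExpand L ℓ (x : LaurentSeries L))) :
    ∃ c : Option (Fin ℓ), ∀ v : FL L N, σ (b v) = emb (tauHom L ℓ ζ c (v : LaurentSeries L)) := by
  classical
  haveI : CharZero L := charZero_of_ratAlgebra L
  obtain ⟨Eℓ⟩ := exists_modularEquation ℓ hℓ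
  have hAℓ : IsModEq Eℓ.Φ ℓ L := isModEq_of_modularEquation Eℓ L
  have hex : ∀ p : ℕ, ∃ Φp : ℤ[X][X], p.Prime → IsModEq Φp p L := by
    intro p
    by_cases hp : p.Prime
    · haveI : NeZero p := ⟨hp.ne_zero⟩
      obtain ⟨Ep⟩ := exists_modularEquation p hp
      exact ⟨Ep.Φ, fun _ => isModEq_of_modularEquation Ep L⟩
    · exact ⟨0, fun h => absurd h hp⟩
  choose Φ hΦ using hex
  let x : ℕ → E := fun d =>
    if h : d ≠ 0 ∧ d ∣ N then σ (b (genS L N h.1 h.2)) else 0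
  have hx : ∀ {d : ℕ} (hd0 : d ≠ 0) (hd : d ∣ N),
      x d = σ (b (genS L N hd0 hd)) := fun hd0 hd => dif_pos ⟨hd0, hd⟩
  have hb : ∀ d, d ≠ 0 → d ∣ N → Tower.Rel Eℓ.Φ (x d) (emb (jS L 1 (d * ℓ))) := by
    intro d hd0 hd
    have h3 := (hab.rel Eℓ.Φ hAℓ d hd0 hd).map σ
    rw [hx hd0 hd]
    have h4 : σ (a (genS L N hd0 hd)) = emb (jS L 1 (d * ℓ)) := by
      rw [hσ]
      show emb (qExpand L ℓ (jS L 1 d)) = _
      rw [← expand_eq_qExpand, expand_jS (NeZero.ne ℓ) hd0, mul_comm]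
    rw [h4] at h3
    exact h3
  have hc : ∀ d' p, p.Prime → d' ≠ 0 → d' * p ∣ N → Tower.Rel (Φ p) (x (d' * p)) (x d') := by
    intro d' p hp hd'0 hdN
    have hd'N : d' ∣ N := (Dvd.intro _ rfl).trans hdN
    have hdp0 : d' * p ≠ 0 := Nat.mul_ne_zero hd'0 hp.ne_zero
    obtain ⟨ζp, hζp⟩ := exists_prim_unit L p hp.ne_zero
    have hrel : Tower.Rel (Φ p) (genS L N hdp0 hdN) (genS L N hd'0 hd'N) := by
      apply rel_of_coe L N
      exact rel_fwd_K (hΦ p hp) hp.ne_zero hζp hd'0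
    have h3 := hrel.map (σ.comp b.toRingHom)
    rw [hx hdp0 hdN, hx hd'0 hd'N]
    exact h3
  obtain ⟨c, hcx⟩ := exists_tauJ hAℓ Φ (fun p hp _ => hΦ p hp) hℓ hℓN hζ
    (fun p hp => exists_prim_unit L p hp.ne_zero)
    (fun p hp a => exists_unit_root L a hp.pos) emb x hb hc
  refine ⟨c, ?_⟩
  have hring : σ.comp b.toRingHom =
      emb.comp ((tauHom L ℓ ζ c).comp (algebraMap (FL L N) (LaurentSeries L))) := by
    apply ringHom_ext_FL L N
    · intro e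
      have h5 : b.toRingHom (algebraMap L (FL L N) e) = a (algebraMap L (FL L N) e) := by
        show b _ = _
        rw [b.commutes e, a.commutes e]
      rw [RingHom.comp_apply, h5, hσ]
      show emb (qExpand L ℓ (algebraMap L (LaurentSeries L) e))
        = emb (tauHom L ℓ ζ c (algebraMap L (LaurentSeries L) e))
      rw [← Fermat.Agent.S28.C_eq_algebraMap_laurent, qExpand_C, tauHom_C]
    · intro d _ hd
      rw [gen_eq_genS, RingHom.comp_apply]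
      show σ (b _) = emb (tauHom L ℓ ζ c (jS L 1 d))
      rw [← hx (NeZero.ne d) hd, hcx d (NeZero.ne d) hd, tauHom_jS L ℓ ζ c (NeZero.ne d)]
  intro v
  exact congrFun (congrArg DFunLike.coe hring) v

omit [IsAlgClosed L] in
/-- **Uniqueness**: a homomorphism is determined by its restrictions to `a F_N` and `b F_N`. -/
theorem DegPair.ringHom_ext (hab : DegPair L N ℓ a b) {E : Type*} [Field E]
    (σ σ' : FL L (N * ℓ) →+* E) (ha : ∀ x : FL L N, σ (a x) = σ' (a x))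
    (hb : ∀ v : FL L N, σ (b v) = σ' (b v)) : σ = σ' := by
  apply ringHom_ext_FL L (N * ℓ)
  · intro c
    have hc : algebraMap L (FL L (N * ℓ)) c = a (algebraMap L (FL L N) c) := (a.commutes c).symm
    rw [hc]
    exact ha _
  · intro d'' _ hd''
    obtain ⟨d, hd0, hd, h | h⟩ := hab.gen d'' hd''
    · rw [h]; exact ha _
    · rw [h]; exact hb _

end Classify

end Fermat.Agent.Gateway.ESC
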