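import Mathlib
import Fermat.Agent.Gateway.HK1.Ext
import Fermat.Agent.Gateway.Red.ChartPlaces
import Fermat.Agent.Gateway.ESC.CharpolyEmb

/-!
# P-GATEWAY (c) Tier 2, WP-ESC-C: the characteristic polynomial evaluated at a place

`F'/F` a finite separable extension of function fields over `K`, `v` a place of `F`, `y ∈ F'`
regular at every place `w | v` with value `a w ∈ K`.  Then every coefficient of the characteristic
polynomial of `y` over `F` is regular at `v`, and the value of the characteristic polynomial at `v`
is `∏_{w | v} (X - a w) ^ (e(w|v) f(w|v))` (`hasValue_charpoly_coeff`; `Along` form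
`hasValue_charpolyAlongHom_coeff`).

Proof: `A` the valuation ring of `v`, `B` its integral closure in `F'` (free of finite rank);
the characteristic polynomial of `y` over `A` reduces modulo `𝔭 = 𝔪_v` to the characteristic
polynomial of `ȳ` on `B ⧸ 𝔭B ≃ ∏_{Q | 𝔭} B ⧸ Q ^ e_Q`, and on the factor `B ⧸ Q ^ e_Q` (of dimension
`e_Q f_Q`) the element `ȳ - a_Q` is nilpotent.
-/

set_option autoImplicit false
set_option linter.unusedSectionVars false
set_option linter.style.haveILetI false

noncomputable section

open Polynomial

namespace Fermat.Agent.Gateway.ESC.FiberCharpoly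

section LinAlg

universe u v w

variable {R : Type u} [CommRing R]

/-- characteristic polynomial of an endomorphism which is conjugate to a product map -/
theorem charpoly_of_conj_prodMap {M M₁ M₂ : Type*} [AddCommGroup M] [Module R M]
    [AddCommGroup M₁] [Module R M₁] [AddCommGroup M₂] [Module R M₂]
    [Module.Free R M] [Module.Finite R M] [Module.Free R M₁] [Module.Finite R M₁]
    [Module.Free R M₂] [Module.Finite R M₂]
    (e : M ≃ₗ[R] M₁ × M₂) (f : M →ₗ[R] M) (f₁ : M₁ →ₗ[R] M₁) (f₂ : M₂ →ₗ[R] M₂)
    (h : ∀ x, e (f x) = (f₁.prodMap f₂) (e x)) :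
    f.charpoly = f₁.charpoly * f₂.charpoly := by
  rw [← LinearMap.charpoly_prodMap, ← LinearEquiv.charpoly_conj e f]
  congr 1
  apply LinearMap.ext
  intro x
  rw [LinearEquiv.conj_apply_apply, h, LinearEquiv.apply_symm_apply]

/-- characteristic polynomial of an endomorphism which is conjugate to another one -/
theorem charpoly_of_conj {M M₁ : Type*} [AddCommGroup M] [Module R M]
    [AddCommGroup M₁] [Module R M₁]
    [Module.Free R M] [Module.Finite R M] [Module.Free R M₁] [Module.Finite R M₁]
    (e : M ≃ₗ[R] M₁) (f : M →ₗ[R] M) (f₁ : M₁ →ₗ[R] M₁)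
    (h : ∀ x, e (f x) = f₁ (e x)) :
    f.charpoly = f₁.charpoly := by
  rw [← LinearEquiv.charpoly_conj e f]
  congr 1
  apply LinearMap.ext
  intro x
  rw [LinearEquiv.conj_apply_apply, h, LinearEquiv.apply_symm_apply]

theorem charpoly_of_subsingleton {M : Type*} [AddCommGroup M] [Module R M]
    [Module.Free R M] [Module.Finite R M] [Subsingleton M] (f : M →ₗ[R] M) :
    f.charpoly = 1 := by
  nontriviality R
  have h1 : f.charpoly.natDegree = 0 := by
    rw [LinearMap.charpoly_natDegree, Module.finrank_zero_of_subsingleton]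
  exact (Polynomial.Monic.natDegree_eq_zero (LinearMap.charpoly_monic f)).mp h1

/-- The diagonal endomorphism of a finite product of modules. -/
def piDiag {ι : Type w} {M : ι → Type v} [∀ i, AddCommGroup (M i)] [∀ i, Module R (M i)]
    (f : ∀ i, M i →ₗ[R] M i) : (∀ i, M i) →ₗ[R] (∀ i, M i) :=
  LinearMap.pi fun i => (f i).comp (LinearMap.proj i)

@[simp]
theorem piDiag_apply {ι : Type w} {M : ι → Type v} [∀ i, AddCommGroup (M i)]
    [∀ i, Module R (M i)] (f : ∀ i, M i →ₗ[R] M i) (x : ∀ i, M i) (i : ι) :
    piDiag f x i = f i (x i) := rfl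

theorem charpoly_piDiag (ι : Type w) [Fintype ι] : ∀ (M : ι → Type v) [∀ i, AddCommGroup (M i)]
    [∀ i, Module R (M i)] [∀ i, Module.Free R (M i)] [∀ i, Module.Finite R (M i)]
    (f : ∀ i, M i →ₗ[R] M i), (piDiag f).charpoly = ∏ i, (f i).charpoly := by
  refine Fintype.induction_empty_option (P := fun (ι : Type w) [Fintype ι] =>
    ∀ (M : ι → Type v) [∀ i, AddCommGroup (M i)]
    [∀ i, Module R (M i)] [∀ i, Module.Free R (M i)] [∀ i, Module.Finite R (M i)]
    (f : ∀ i, M i →ₗ[R] M i), (piDiag f).charpoly = ∏ i, (f i).charpoly) ?_ ?_ ?_ ι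
  · intro α β _ e h M _ _ _ _ f
    let _ : Fintype α := Fintype.ofEquiv β e.symm
    have h1 := h (fun i => M (e i)) (fun i => f (e i))
    rw [← Equiv.prod_comp e, ← h1]
    symm
    apply charpoly_of_conj (LinearEquiv.piCongrLeft R M e)
    intro x
    ext j
    obtain ⟨i, rfl⟩ := e.surjective j
    show (Equiv.piCongrLeft M e) ((piDiag fun i => f (e i)) x) (e i) =
      (f (e i)) ((Equiv.piCongrLeft M e) x (e i))
    rw [Equiv.piCongrLeft_apply_apply, Equiv.piCongrLeft_apply_apply, piDiag_apply]
  · intro M _ _ _ _ f
    rw [charpoly_of_subsingleton]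
    simp
  · intro α _ h M _ _ _ _ f
    rw [Fintype.prod_option, ← h (fun i => M (some i)) (fun i => f (some i))]
    apply charpoly_of_conj_prodMap (LinearEquiv.piOptionEquivProd R)
    intro x
    rfl

theorem charpoly_lmul_pi {ι : Type w} [Fintype ι] (V : ι → Type v) [∀ i, CommRing (V i)]
    [∀ i, Algebra R (V i)] [∀ i, Module.Free R (V i)] [∀ i, Module.Finite R (V i)]
    (x : ∀ i, V i) :
    (Algebra.lmul R (∀ i, V i) x).charpoly = ∏ i, (Algebra.lmul R (V i) (x i)).charpoly := by
  rw [← charpoly_piDiag]
  congr 1

/-- If `x - c` is nilpotent then the characteristic polynomial of multiplication by `x` is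
`(X - c) ^ rank`. -/
theorem charpoly_lmul_of_isNilpotent_sub [IsDomain R] {V : Type*} [CommRing V] [Algebra R V]
    [Module.Free R V] [Module.Finite R V] (x : V) (c : R)
    (h : IsNilpotent (x - algebraMap R V c)) :
    (Algebra.lmul R V x).charpoly = (X - C c) ^ Module.finrank R V := by
  have h1 : IsNilpotent (Algebra.lmul R V x - c • (1 : Module.End R V)) := by
    have : Algebra.lmul R V x - c • (1 : Module.End R V) =
        Algebra.lmul R V (x - algebraMap R V c) := by
      rw [map_sub]
      congr 1
      apply LinearMap.ext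
      intro z
      simp [Algebra.smul_def]
    rw [this]
    exact h.map (Algebra.lmul R V)
  have h2 := IsNilpotent.charpoly_eq_X_pow_finrank h1
  rw [LinearMap.charpoly_sub_smul] at h2
  have h3 := congrArg (fun p : R[X] => p.comp (X - C c)) h2
  simp only [Polynomial.comp_assoc, add_comp, X_comp, C_comp, sub_add_cancel, comp_X,
    X_pow_comp] at h3
  exact h3

/-- characteristic polynomial of a multiplication map under a multiplicative linear equivalence -/
theorem charpoly_lmul_of_equiv {V W : Type*} [CommRing V] [Algebra R V] [CommRing W] [Algebra R W]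
    [Module.Free R V] [Module.Finite R V] [Module.Free R W] [Module.Finite R W]
    (e : V ≃ₗ[R] W) (he : ∀ a b, e (a * b) = e a * e b) (x : V) :
    (Algebra.lmul R V x).charpoly = (Algebra.lmul R W (e x)).charpoly :=
  charpoly_of_conj e _ _ fun z => by simp [he]

end LinAlg

section BaseChange

open TensorProduct

variable {A B : Type*} [CommRing A] [CommRing B] [Algebra A B] [Module.Free A B]
  [Module.Finite A B]

/-- Reduction of the characteristic polynomial of a multiplication map modulo an ideal. -/
theorem charpoly_lmul_map_quotient (I : Ideal A)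
    [Module.Free (A ⧸ I) (B ⧸ I.map (algebraMap A B))]
    [Module.Finite (A ⧸ I) (B ⧸ I.map (algebraMap A B))] (y : B) :
    (Algebra.lmul A B y).charpoly.map (Ideal.Quotient.mk I) =
      (Algebra.lmul (A ⧸ I) (B ⧸ I.map (algebraMap A B)) (Ideal.Quotient.mk _ y)).charpoly := by
  have h1 := LinearMap.charpoly_baseChange (A := A ⧸ I) (Algebra.lmul A B y)
  rw [Algebra.baseChange_lmul] at h1
  have h2 := charpoly_lmul_of_equiv
    (Algebra.TensorProduct.quotIdealMapEquivQuotTensor B I).toLinearEquiv
    (fun a b => map_mul (Algebra.TensorProduct.quotIdealMapEquivQuotTensor B I) a b)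
    (Ideal.Quotient.mk (I.map (algebraMap A B)) y)
  rw [h2]
  exact h1.symm

end BaseChange

section Localization

variable (A : Type*) {B : Type*} [CommRing A] [CommRing B] [Algebra A B]
variable {Aₘ Bₘ : Type*} [CommRing Aₘ] [Algebra A Aₘ] [CommRing Bₘ] [Algebra B Bₘ]
variable (M : Submonoid A)
variable [IsLocalization M Aₘ] [IsLocalization (Algebra.algebraMapSubmonoid B M) Bₘ]
variable [Algebra Aₘ Bₘ] [Algebra A Bₘ] [IsScalarTower A Aₘ Bₘ] [IsScalarTower A B Bₘ]

include M in
/-- The characteristic polynomial of a multiplication map is compatible with localization. -/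
theorem charpoly_lmul_localization [Module.Free A B] [Module.Finite A B]
    [Module.Free Aₘ Bₘ] [Module.Finite Aₘ Bₘ] (b : B) :
    (Algebra.lmul Aₘ Bₘ (algebraMap B Bₘ b)).charpoly =
      (Algebra.lmul A B b).charpoly.map (algebraMap A Aₘ) := by
  classical
  let b₀ := Module.Free.chooseBasis A B
  rw [← LinearMap.charpoly_toMatrix (Algebra.lmul Aₘ Bₘ (algebraMap B Bₘ b))
      (b₀.localizationLocalization Aₘ M Bₘ),
    ← LinearMap.charpoly_toMatrix (Algebra.lmul A B b) b₀, ← Algebra.leftMulMatrix_apply,
    ← Algebra.leftMulMatrix_apply, ← Algebra.map_leftMulMatrix_localization A M b₀ b,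
    RingHom.mapMatrix_apply, Matrix.charpoly_map]

end Localization

section Dedekind

set_option linter.deprecated false

open Ideal UniqueFactorizationMonoid

attribute [local instance] Ideal.Quotient.field

variable {A B : Type*} [CommRing A] [IsDomain A] [CommRing B] [IsDedekindDomain B] [Algebra A B]
  [Module.IsTorsionFree A B] [Module.Free A B] [Module.Finite A B]

theorem map_ne_bot_of_ne_bot' {p : Ideal A} (hp0 : p ≠ ⊥) : p.map (algebraMap A B) ≠ ⊥ := by
  rw [Ne, Ideal.map_eq_bot_iff_of_injective (FaithfulSMul.algebraMap_injective A B)]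
  exact hp0

/-- **Reduction of the characteristic polynomial** modulo a maximal ideal `p`: it is the product
over the primes `P` above `p` of `(X - c_P) ^ (e_P f_P)` if `y ≡ c_P mod P`. -/
theorem charpoly_lmul_map_eq_prod (p : Ideal A) [hpm : p.IsMaximal] (hp0 : p ≠ ⊥) (y : B)
    (c : Ideal B → A)
    (hc : ∀ P ∈ IsDedekindDomain.primesOverFinset p B, y - algebraMap A B (c P) ∈ P) :
    (Algebra.lmul A B y).charpoly.map (Ideal.Quotient.mk p) =
      ∏ P ∈ IsDedekindDomain.primesOverFinset p B,
        (X - C (Ideal.Quotient.mk p (c P))) ^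
          (Ideal.ramificationIdx' p P * Ideal.inertiaDeg' p P) := by
  have hpB : p.map (algebraMap A B) ≠ ⊥ := map_ne_bot_of_ne_bot' hp0
  have hfin : Module.Finite (A ⧸ p) (B ⧸ p.map (algebraMap A B)) :=
    Module.Finite.equiv (Ideal.Factors.piQuotientLinearEquiv B p hpB).symm
  rw [charpoly_lmul_map_quotient p y,
    charpoly_lmul_of_equiv (Ideal.Factors.piQuotientLinearEquiv B p hpB)
      (fun a b => map_mul (Ideal.Factors.piQuotientEquiv p hpB) a b)
      (Ideal.Quotient.mk _ y),
    charpoly_lmul_pi, ← Finset.prod_coe_sort (IsDedekindDomain.primesOverFinset p B)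
      (fun P => (X - C (Ideal.Quotient.mk p (c P))) ^
          (Ideal.ramificationIdx' p P * Ideal.inertiaDeg' p P))]
  refine Finset.prod_congr rfl fun P _ => ?_
  rw [← Ideal.Factors.finrank_pow_ramificationIdx p P]
  apply charpoly_lmul_of_isNilpotent_sub
  refine ⟨Ideal.ramificationIdx' p P.1, ?_⟩
  show (Ideal.Quotient.mk ((P : Ideal B) ^ p.ramificationIdx' (P : Ideal B)) y -
      Ideal.Quotient.mk ((P : Ideal B) ^ p.ramificationIdx' (P : Ideal B))
        (algebraMap A B (c P))) ^ p.ramificationIdx' (P : Ideal B) = 0
  rw [← map_sub, ← map_pow, Ideal.Quotient.eq_zero_iff_mem]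
  exact Ideal.pow_mem_pow (hc P P.2) _

end Dedekind

section Places

open AlgebraicCurve IsDedekindDomain IsDedekindDomain.HeightOneSpectrum WithZero
open Fermat.Agent.S24 Fermat.Agent.Gateway.HK1 Fermat.Agent.Gateway.Red

section Abstract

variable {K F F' : Type*} [Field K] [Field F] [Field F'] [Algebra K F] [Algebra K F']
  [Algebra F F'] [IsScalarTower K F F'] [FiniteDimensional F F']
variable {A B : Type*} [CommRing A] [IsDedekindDomain A] [CommRing B] [IsDedekindDomain B]
  [Algebra A B] [Module.IsTorsionFree A B]
  [Algebra A F] [IsFractionRing A F] [Algebra A F'] [IsScalarTower A F F']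
  [Algebra B F'] [IsFractionRing B F'] [IsScalarTower A B F']
  [Algebra K A] [IsScalarTower K A F] [Algebra K B] [IsScalarTower K B F']

variable (F F') in
include F F' in
omit [FiniteDimensional F F'] [IsDedekindDomain A] [IsDedekindDomain B] [Module.IsTorsionFree A B]
  [IsFractionRing A F] in
/-- the scalar tower `K → A → B` -/
theorem algebraMap_algebraMap_eq (k : K) : algebraMap A B (algebraMap K A k) = algebraMap K B k := by
  apply IsFractionRing.injective B F'
  rw [← IsScalarTower.algebraMap_apply A B F', IsScalarTower.algebraMap_apply A F F',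
    ← IsScalarTower.algebraMap_apply K A F, ← IsScalarTower.algebraMap_apply K F F',
    ← IsScalarTower.algebraMap_apply K B F']

omit [FiniteDimensional F F'] [Algebra F F'] [IsScalarTower K F F'] [Algebra K F] in
/-- `HasValue` at the place of a prime, for elements of the Dedekind ring -/
theorem hasValue_placeOfPrime_iff (Q : HeightOneSpectrum B) (b : B) (k : K) :
    HasValue (PD.placeOfPrime (K := K) (F := F') Q) (algebraMap B F' b) k ↔
      b - algebraMap K B k ∈ Q.asIdeal := by
  rw [HasValue, IsScalarTower.algebraMap_apply K B F', ← map_sub,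
    ← Q.valuation_lt_one_iff_mem (K := F'),
    ValuationSubring.mem_nonunits_iff_exists_mem_maximalIdeal]
  constructor
  · rintro ⟨hmem, h⟩
    exact (PD.mem_maximalIdeal_valuationSubring_iff (Q.valuation F') ⟨_, hmem⟩).mp h
  · intro h
    have hmem : algebraMap B F' (b - algebraMap K B k) ∈
        (PD.placeOfPrime (K := K) (F := F') Q).toValuationSubring :=
      PD.algebraMap_mem_placeOfPrime Q _
    exact ⟨hmem, (PD.mem_maximalIdeal_valuationSubring_iff (Q.valuation F') ⟨_, hmem⟩).mpr h⟩

section Main

variable [IsIntegralClosure B A F'] [Module.Finite A B] [Module.Free A B]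
  [HasPrincipalDivisors K F']

/-- The prime ideal of a member of `primesOverFinset` as a height one prime. -/
def primeOfMem (p : HeightOneSpectrum A) (P : Ideal B)
    (hP : P ∈ IsDedekindDomain.primesOverFinset p.asIdeal B) : HeightOneSpectrum B :=
  haveI := p.isMaximal
  have h := (IsDedekindDomain.mem_primesOverFinset_iff p.ne_bot B).mp hP
  ⟨P, h.1, Ideal.ne_bot_of_mem_primesOver p.ne_bot h⟩

theorem liesOver_primeOfMem (p : HeightOneSpectrum A) (P : Ideal B)
    (hP : P ∈ IsDedekindDomain.primesOverFinset p.asIdeal B) :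
    (primeOfMem p P hP).asIdeal.LiesOver p.asIdeal :=
  haveI := p.isMaximal
  ((IsDedekindDomain.mem_primesOverFinset_iff p.ne_bot B).mp hP).2

/-- Reindexing a product over the fibre of the place of `p` by the primes over `p`. -/
theorem prod_fiber_eq {M : Type*} [CommMonoid M] (p : HeightOneSpectrum A) (g : Place K F' → M) :
    ∏ w ∈ (PD.placeOfPrime (K := K) (F := F) p).fiber F', g w =
      ∏ P ∈ (IsDedekindDomain.primesOverFinset p.asIdeal B).attach,
        g (PD.placeOfPrime (primeOfMem p P.1 P.2)) := by
  have := p.isMaximal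
  symm
  refine Finset.prod_bij (fun P _ => PD.placeOfPrime (primeOfMem p P.1 P.2)) ?_ ?_ ?_ ?_
  · intro P _
    have := liesOver_primeOfMem p P.1 P.2
    exact Place.mem_fiber.mpr (restrict_placeOfPrime p _)
  · intro P _ P' _ h
    have h1 := congrArg (fun w => PD.primeOfPlace (B := B) w.1 w.2)
      (show (⟨PD.placeOfPrime (K := K) (F := F') (primeOfMem p P.1 P.2),
          PD.algebraMap_mem_placeOfPrime _⟩ :
          {v : Place K F' // ∀ b : B, algebraMap B F' b ∈ v.toValuationSubring}) =
        ⟨PD.placeOfPrime (K := K) (F := F') (primeOfMem p P'.1 P'.2),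
          PD.algebraMap_mem_placeOfPrime _⟩ from Subtype.ext h)
    simp only [PD.primeOfPlace_placeOfPrime] at h1
    exact Subtype.ext (congrArg HeightOneSpectrum.asIdeal h1)
  · intro w hw
    have hw' := Place.mem_fiber.mp hw
    have hmem : (primeOfFiber B p w hw').asIdeal ∈
        IsDedekindDomain.primesOverFinset p.asIdeal B :=
      (IsDedekindDomain.mem_primesOverFinset_iff p.ne_bot B).mpr
        ⟨(primeOfFiber B p w hw').isPrime, liesOver_primeOfFiber p w hw'⟩
    refine ⟨⟨_, hmem⟩, Finset.mem_attach _ _, ?_⟩
    exact placeOfPrime_primeOfFiber p w hw'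
  · intro P _
    rfl

set_option linter.deprecated false in
/-- **Values of the characteristic polynomial at a place** (abstract `AKLB` form, for elements
of `B`). -/
theorem hasValue_charpoly_coeff_of_prime (p : HeightOneSpectrum A) (yB : B) (a : Place K F' → K)
    (ha : ∀ w ∈ (PD.placeOfPrime (K := K) (F := F) p).fiber F',
      HasValue w (algebraMap B F' yB) (a w)) (n : ℕ) :
    HasValue (PD.placeOfPrime (K := K) (F := F) p)
      ((LinearMap.charpoly (Algebra.lmul F F' (algebraMap B F' yB))).coeff n)
      ((∏ w ∈ (PD.placeOfPrime (K := K) (F := F) p).fiber F',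
        (X - C (a w)) ^ (w.ramificationIndex F * w.inertiaDeg F)).coeff n) := by
  classical
  have hpmax := p.isMaximal
  -- the characteristic polynomial over `A`
  have hloc : IsLocalization (Algebra.algebraMapSubmonoid B (nonZeroDivisors A)) F' :=
    IsIntegralClosure.isLocalization A F F' B
  have h1 := charpoly_lmul_localization A (Aₘ := F) (Bₘ := F') (nonZeroDivisors A) yB
  -- the values `c P`
  let c : Ideal B → A := fun P =>
    if hP : P ∈ IsDedekindDomain.primesOverFinset p.asIdeal B then
      algebraMap K A (a (PD.placeOfPrime (primeOfMem p P hP))) else 0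
  have hc : ∀ P ∈ IsDedekindDomain.primesOverFinset p.asIdeal B,
      yB - algebraMap A B (c P) ∈ P := by
    intro P hP
    have hlo := liesOver_primeOfMem p P hP
    have hw : PD.placeOfPrime (K := K) (F := F') (primeOfMem p P hP) ∈
        (PD.placeOfPrime (K := K) (F := F) p).fiber F' :=
      Place.mem_fiber.mpr (restrict_placeOfPrime p _)
    have h2 := (hasValue_placeOfPrime_iff _ _ _).mp (ha _ hw)
    simp only [c, dif_pos hP, algebraMap_algebraMap_eq F F']
    exact h2
  have h3 := charpoly_lmul_map_eq_prod p.asIdeal p.ne_bot yB c hc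
  -- the right hand side as the image of a polynomial over `K`
  set R : K[X] := ∏ w ∈ (PD.placeOfPrime (K := K) (F := F) p).fiber F',
    (X - C (a w)) ^ (w.ramificationIndex F * w.inertiaDeg F) with hR
  let φ : K →+* A ⧸ p.asIdeal := (Ideal.Quotient.mk p.asIdeal).comp (algebraMap K A)
  have h4 : ∏ P ∈ IsDedekindDomain.primesOverFinset p.asIdeal B,
        (X - C (Ideal.Quotient.mk p.asIdeal (c P))) ^
          (Ideal.ramificationIdx' p.asIdeal P * Ideal.inertiaDeg' p.asIdeal P) = R.map φ := by
    rw [hR, Polynomial.map_prod, prod_fiber_eq (F := F) (B := B) p, ← Finset.prod_attach]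
    refine Finset.prod_congr rfl fun P _ => ?_
    have hlo := liesOver_primeOfMem p P.1 P.2
    have hQmax : (primeOfMem p P.1 P.2).asIdeal.IsMaximal := (primeOfMem p P.1 P.2).isMaximal
    rw [Polynomial.map_pow, Polynomial.map_sub, Polynomial.map_X, Polynomial.map_C,
      ramificationIndex_placeOfPrime p (primeOfMem p P.1 P.2),
      inertiaDeg_placeOfPrime p (primeOfMem p P.1 P.2),
      ← Ideal.inertiaDeg'_eq_inertiaDeg p.asIdeal (primeOfMem p P.1 P.2).asIdeal]
    simp only [c, dif_pos P.2]
    rfl
  rw [h4] at h3
  have h5 : (Algebra.lmul A B yB).charpoly.coeff n - algebraMap K A (R.coeff n) ∈ p.asIdeal := by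
    have := congrArg (fun q : (A ⧸ p.asIdeal)[X] => q.coeff n) h3
    simp only [Polynomial.coeff_map] at this
    rw [← Ideal.Quotient.eq]
    exact this
  rw [h1, Polynomial.coeff_map]
  exact (hasValue_placeOfPrime_iff p _ _).mpr h5

end Main

end Abstract

section Concrete

variable {K F F' : Type*} [Field K] [Field F] [Field F'] [Algebra K F] [Algebra K F']
  [Algebra F F'] [IsScalarTower K F F'] [FiniteDimensional F F'] [Algebra.IsSeparable F F']
  [HasPrincipalDivisors K F']

omit [Algebra.IsSeparable F F'] [HasPrincipalDivisors K F'] [FiniteDimensional F F']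
  [IsScalarTower K F F'] [Algebra F F'] [Algebra K F'] in
theorem placeOfPrime_heightOneSpectrum' (v : Place K F) :
    PD.placeOfPrime (K := K) (F := F) v.heightOneSpectrum = v := by
  have h := PD.placeOfPrime_primeOfPlace (B := v.toValuationSubring) v (fun b => b.2)
  have h2 : PD.primeOfPlace (B := v.toValuationSubring) v (fun b => b.2) = v.heightOneSpectrum := by
    apply HeightOneSpectrum.ext
    ext b
    rw [PD.mem_primeOfPlace_iff]
    rfl
  rwa [h2] at h

end Concrete

end Places

end Fermat.Agent.Gateway.ESC.FiberCharpoly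

namespace Fermat.Agent.Gateway.ESC

open AlgebraicCurve IsDedekindDomain IsDedekindDomain.HeightOneSpectrum WithZero
open Fermat.Agent.S24 Fermat.Agent.Gateway.HK1 Fermat.Agent.Gateway.Red
open FiberCharpoly

section Concrete

variable {K F F' : Type*} [Field K] [Field F] [Field F'] [Algebra K F] [Algebra K F']
  [Algebra F F'] [IsScalarTower K F F'] [FiniteDimensional F F'] [Algebra.IsSeparable F F']
  [HasPrincipalDivisors K F']

set_option maxHeartbeats 1000000 in
/-- **Integrality of the characteristic polynomial at a place**: if `y` is regular at every place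
above `v`, then the characteristic polynomial of `y` over `F` has coefficients in the valuation
ring of `v`. -/
theorem exists_charpoly_eq_map (v : Place K F) (y : F')
    (hy : ∀ w ∈ v.fiber F', y ∈ w.toValuationSubring) :
    ∃ P : (↥v.toValuationSubring)[X], P.Monic ∧
      LinearMap.charpoly (Algebra.lmul F F' y) = P.map (algebraMap (↥v.toValuationSubring) F) := by
  let A := ↥v.toValuationSubring
  let _ : Algebra A F' := ((algebraMap F F').comp (algebraMap A F)).toAlgebra
  have : IsScalarTower A F F' := IsScalarTower.of_algebraMap_eq fun _ => rfl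
  have : IsScalarTower K A F' := IsScalarTower.of_algebraMap_eq fun k => by
    show algebraMap K F' k = algebraMap F F' (algebraMap A F (algebraMap K A k))
    rw [← IsScalarTower.algebraMap_apply K A F, ← IsScalarTower.algebraMap_apply K F F']
  have : Module.IsTorsionFree A F' := Module.isTorsionFree_iff_algebraMap_injective.mpr
    ((algebraMap F F').injective.comp (IsFractionRing.injective A F))
  let B := integralClosure A F'
  have : IsDedekindDomain B := integralClosure.isDedekindDomain A F F'
  have : IsFractionRing B F' := integralClosure.isFractionRing_of_finite_extension F F'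
  have : Module.Finite A B := IsIntegralClosure.finite A F F' B
  have : Module.Free A B := inferInstance
  have hv := placeOfPrime_heightOneSpectrum' v
  have hlo : ∀ Q : HeightOneSpectrum B, Q.asIdeal.LiesOver v.heightOneSpectrum.asIdeal := by
    intro Q
    constructor
    have hprime : (Q.asIdeal.under A).IsPrime := Ideal.IsPrime.under A _
    have hne : Q.asIdeal.under A ≠ ⊥ := Ideal.under_ne_bot A Q.ne_bot
    have hmax : (Q.asIdeal.under A).IsMaximal := hprime.isMaximal hne
    rw [Place.heightOneSpectrum_asIdeal]
    exact (IsLocalRing.eq_maximalIdeal hmax).symm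
  have hy' : ∀ Q : HeightOneSpectrum B, Q.valuation F' y ≤ 1 := by
    intro Q
    have := hlo Q
    have hw : PD.placeOfPrime (K := K) (F := F') Q ∈ v.fiber F' := by
      rw [Place.mem_fiber, restrict_placeOfPrime v.heightOneSpectrum Q, hv]
    exact (Valuation.mem_valuationSubring_iff _ _).mp (hy _ hw)
  obtain ⟨yB, rfl⟩ := HeightOneSpectrum.mem_integers_of_valuation_le_one F' y hy'
  have hloc : IsLocalization (Algebra.algebraMapSubmonoid B (nonZeroDivisors A)) F' :=
    IsIntegralClosure.isLocalization A F F' B
  exact ⟨(Algebra.lmul A B yB).charpoly, LinearMap.charpoly_monic _,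
    charpoly_lmul_localization A (Aₘ := F) (Bₘ := F') (nonZeroDivisors A) yB⟩

/-- The coefficients of the characteristic polynomial of `y` are regular at `v` if `y` is regular
at every place above `v`. -/
theorem charpoly_coeff_mem (v : Place K F) (y : F')
    (hy : ∀ w ∈ v.fiber F', y ∈ w.toValuationSubring) (n : ℕ) :
    (LinearMap.charpoly (Algebra.lmul F F' y)).coeff n ∈ v.toValuationSubring := by
  obtain ⟨P, -, hP⟩ := exists_charpoly_eq_map v y hy
  rw [hP, Polynomial.coeff_map]
  exact (P.coeff n).2

set_option maxHeartbeats 1000000 in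
/-- **Values of the characteristic polynomial at a place**: if `y` has the value `a w` at every
place `w` above `v`, then the characteristic polynomial of `y` over `F` has coefficients regular
at `v`, and its value at `v` is `∏_{w | v} (X - a w) ^ (e(w|v) f(w|v))`. -/
theorem hasValue_charpoly_coeff (v : Place K F) (y : F') (a : Place K F' → K)
    (ha : ∀ w ∈ v.fiber F', HasValue w y (a w)) (n : ℕ) :
    HasValue v ((LinearMap.charpoly (Algebra.lmul F F' y)).coeff n)
      ((∏ w ∈ v.fiber F', (X - C (a w)) ^ (w.ramificationIndex F * w.inertiaDeg F)).coeff n) := by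
  let A := ↥v.toValuationSubring
  let _ : Algebra A F' := ((algebraMap F F').comp (algebraMap A F)).toAlgebra
  have : IsScalarTower A F F' := IsScalarTower.of_algebraMap_eq fun _ => rfl
  have : IsScalarTower K A F' := IsScalarTower.of_algebraMap_eq fun k => by
    show algebraMap K F' k = algebraMap F F' (algebraMap A F (algebraMap K A k))
    rw [← IsScalarTower.algebraMap_apply K A F, ← IsScalarTower.algebraMap_apply K F F']
  have : Module.IsTorsionFree A F' := Module.isTorsionFree_iff_algebraMap_injective.mpr
    ((algebraMap F F').injective.comp (IsFractionRing.injective A F))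
  let B := integralClosure A F'
  have : IsDedekindDomain B := integralClosure.isDedekindDomain A F F'
  have : IsFractionRing B F' := integralClosure.isFractionRing_of_finite_extension F F'
  have : Module.Finite A B := IsIntegralClosure.finite A F F' B
  have : Module.Free A B := inferInstance
  have hv := placeOfPrime_heightOneSpectrum' v
  -- every prime of `B` lies over the maximal ideal of `A`
  have hlo : ∀ Q : HeightOneSpectrum B, Q.asIdeal.LiesOver v.heightOneSpectrum.asIdeal := by
    intro Q
    constructor
    have hprime : (Q.asIdeal.under A).IsPrime := Ideal.IsPrime.under A _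
    have hne : Q.asIdeal.under A ≠ ⊥ := Ideal.under_ne_bot A Q.ne_bot
    have hmax : (Q.asIdeal.under A).IsMaximal := hprime.isMaximal hne
    rw [Place.heightOneSpectrum_asIdeal]
    exact (IsLocalRing.eq_maximalIdeal hmax).symm
  -- `y` is integral over `A`
  have hy : ∀ Q : HeightOneSpectrum B, Q.valuation F' y ≤ 1 := by
    intro Q
    have := hlo Q
    have hw : PD.placeOfPrime (K := K) (F := F') Q ∈ v.fiber F' := by
      rw [Place.mem_fiber, restrict_placeOfPrime v.heightOneSpectrum Q, hv]
    exact (Valuation.mem_valuationSubring_iff _ _).mp (ha _ hw).mem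
  obtain ⟨yB, rfl⟩ := HeightOneSpectrum.mem_integers_of_valuation_le_one F' y hy
  have h := hasValue_charpoly_coeff_of_prime (K := K) (F := F) (F' := F') (B := B)
    v.heightOneSpectrum yB a (by rw [hv]; exact ha) n
  rwa [hv] at h

end Concrete

section Along

variable {K F F' : Type*} [Field K] [Field F] [Field F'] [Algebra K F] [Algebra K F']
  [HasPrincipalDivisors K F']

/-- `Along` form of `charpoly_coeff_mem`. -/
theorem charpolyAlongHom_coeff_mem (φ : F →ₐ[K] F') (hφ : φ.toRingHom.IsIntegral)
    (hfin : FiniteAlong K φ) (hsep : letI := algebraAlong φ; Algebra.IsSeparable F F')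
    (v : Place K F) (y : F')
    (hy : ∀ w ∈ Place.fiberAlong φ hφ v, y ∈ w.toValuationSubring) (n : ℕ) :
    (charpolyAlongHom φ.toRingHom y).coeff n ∈ v.toValuationSubring := by
  letI := algebraAlong φ
  haveI := isScalarTower_along φ
  haveI : Module.Finite F F' := hfin
  haveI : Algebra.IsSeparable F F' := hsep
  unfold charpolyAlongHom
  rw [dif_pos (show Module.Finite F F' from hfin)]
  exact charpoly_coeff_mem v y hy n

/-- `Along` form of `hasValue_charpoly_coeff`: the characteristic polynomial of `y` along
`φ : F → F'`, evaluated at a place `v` of `F`. -/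
theorem hasValue_charpolyAlongHom_coeff (φ : F →ₐ[K] F') (hφ : φ.toRingHom.IsIntegral)
    (hfin : FiniteAlong K φ) (hsep : letI := algebraAlong φ; Algebra.IsSeparable F F')
    (v : Place K F) (y : F') (a : Place K F' → K)
    (ha : ∀ w ∈ Place.fiberAlong φ hφ v, HasValue w y (a w)) (n : ℕ) :
    HasValue v ((charpolyAlongHom φ.toRingHom y).coeff n)
      ((∏ w ∈ Place.fiberAlong φ hφ v,
        (X - C (a w)) ^ (w.ramificationIndexAlong φ * w.inertiaDegAlong φ hφ)).coeff n) := by
  letI := algebraAlong φ
  haveI := isScalarTower_along φ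
  haveI : Module.Finite F F' := hfin
  haveI : Algebra.IsSeparable F F' := hsep
  unfold charpolyAlongHom
  rw [dif_pos (show Module.Finite F F' from hfin)]
  exact hasValue_charpoly_coeff v y a ha n

/-- `Along` form over a perfect field (e.g. characteristic zero): no separability hypothesis. -/
theorem hasValue_charpolyAlongHom_coeff_of_perfectField [PerfectField F] (φ : F →ₐ[K] F')
    (hφ : φ.toRingHom.IsIntegral) (hfin : FiniteAlong K φ)
    (v : Place K F) (y : F') (a : Place K F' → K)
    (ha : ∀ w ∈ Place.fiberAlong φ hφ v, HasValue w y (a w)) (n : ℕ) :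
    HasValue v ((charpolyAlongHom φ.toRingHom y).coeff n)
      ((∏ w ∈ Place.fiberAlong φ hφ v,
        (X - C (a w)) ^ (w.ramificationIndexAlong φ * w.inertiaDegAlong φ hφ)).coeff n) :=
  hasValue_charpolyAlongHom_coeff φ hφ hfin
    (letI := algebraAlong φ; haveI := isIntegral_along φ hφ; inferInstance) v y a ha n

end Along

end Fermat.Agent.Gateway.ESC
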