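import Fermat.Agent.Gateway.ESC.FiberCharpoly
import Fermat.Agent.Gateway.ESC.ChartCongruence

/-!
# Step C as consumed by `ChartCongruence`: `FiberCharpolyAlong` holds

`FiberCharpolyAlong β hβ` (the hypothesis `(FC)` of `chart_value_identity` / `chart_congruence`)
for every finite separable `β : F → F'`.
-/

set_option autoImplicit false

noncomputable section

namespace Fermat.Agent.Gateway.ESC

open Polynomial AlgebraicCurve Fermat.Agent.Gateway.Red

variable {K F F' : Type*} [Field K] [Field F] [Field F'] [Algebra K F] [Algebra K F']
  [HasPrincipalDivisors K F']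

/-- **Step C**: `FiberCharpolyAlong` for a finite separable morphism. -/
theorem fiberCharpolyAlong_of_isSeparable (β : F →ₐ[K] F') (hβ : β.toRingHom.IsIntegral)
    (hfin : FiniteAlong K β) (hsep : letI := algebraAlong β; Algebra.IsSeparable F F') :
    FiberCharpolyAlong β hβ :=
  fun v y a ha n => hasValue_charpolyAlongHom_coeff β hβ hfin hsep v y a ha n

/-- **Step C** over a perfect field (e.g. in characteristic zero). -/
theorem fiberCharpolyAlong [PerfectField F] (β : F →ₐ[K] F') (hβ : β.toRingHom.IsIntegral)
    (hfin : FiniteAlong K β) : FiberCharpolyAlong β hβ :=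
  fun v y a ha n => hasValue_charpolyAlongHom_coeff_of_perfectField β hβ hfin v y a ha n

end Fermat.Agent.Gateway.ESC
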