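import Mathlib
import Fermat.Agent.S28.Laurent
import Fermat.Prelude.Def_ModularCurve_X0ModL

set_option autoImplicit false

noncomputable section

namespace Fermat.Agent.Gateway.ESC

open Polynomial ModularCurve HahnSeries Fermat.Agent.S28

section Frobenius

variable {K : Type*} [CommRing K]

theorem coeffMap_ofPowerSeries {S : Type*} [CommRing S] (φ : K →+* S) (g : PowerSeries K) :
    coeffMap φ (HahnSeries.ofPowerSeries ℤ K g) = HahnSeries.ofPowerSeries ℤ S (g.map φ) := by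
  ext k
  rw [coeffMap_coeff]
  rcases le_or_gt 0 k with hk | hk
  · lift k to ℕ using hk
    rw [HahnSeries.ofPowerSeries_apply_coeff, HahnSeries.ofPowerSeries_apply_coeff,
      PowerSeries.coeff_map]
  · rw [ofPowerSeries_coeff_of_neg _ hk, ofPowerSeries_coeff_of_neg _ hk, map_zero]

theorem qExpand_ofPowerSeries (p : ℕ) [NeZero p] (g : PowerSeries K) :
    qExpand K p (HahnSeries.ofPowerSeries ℤ K g) =
      HahnSeries.ofPowerSeries ℤ K (g.expand p (NeZero.ne p)) := by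
  ext k
  rcases le_or_gt 0 k with hk | hk
  · lift k to ℕ using hk
    rw [HahnSeries.ofPowerSeries_apply_coeff, PowerSeries.coeff_expand]
    split_ifs with h
    · obtain ⟨m, rfl⟩ := h
      rw [Nat.mul_div_cancel_left _ (Nat.pos_of_ne_zero (NeZero.ne p))]
      push_cast
      rw [qExpand_coeff_mul, HahnSeries.ofPowerSeries_apply_coeff]
    · rw [qExpand_coeff_of_not_dvd]
      exact_mod_cast h
  · rw [ofPowerSeries_coeff_of_neg _ hk]
    by_cases h : (p : ℤ) ∣ k
    · obtain ⟨m, rfl⟩ := h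
      rw [qExpand_coeff_mul, ofPowerSeries_coeff_of_neg]
      have hp : (0 : ℤ) < p := by exact_mod_cast Nat.pos_of_ne_zero (NeZero.ne p)
      by_contra hm
      push Not at hm
      exact absurd hk (not_lt.mpr (mul_nonneg hp.le hm))
    · exact qExpand_coeff_of_not_dvd p _ h

variable (ℓ : ℕ) [Fact ℓ.Prime] [CharP K ℓ]

/-- Frobenius on Laurent series in characteristic `ℓ`: `f ^ ℓ` is obtained by raising the
coefficients to the `ℓ`-th power and substituting `u ↦ u ^ ℓ`. -/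
theorem pow_char_eq_qExpand (f : LaurentSeries K) :
    f ^ ℓ = qExpand K ℓ (coeffMap (frobenius K ℓ) f) := by
  have hℓ : ℓ ≠ 0 := (Fact.out : ℓ.Prime).ne_zero
  have hf := LaurentSeries.single_order_mul_powerSeriesPart f
  set g := f.powerSeriesPart with hg
  set n := f.order with hn
  have h1 : (frobenius K ℓ) 1 = 1 := map_one _
  have hL : f ^ ℓ = HahnSeries.single ((ℓ : ℤ) * n) (1 : K) *
      HahnSeries.ofPowerSeries ℤ K (g ^ ℓ) := by
    conv_lhs => rw [← hf]
    rw [mul_pow, HahnSeries.single_pow, one_pow, nsmul_eq_mul, ← map_pow]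
  have hR : qExpand K ℓ (coeffMap (frobenius K ℓ) f) = HahnSeries.single ((ℓ : ℤ) * n) (1 : K) *
      HahnSeries.ofPowerSeries ℤ K ((g.map (frobenius K ℓ)).expand ℓ hℓ) := by
    conv_lhs => rw [← hf]
    rw [map_mul, map_mul, coeffMap_single, h1, qExpand_single, coeffMap_ofPowerSeries,
      qExpand_ofPowerSeries]
  rw [hL, hR]
  congr 2
  have h := MvPowerSeries.map_frobenius_expand (σ := Unit) (R := K) ℓ hℓ (f := g)
  rw [← PowerSeries.map_expand]
  exact h.symm

end Frobenius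

section Kronecker

variable (ℓ : ℕ) [Fact ℓ.Prime]

/-- The cyclotomic ring `ℤ[ζ_ℓ]`, as `ℤ[X] / Φ_ℓ`. -/
abbrev CycRing : Type := AdjoinRoot (cyclotomic ℓ ℤ)

instance CycRing.isDomain : IsDomain (CycRing ℓ) :=
  AdjoinRoot.isDomain_of_prime
    (UniqueFactorizationMonoid.irreducible_iff_prime.mp
      (cyclotomic.irreducible (Fact.out : ℓ.Prime).pos))

instance CycRing.charZero : CharZero (CycRing ℓ) := by
  have hinj : Function.Injective (AdjoinRoot.of (cyclotomic ℓ ℤ)) := by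
    apply AdjoinRoot.of.injective_of_degree_ne_zero
    rw [degree_cyclotomic]
    have : 0 < Nat.totient ℓ := Nat.totient_pos.mpr (Fact.out : ℓ.Prime).pos
    exact_mod_cast this.ne'
  exact charZero_of_injective_ringHom hinj

theorem CycRing.isPrimitiveRoot_root :
    IsPrimitiveRoot (AdjoinRoot.root (cyclotomic ℓ ℤ)) ℓ := by
  have : NeZero ((ℓ : ℕ) : CycRing ℓ) :=
    ⟨by exact_mod_cast (Fact.out : ℓ.Prime).ne_zero⟩
  rw [← isRoot_cyclotomic_iff, IsRoot.def]
  have h := AdjoinRoot.eval₂_root (cyclotomic ℓ ℤ)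
  rw [← eval_map, map_cyclotomic] at h
  exact h

/-- The primitive `ℓ`-th root of unity of `ℤ[ζ_ℓ]` as a unit. -/
def CycRing.zeta : (CycRing ℓ)ˣ :=
  ((CycRing.isPrimitiveRoot_root ℓ).isUnit (Fact.out : ℓ.Prime).ne_zero).unit

theorem CycRing.isPrimitiveRoot_zeta : IsPrimitiveRoot (CycRing.zeta ℓ) ℓ :=
  (CycRing.isPrimitiveRoot_root ℓ).isUnit_unit (Fact.out : ℓ.Prime).ne_zero

/-- Reduction `ℤ[ζ_ℓ] → 𝔽_ℓ`, `ζ_ℓ ↦ 1`. -/
def CycRing.toZMod : CycRing ℓ →+* ZMod ℓ :=
  AdjoinRoot.lift (Int.castRingHom (ZMod ℓ)) 1 (by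
    rw [← eval_map, map_cyclotomic, eval_one_cyclotomic_prime, ZMod.natCast_self])

theorem CycRing.toZMod_zeta : Units.map (CycRing.toZMod ℓ : CycRing ℓ →* ZMod ℓ) (CycRing.zeta ℓ) = 1 := by
  ext
  rw [Units.coe_map, Units.val_one]
  show CycRing.toZMod ℓ (AdjoinRoot.root _) = 1
  exact AdjoinRoot.lift_root _

/-- Evaluating `ℤ[Y]` at a series with `𝔽_ℓ`-coefficients factors through `𝔽_ℓ[Y]`. -/
theorem evalY_eq_comp (y : LaurentSeries (ZMod ℓ)) :
    evalY y = (aeval y : (ZMod ℓ)[X] →ₐ[ZMod ℓ] LaurentSeries (ZMod ℓ)).toRingHom.comp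
      (Polynomial.mapRingHom (Int.castRingHom (ZMod ℓ))) := by
  refine Polynomial.ringHom_ext' (Subsingleton.elim _ _) ?_
  simp [evalY]

/-- **Kronecker's congruence**: `Φ_ℓ(X, Y) ≡ (X^ℓ - Y)(X - Y^ℓ) mod ℓ`. -/
theorem kronecker_congruence (E : ModularEquation ℓ) :
    E.Φ.map (Polynomial.mapRingHom (Int.castRingHom (ZMod ℓ))) =
      (X ^ ℓ - Polynomial.C X) * (X - Polynomial.C (X ^ ℓ)) := by
  have hℓ : ℓ.Prime := Fact.out
  have : NeZero ℓ := ⟨hℓ.ne_zero⟩
  set j : LaurentSeries (ZMod ℓ) := jqModC (ZMod ℓ) with hj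
  set J : LaurentSeries (ZMod ℓ) := qExpand (ZMod ℓ) ℓ j with hJ
  -- Frobenius
  have hfrob : ∀ f : LaurentSeries (ZMod ℓ), qExpand (ZMod ℓ) ℓ f = f ^ ℓ := by
    intro f
    rw [pow_char_eq_qExpand ℓ f, ZMod.frobenius_zmod, coeffMap_id]
  -- reduce the factorisation over `ℤ[ζ]`
  have hfac := congrArg (Polynomial.map (coeffMap (CycRing.toZMod ℓ)))
    (E.factor (CycRing.zeta ℓ) (CycRing.isPrimitiveRoot_zeta ℓ))
  rw [Polynomial.map_map, ringHom_comp_evalY, coeffMap_qExpand, coeffMap_jqModC,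
    Polynomial.map_mul, Polynomial.map_sub, Polynomial.map_X, Polynomial.map_C,
    coeffMap_qExpand, coeffMap_jqModC, Polynomial.map_prod] at hfac
  have hprod : ∏ i ∈ Finset.range ℓ, Polynomial.map (coeffMap (CycRing.toZMod ℓ))
      (X - Polynomial.C (twist (CycRing.zeta ℓ ^ i) (jqModC (CycRing ℓ)))) = (X - Polynomial.C j) ^ ℓ := by
    rw [Finset.prod_eq_pow_card (b := X - Polynomial.C j), Finset.card_range]
    intro i _
    rw [Polynomial.map_sub, Polynomial.map_X, Polynomial.map_C, coeffMap_twist, map_pow,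
      CycRing.toZMod_zeta, one_pow, twist_one, coeffMap_jqModC]
  rw [hprod] at hfac
  -- rewrite everything through `J`
  have h2 : qExpand (ZMod ℓ) (ℓ ^ 2) j = J ^ ℓ := by
    rw [← hfrob, hJ, qExpand_qExpand]
    exact qExpand_congr (sq ℓ) j
  have : CharP (LaurentSeries (ZMod ℓ)) ℓ :=
    charP_of_injective_ringHom (HahnSeries.C_injective (Γ := ℤ) (R := ZMod ℓ)) ℓ
  have h3 : (X - Polynomial.C j) ^ ℓ = X ^ ℓ - Polynomial.C J := by
    rw [sub_pow_char, ← Polynomial.C_pow, ← hfrob]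
  rw [← hj, ← hJ, h2, h3, evalY_eq_comp, ← Polynomial.map_map] at hfac
  -- injectivity of evaluation at `J`
  have htr : Transcendental (ZMod ℓ) J := transcendental_jqNModC ℓ
  have hinj : Function.Injective
      (aeval J : (ZMod ℓ)[X] →ₐ[ZMod ℓ] LaurentSeries (ZMod ℓ)).toRingHom :=
    fun a b hab => transcendental_iff_injective.mp htr hab
  apply Polynomial.map_injective _ hinj
  rw [hfac]
  have hX : (aeval J : (ZMod ℓ)[X] →ₐ[ZMod ℓ] LaurentSeries (ZMod ℓ)).toRingHom X = J :=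
    aeval_X J
  simp only [Polynomial.map_mul, Polynomial.map_sub, Polynomial.map_pow, Polynomial.map_X,
    Polynomial.map_C, map_pow, hX]
  ring

end Kronecker

end Fermat.Agent.Gateway.ESC
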