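import Fermat.Agent.Gateway.ESC.CharpolyBeta
import Fermat.Agent.Gateway.ESC.Kronecker
import Fermat.Agent.Gateway.GoodRed.GaussBar
import Fermat.Agent.Gateway.GoodRed.GaussRing

/-!
# The generalised Kronecker congruence for the Gauss valuation

`L` algebraically closed of characteristic zero, `A` a valuation subring of `L` with residue map
`π : A → k` onto an algebraically closed field of characteristic `ℓ`, `ℓ ∤ N`.  For `g` in the
Gauss ring `Ov` of `F_N`, the characteristic polynomial `H_g` of `α g` over `β F_N` has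
coefficients in `Ov`, and its reduction is
`(X - ḡ(q^ℓ)) * (X^ℓ - Fc ḡ)`, `Fc` the coefficientwise Frobenius.
-/

set_option autoImplicit false
set_option linter.style.haveILetI false

noncomputable section

namespace Fermat.Agent.Gateway.ESC

open Polynomial ModularCurve AlgebraicCurve IntermediateField
open Fermat.Agent.S28 Fermat.Agent.Gateway.Hecke
open Fermat.Agent.Gateway.Red Fermat.Agent.Gateway.GoodRed

section Units

variable {L : Type*} [Field L] (A : ValuationSubring L)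

/-- A root of unity of `L` as a unit of the valuation ring `A`. -/
theorem exists_unit_of_pow_eq_one {ζ : Lˣ} {n : ℕ} (hn : n ≠ 0) (hζ : ζ ^ n = 1) :
    ∃ ζA : Aˣ, Units.map (A.subtype : A →* L) ζA = ζ := by
  have hζ' : (ζ : L) ^ n = 1 := by
    have := congrArg Units.val hζ
    simpa using this
  obtain ⟨m, rfl⟩ : ∃ m, n = m + 1 := ⟨n - 1, by omega⟩
  have h1 : (ζ : L) ^ m = (ζ : L)⁻¹ := by
    apply eq_inv_of_mul_eq_one_left
    rw [← pow_succ, hζ']
  have h2 : ((ζ : L)⁻¹) ^ m = (ζ : L) := by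
    rw [inv_pow, h1, inv_inv]
  have hmem : (ζ : L) ∈ A ∧ (ζ : L)⁻¹ ∈ A := by
    rcases A.mem_or_inv_mem (ζ : L) with h | h
    · exact ⟨h, h1 ▸ pow_mem h m⟩
    · exact ⟨h2 ▸ pow_mem h m, h⟩
  refine ⟨⟨⟨ζ, hmem.1⟩, ⟨(ζ : L)⁻¹, hmem.2⟩, Subtype.ext (by simp), Subtype.ext (by simp)⟩, ?_⟩
  ext
  rfl

/-- In characteristic `ℓ`, an `ℓ`-th root of unity is `1`. -/
theorem eq_one_of_pow_char_eq_one {k : Type*} [Field k] (ℓ : ℕ) [Fact ℓ.Prime] [CharP k ℓ]
    {x : k} (hx : x ^ ℓ = 1) : x = 1 := by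
  have h : (x - 1) ^ ℓ = 0 := by
    rw [sub_pow_char, hx, one_pow, sub_self]
  exact sub_eq_zero.mp (pow_eq_zero_iff (Fact.out : ℓ.Prime).ne_zero |>.mp h)

theorem tower_twist_eq {R : Type*} [CommRing R] (ζ : Rˣ) :
    Fermat.Agent.S28.Tower.twist ζ = Fermat.Agent.S28.twist ζ := by
  ext f n
  rw [Fermat.Agent.S28.Tower.twist_coeff, Fermat.Agent.S28.twist_coeff]

end Units

section Conj

variable {L : Type} [Field L] [Algebra ℚ L] (A : ValuationSubring L)
  {k : Type} [Field k] (π : A →+* k)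
variable (ℓ : ℕ) [Fact ℓ.Prime] (N : ℕ) [NeZero N]

theorem conjHom_mem_gaussRing (ζA : Aˣ) (c : Option (Fin ℓ)) (g : FL L N)
    (hg : (g : LaurentSeries L) ∈ gaussRing A π) :
    conjHom L N ℓ (Units.map (A.subtype : A →* L) ζA) c g ∈ gaussRing A π := by
  cases c with
  | none =>
    rw [conjHom_apply, tauHom_none]
    exact GaussRing.qExpand_mem_gaussRing A π (ℓ * ℓ) hg
  | some i =>
    rw [conjHom_apply, tauHom_some, ← map_pow, tower_twist_eq]
    exact GaussRing.twist_mem_gaussRing A π (ζA ^ (i : ℕ)) hg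

theorem gaussRed_conjHom_none (ζA : Aˣ) (g : FL L N)
    (hg : (g : LaurentSeries L) ∈ gaussRing A π) :
    gaussRed A π ⟨conjHom L N ℓ (Units.map (A.subtype : A →* L) ζA) none g,
      conjHom_mem_gaussRing A π ℓ N ζA none g hg⟩ =
      qExpand k (ℓ * ℓ) (gaussRed A π ⟨(g : LaurentSeries L), hg⟩) :=
  GaussRing.gaussRed_qExpand A π (ℓ * ℓ) hg

theorem gaussRed_conjHom_some [CharP k ℓ] (ζA : Aˣ) (hζ : ζA ^ ℓ = 1) (i : Fin ℓ) (g : FL L N)
    (hg : (g : LaurentSeries L) ∈ gaussRing A π) :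
    gaussRed A π ⟨conjHom L N ℓ (Units.map (A.subtype : A →* L) ζA) (some i) g,
      conjHom_mem_gaussRing A π ℓ N ζA (some i) g hg⟩ =
      gaussRed A π ⟨(g : LaurentSeries L), hg⟩ := by
  have h1 : Units.map (π : A →* k) (ζA ^ (i : ℕ)) = 1 := by
    rw [map_pow]
    have h2 : Units.map (π : A →* k) ζA = 1 := by
      ext
      apply eq_one_of_pow_char_eq_one ℓ
      have := congrArg (fun u : Aˣ => π (u : A)) hζ
      simpa using this
    rw [h2, one_pow]
  have key := GaussRing.gaussRed_twist A π (ζA ^ (i : ℕ)) hg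
  rw [h1, Fermat.Agent.S28.twist_one] at key
  rw [← key]
  congr 1

end Conj

section Reflect

variable {L : Type*} [Field L] [Algebra ℚ L] (A : ValuationSubring L)
  {k : Type} [Field k] (π : A →+* k) [IsAlgClosed k]
variable (ℓ : ℕ) [Fact ℓ.Prime] [CharP k ℓ] (N : ℕ) [NeZero N]

/-- **Reflection**: if `c(q^d)` lies in the Gauss ring, so does `c ∈ F_N`. -/
theorem mem_Ov_of_qExpand_mem (hπ : Function.Surjective π) (hℓN : ¬ ℓ ∣ N) (d : ℕ) [NeZero d]
    (c : FBar L N) (hc : qExpand L d (c : LaurentSeries L) ∈ gaussRing A π) :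
    c ∈ Ov A π (FBar L N) := by
  by_contra hcO
  have hc0 : c ≠ 0 := by
    rintro rfl
    exact hcO (zero_mem _)
  have hinv : c⁻¹ ∈ OvVal A π N ℓ hπ hℓN := by
    rcases (OvVal A π N ℓ hπ hℓN).mem_or_inv_mem c with h | h
    · exact absurd h hcO
    · exact h
  have hnu : ¬ IsUnit (⟨c⁻¹, hinv⟩ : OvVal A π N ℓ hπ hℓN) := by
    intro hu
    obtain ⟨u, hu⟩ := hu
    apply hcO
    have h1 : ((u⁻¹ : (OvVal A π N ℓ hπ hℓN)ˣ) : OvVal A π N ℓ hπ hℓN) * ⟨c⁻¹, hinv⟩ = 1 := by
      rw [← hu]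
      exact u.inv_mul
    have h2 := congrArg (Subtype.val : OvVal A π N ℓ hπ hℓN → FBar L N) h1
    have h3 : (((u⁻¹ : (OvVal A π N ℓ hπ hℓN)ˣ) : OvVal A π N ℓ hπ hℓN) : FBar L N) * c⁻¹ = 1 := h2
    have h4 : (((u⁻¹ : (OvVal A π N ℓ hπ hℓN)ˣ) : OvVal A π N ℓ hπ hℓN) : FBar L N) = c := by
      field_simp at h3
      exact h3
    rw [← h4]
    exact ((u⁻¹ : (OvVal A π N ℓ hπ hℓN)ˣ) : OvVal A π N ℓ hπ hℓN).2
  have hres := (resFk_eq_zero_iff A π N ℓ hπ hℓN ⟨c⁻¹, hinv⟩).mpr hnu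
  have hred : gaussRed A π ⟨((c⁻¹ : FBar L N) : LaurentSeries L), hinv⟩ = 0 := by
    have := congrArg (Subtype.val : modularFunctionFieldFullC k N → LaurentSeries k) hres
    rw [coe_resFk] at this
    exact this
  have hq := GaussRing.gaussRed_qExpand A π d (y := ((c⁻¹ : FBar L N) : LaurentSeries L)) hinv
  rw [hred, map_zero] at hq
  have hmul : (⟨qExpand L d (c : LaurentSeries L), hc⟩ : gaussRing A π) *
      ⟨qExpand L d ((c⁻¹ : FBar L N) : LaurentSeries L),
        GaussRing.qExpand_mem_gaussRing A π d hinv⟩ = 1 := by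
    apply Subtype.ext
    show qExpand L d (c : LaurentSeries L) * qExpand L d ((c⁻¹ : FBar L N) : LaurentSeries L) = 1
    rw [← map_mul, ← MulMemClass.coe_mul, mul_inv_cancel₀ hc0]
    simp
  have := congrArg (gaussRed A π) hmul
  rw [map_mul, hq, mul_zero, map_one] at this
  exact zero_ne_one this

end Reflect

section Main

variable {L : Type} [Field L] [Algebra ℚ L] [IsAlgClosed L] (A : ValuationSubring L)
  {k : Type} [Field k] (π : A →+* k) [IsAlgClosed k]
variable (ℓ : ℕ) [Fact ℓ.Prime] [CharP k ℓ] (N : ℕ) [NeZero N]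

/-- Abstract form: a polynomial over `F_N` which, read through `c ↦ c(q^ℓ)`, is the product
over the conjugates of `g ∈ Ov`, has coefficients in `Ov` and reduces to
`(X - ḡ(q^ℓ)) * (X^ℓ - Fc ḡ)`. -/
theorem kronecker_gauss_of_form (hπ : Function.Surjective π) (hℓN : ¬ ℓ ∣ N)
    (g : FL L N) (hg : g ∈ Ov A π (FBar L N)) (H₀ : (FL L N)[X])
    (hform : ∀ ζ : Lˣ, IsPrimitiveRoot ζ ℓ → H₀.map (baseHom L N ℓ) = conjPoly L N ℓ ζ g) :
    ∃ H : (Ov A π (FBar L N))[X],
      H.map (Ov A π (FBar L N)).subtype = H₀ ∧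
      H.map (redV A π (FBar L N)) =
        (X - C (qExpand k ℓ (redV A π (FBar L N) ⟨g, hg⟩))) *
          (X ^ ℓ - C (coeffMap (frobenius k ℓ) (redV A π (FBar L N) ⟨g, hg⟩))) := by
  classical
  have hℓp : ℓ.Prime := Fact.out
  haveI : CharZero L := charZero_of_ratAlgebra L
  obtain ⟨ζ, hζ⟩ := exists_prim_unit L ℓ hℓp.ne_zero
  obtain ⟨ζA, hζA⟩ := exists_unit_of_pow_eq_one A hℓp.ne_zero hζ.pow_eq_one
  have hζAℓ : ζA ^ ℓ = 1 := by
    apply Units.map_injective (f := (A.subtype : A →* L)) Subtype.val_injective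
    rw [map_pow, hζA, hζ.pow_eq_one, map_one]
  subst hζA
  set ζ := Units.map (A.subtype : A →* L) ζA with hζdef
  have hform : H₀.map (baseHom L N ℓ) = conjPoly L N ℓ ζ g := hform ζ hζ
  have hgR : (g : LaurentSeries L) ∈ gaussRing A π := hg
  set gbar : LaurentSeries k := gaussRed A π ⟨(g : LaurentSeries L), hgR⟩ with hgbar
  have hgbar' : redV A π (FBar L N) ⟨g, hg⟩ = gbar := rfl
  let P : (gaussRing A π)[X] := ∏ c : Option (Fin ℓ),
    (X - C (⟨conjHom L N ℓ ζ c g, conjHom_mem_gaussRing A π ℓ N ζA c g hgR⟩ : gaussRing A π))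
  have hP1 : P.map (gaussRing A π).subtype = conjPoly L N ℓ ζ g := by
    rw [conjPoly, Polynomial.map_prod]
    refine Finset.prod_congr rfl fun c _ => ?_
    rw [Polynomial.map_sub, Polynomial.map_X, Polynomial.map_C]
    rfl
  have hP2 : P.map (gaussRed A π) =
      (X - C (qExpand k (ℓ * ℓ) gbar)) * (X - C gbar) ^ ℓ := by
    rw [Polynomial.map_prod, Fintype.prod_option]
    congr 1
    · rw [Polynomial.map_sub, Polynomial.map_X, Polynomial.map_C,
        gaussRed_conjHom_none A π ℓ N ζA g hgR]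
    · have : ∀ i : Fin ℓ, (X - C (⟨conjHom L N ℓ ζ (some i) g,
          conjHom_mem_gaussRing A π ℓ N ζA (some i) g hgR⟩ : gaussRing A π)).map (gaussRed A π)
          = X - C gbar := by
        intro i
        rw [Polynomial.map_sub, Polynomial.map_X, Polynomial.map_C,
          gaussRed_conjHom_some A π ℓ N ζA hζAℓ i g hgR]
      rw [Finset.prod_congr rfl fun i _ => this i, Finset.prod_const, Finset.card_univ,
        Fintype.card_fin]
  -- the coefficients
  have hcoef : ∀ n, qExpand L ℓ ((H₀.coeff n : FL L N) : LaurentSeries L) =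
      ((P.coeff n : gaussRing A π) : LaurentSeries L) := by
    intro n
    have h1 := congrArg (fun p => p.coeff n) (hform.trans hP1.symm)
    simp only [Polynomial.coeff_map] at h1
    exact h1
  have hmem : ∀ n, H₀.coeff n ∈ Ov A π (FBar L N) := fun n =>
    mem_Ov_of_qExpand_mem A π ℓ N hπ hℓN ℓ (H₀.coeff n) (by rw [hcoef n]; exact (P.coeff n).2)
  have hsub : (↑H₀.coeffs : Set (FBar L N)) ⊆ ↑(Ov A π (FBar L N)) := by
    intro x hx
    rw [Finset.mem_coe, Polynomial.mem_coeffs_iff] at hx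
    obtain ⟨n, -, rfl⟩ := hx
    exact hmem n
  refine ⟨H₀.toSubring (Ov A π (FBar L N)) hsub, Polynomial.map_toSubring _ _ _, ?_⟩
  -- the reduction, after applying `qExpand k ℓ`
  apply Polynomial.map_injective (qExpand k ℓ) (qExpand_injective ℓ)
  have hL : ((H₀.toSubring (Ov A π (FBar L N)) hsub).map (redV A π (FBar L N))).map (qExpand k ℓ)
      = P.map (gaussRed A π) := by
    refine Polynomial.ext fun n => ?_
    rw [Polynomial.coeff_map, Polynomial.coeff_map, Polynomial.coeff_map, redV_apply]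
    have h1 : (((H₀.toSubring (Ov A π (FBar L N)) hsub).coeff n : Ov A π (FBar L N)) : FBar L N)
        = H₀.coeff n := Polynomial.coeff_toSubring _ _ _
    have h2 := GaussRing.gaussRed_qExpand A π ℓ
      (y := ((((H₀.toSubring (Ov A π (FBar L N)) hsub).coeff n : Ov A π (FBar L N)) : FBar L N) :
        LaurentSeries L)) ((H₀.toSubring (Ov A π (FBar L N)) hsub).coeff n).2
    rw [← h2]
    congr 1
    apply Subtype.ext
    show qExpand L ℓ _ = _
    rw [h1, hcoef n]
  rw [hL, hP2, hgbar', Polynomial.map_mul, Polynomial.map_sub, Polynomial.map_sub,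
    Polynomial.map_pow, Polynomial.map_X, Polynomial.map_C, Polynomial.map_C, qExpand_qExpand,
    ← pow_char_eq_qExpand]
  haveI : CharP (LaurentSeries k) ℓ :=
    charP_of_injective_algebraMap (algebraMap k (LaurentSeries k)).injective ℓ
  rw [sub_pow_char, ← C_pow]

/-- **Generalised Kronecker congruence.**  For `g` in the Gauss ring of `F_N`, the characteristic
polynomial of `α g` over `β F_N` has coefficients in the Gauss ring and reduces to
`(X - ḡ(q^ℓ)) * (X^ℓ - Fc ḡ)`. -/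
theorem kronecker_gauss (hπ : Function.Surjective π) (hℓN : ¬ ℓ ∣ N)
    (hdeg : finrankAlong L (heckeAlphaBar L N ℓ) = ℓ + 1)
    (g : FL L N) (hg : g ∈ Ov A π (FBar L N)) :
    ∃ H : (Ov A π (FBar L N))[X],
      H.map (Ov A π (FBar L N)).subtype =
        charpolyAlongHom (heckeBetaBar L N ℓ).toRingHom (heckeAlphaBar L N ℓ g) ∧
      H.map (redV A π (FBar L N)) =
        (X - C (qExpand k ℓ (redV A π (FBar L N) ⟨g, hg⟩))) *
          (X ^ ℓ - C (coeffMap (frobenius k ℓ) (redV A π (FBar L N) ⟨g, hg⟩))) :=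
  kronecker_gauss_of_form A π ℓ N hπ hℓN g hg _ fun ζ hζ =>
    charpoly_alpha_along_beta hdeg (Fact.out : ℓ.Prime) hℓN ζ hζ g

/-- The transposed congruence: the characteristic polynomial of `β g` over `α F_N`. -/
theorem kronecker_gauss_transpose (hπ : Function.Surjective π) (hℓN : ¬ ℓ ∣ N)
    (hdeg : finrankAlong L (heckeAlphaBar L N ℓ) = ℓ + 1)
    (g : FL L N) (hg : g ∈ Ov A π (FBar L N)) :
    ∃ H : (Ov A π (FBar L N))[X],
      H.map (Ov A π (FBar L N)).subtype =
        charpolyAlongHom (heckeAlphaBar L N ℓ).toRingHom (heckeBetaBar L N ℓ g) ∧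
      H.map (redV A π (FBar L N)) =
        (X - C (qExpand k ℓ (redV A π (FBar L N) ⟨g, hg⟩))) *
          (X ^ ℓ - C (coeffMap (frobenius k ℓ) (redV A π (FBar L N) ⟨g, hg⟩))) :=
  kronecker_gauss_of_form A π ℓ N hπ hℓN g hg _ fun ζ hζ =>
    charpoly_beta_along_alpha hdeg (Fact.out : ℓ.Prime) hℓN ζ hζ g

end Main

section Final

variable (A : ValuationSubring (AlgebraicClosure ℚ)) {k : Type} [Field k]
  (π : A →+* k) [IsAlgClosed k] (ℓ : ℕ) [Fact ℓ.Prime] [CharP k ℓ] (N : ℕ) [NeZero N]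

/-- The generalised Kronecker congruence over `Q̄`, unconditionally. -/
theorem kronecker_gauss_algebraicClosure (hπ : Function.Surjective π) (hℓN : ¬ ℓ ∣ N)
    (g : FL (AlgebraicClosure ℚ) N) (hg : g ∈ Ov A π (FBar (AlgebraicClosure ℚ) N)) :
    ∃ H : (Ov A π (FBar (AlgebraicClosure ℚ) N))[X],
      H.map (Ov A π (FBar (AlgebraicClosure ℚ) N)).subtype =
        charpolyAlongHom (heckeBetaBar (AlgebraicClosure ℚ) N ℓ).toRingHom
          (heckeAlphaBar (AlgebraicClosure ℚ) N ℓ g) ∧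
      H.map (redV A π (FBar (AlgebraicClosure ℚ) N)) =
        (X - C (qExpand k ℓ (redV A π (FBar (AlgebraicClosure ℚ) N) ⟨g, hg⟩))) *
          (X ^ ℓ - C (coeffMap (frobenius k ℓ)
            (redV A π (FBar (AlgebraicClosure ℚ) N) ⟨g, hg⟩))) :=
  kronecker_gauss A π ℓ N hπ hℓN (finrank_along_alpha N ℓ (Fact.out : ℓ.Prime) hℓN) g hg

/-- The transposed congruence over `Q̄`, unconditionally. -/
theorem kronecker_gauss_transpose_algebraicClosure (hπ : Function.Surjective π) (hℓN : ¬ ℓ ∣ N)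
    (g : FL (AlgebraicClosure ℚ) N) (hg : g ∈ Ov A π (FBar (AlgebraicClosure ℚ) N)) :
    ∃ H : (Ov A π (FBar (AlgebraicClosure ℚ) N))[X],
      H.map (Ov A π (FBar (AlgebraicClosure ℚ) N)).subtype =
        charpolyAlongHom (heckeAlphaBar (AlgebraicClosure ℚ) N ℓ).toRingHom
          (heckeBetaBar (AlgebraicClosure ℚ) N ℓ g) ∧
      H.map (redV A π (FBar (AlgebraicClosure ℚ) N)) =
        (X - C (qExpand k ℓ (redV A π (FBar (AlgebraicClosure ℚ) N) ⟨g, hg⟩))) *
          (X ^ ℓ - C (coeffMap (frobenius k ℓ)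
            (redV A π (FBar (AlgebraicClosure ℚ) N) ⟨g, hg⟩))) :=
  kronecker_gauss_transpose A π ℓ N hπ hℓN
    (finrank_along_alpha N ℓ (Fact.out : ℓ.Prime) hℓN) g hg

/-- **Degree of `β` over `Q̄`**: `[F_{Nℓ} : β F_N] = ℓ + 1`. -/
theorem finrankAlong_beta_algebraicClosure (hℓN : ¬ ℓ ∣ N) :
    finrankAlong (AlgebraicClosure ℚ) (heckeBetaBar (AlgebraicClosure ℚ) N ℓ) = ℓ + 1 := by
  have hℓp : ℓ.Prime := Fact.out
  haveI : CharZero (AlgebraicClosure ℚ) := charZero_of_ratAlgebra _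
  obtain ⟨ζ, hζ⟩ := exists_prim_unit (AlgebraicClosure ℚ) ℓ hℓp.ne_zero
  exact finrankAlong_beta (finrank_along_alpha N ℓ hℓp hℓN) hℓp hℓN ζ hζ

end Final

end Fermat.Agent.Gateway.ESC
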