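import Mathlib

namespace Fermat.Agent.Gateway.ESC

open Polynomial

section

variable {F F' : Type*} [Field F] [Field F'] [Algebra F F']

theorem exists_map_eq_of_coeff_mem (O : ValuationSubring F) (g : F[X])
    (hg : ∀ i, g.coeff i ∈ O) : ∃ h : (↥O)[X], h.map (algebraMap O F) = g := by
  have : g ∈ Polynomial.lifts (algebraMap O F) := by
    rw [Polynomial.lifts_iff_coeff_lifts]
    intro i
    exact ⟨⟨g.coeff i, hg i⟩, rfl⟩
  exact this

theorem map_algebraMap_injective (O : ValuationSubring F) :
    Function.Injective (Polynomial.map (algebraMap O F)) :=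
  Polynomial.map_injective _ (by intro a b h; exact Subtype.ext h)

/-- Scaling: a polynomial over `F` with some coefficient outside `O` can be rescaled by a nonunit
`d ∈ O` so that all coefficients lie in `O` and one of them is `1`. -/
theorem exists_scaling (O : ValuationSubring F) (g : F[X]) (hg : ∃ i, g.coeff i ∉ O) :
    ∃ (d : O) (h : (↥O)[X]) (i₀ : ℕ), d ∈ IsLocalRing.maximalIdeal O ∧
      h.map (algebraMap O F) = C (d : F) * g ∧ h.coeff i₀ = 1 := by
  classical
  obtain ⟨i, hi⟩ := hg
  have hsupp : g.support.Nonempty := by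
    refine ⟨i, ?_⟩
    rw [Polynomial.mem_support_iff]
    intro h0
    exact hi (h0 ▸ O.zero_mem)
  obtain ⟨i₀, hi₀, hmax⟩ := Finset.exists_max_image g.support (fun n => O.valuation (g.coeff n)) hsupp
  set c := g.coeff i₀ with hc
  have hc0 : c ≠ 0 := Polynomial.mem_support_iff.mp hi₀
  have hcO : c ∉ O := by
    intro hcO
    apply hi
    rw [← ValuationSubring.valuation_le_one_iff] at hcO ⊢
    by_cases hisupp : i ∈ g.support
    · exact (hmax i hisupp).trans hcO
    · rw [Polynomial.notMem_support_iff.mp hisupp]; simp
  have hcv : 1 < O.valuation c := by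
    rw [← not_le, ValuationSubring.valuation_le_one_iff]; exact hcO
  have hdO : c⁻¹ ∈ O := (O.mem_or_inv_mem c).resolve_left hcO
  have hcoef : ∀ n, (C c⁻¹ * g).coeff n ∈ O := by
    intro n
    rw [Polynomial.coeff_C_mul, ← ValuationSubring.valuation_le_one_iff, map_mul, map_inv₀]
    by_cases hn : n ∈ g.support
    · have := hmax n hn
      rw [inv_mul_le_iff₀ (lt_trans zero_lt_one hcv)]
      simpa using this
    · rw [Polynomial.notMem_support_iff.mp hn]; simp
  obtain ⟨h, hh⟩ := exists_map_eq_of_coeff_mem O _ hcoef
  refine ⟨⟨c⁻¹, hdO⟩, h, i₀, ?_, hh, ?_⟩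
  · rw [ValuationSubring.valuation_lt_one_iff]
    show O.valuation c⁻¹ < 1
    rw [map_inv₀]
    exact inv_lt_one_of_one_lt₀ hcv
  · apply Subtype.ext
    have := congrArg (fun p => p.coeff i₀) hh
    simp only [Polynomial.coeff_map, Polynomial.coeff_C_mul] at this
    rw [show (algebraMap O F) (h.coeff i₀) = ((h.coeff i₀ : O) : F) from rfl] at this
    rw [this, ← hc]
    simp [hc0]



/-- Key divisibility: if `z = aeval x h` (with `h ∈ O[X]`) equals `d * y` with `d` in the maximal
ideal and `y` a root of a monic polynomial over `O`, then the reduction of `f` divides a power of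
the reduction of `h`. -/
theorem reduction_dvd_pow (O : ValuationSubring F) (f : (↥O)[X]) (hf : f.Monic)
    (x : F') (hmin : minpoly F x = f.map (algebraMap O F))
    (h : (↥O)[X]) (d : O) (hd : d ∈ IsLocalRing.maximalIdeal O) (y : F')
    (hzy : aeval x (h.map (algebraMap O F)) = algebraMap F F' (d : F) * y)
    (p : (↥O)[X]) (hp : p.Monic) (hpy : aeval y (p.map (algebraMap O F)) = 0) :
    f.map (IsLocalRing.residue O) ∣ (h.map (IsLocalRing.residue O)) ^ p.natDegree := by
  classical
  set m := p.natDegree with hm
  -- the polynomial `h^m + C d * Q`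
  let Q : (↥O)[X] := ∑ i ∈ Finset.range m, C (p.coeff i * d ^ (m - 1 - i)) * h ^ i
  have key : aeval x ((h ^ m + C d * Q).map (algebraMap O F)) = 0 := by
    have hsum : aeval y (p.map (algebraMap O F)) =
        y ^ m + ∑ i ∈ Finset.range m, algebraMap F F' ((p.coeff i : O) : F) * y ^ i := by
      rw [Polynomial.aeval_eq_sum_range, hm, Polynomial.natDegree_map_eq_of_injective
        (by intro a b hab; exact Subtype.ext hab), Finset.sum_range_succ, add_comm]
      congr 1
      · rw [Polynomial.coeff_map, hp.coeff_natDegree]
        simp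
      · refine Finset.sum_congr rfl fun i _ => ?_
        rw [Polynomial.coeff_map, Algebra.smul_def]
        rfl
    rw [hpy] at hsum
    set z := aeval x (h.map (algebraMap O F)) with hz
    have hz' : z = algebraMap F F' (d : F) * y := hzy
    simp only [Polynomial.map_add, Polynomial.map_mul, Polynomial.map_pow, Polynomial.map_C,
      map_add, map_mul, map_pow, Polynomial.aeval_C, Q, Polynomial.map_sum, map_sum]
    rw [← hz]
    have : z ^ m + algebraMap F F' ((algebraMap O F) d) *
        ∑ i ∈ Finset.range m, algebraMap F F' ((algebraMap O F) (p.coeff i)) *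
          algebraMap F F' ((algebraMap O F) d) ^ (m - 1 - i) * z ^ i
        = algebraMap F F' ((d : F)) ^ m * (y ^ m + ∑ i ∈ Finset.range m,
            algebraMap F F' ((p.coeff i : O) : F) * y ^ i) := by
      rw [mul_add, Finset.mul_sum, Finset.mul_sum, hz', mul_pow]
      congr 1
      refine Finset.sum_congr rfl fun i hi => ?_
      have hi' : i < m := Finset.mem_range.mp hi
      have e : m = (m - 1 - i) + i + 1 := by omega
      have hd' : (algebraMap O F) d = (d : F) := rfl
      rw [hd', mul_pow]
      have : (algebraMap O F) (p.coeff i) = ((p.coeff i : O) : F) := rfl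
      rw [this]
      generalize algebraMap F F' (d : F) = D
      generalize algebraMap F F' ((p.coeff i : O) : F) = a
      conv_rhs => rw [e]
      ring
    rw [this, ← hsum, mul_zero]
  -- hence `f ∣ h^m + C d * Q` in `O[X]`
  have hdvd : f ∣ h ^ m + C d * Q := by
    rw [← Polynomial.modByMonic_eq_zero_iff_dvd hf]
    apply map_algebraMap_injective O
    rw [Polynomial.map_modByMonic _ hf, Polynomial.map_zero,
      Polynomial.modByMonic_eq_zero_iff_dvd (hf.map _), ← hmin]
    exact minpoly.dvd F x key
  obtain ⟨q, hq⟩ := hdvd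
  have hres : IsLocalRing.residue O d = 0 := by
    rwa [IsLocalRing.residue_eq_zero_iff]
  refine ⟨q.map (IsLocalRing.residue O), ?_⟩
  have := congrArg (Polynomial.map (IsLocalRing.residue O)) hq
  simp only [Polynomial.map_add, Polynomial.map_mul, Polynomial.map_pow, Polynomial.map_C, hres,
    Polynomial.C_0, zero_mul, add_zero] at this
  exact this



/-- **Monogenic integral closure.** `O` a valuation subring of `F`, `f ∈ O[X]` monic with
`f = minpoly F x` and squarefree reduction.  Every element of `F[x]` that is a root of a monic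
polynomial over `O` is `h(x)` for some `h ∈ O[X]` with `deg h < deg f`. -/
theorem exists_integral_repr (O : ValuationSubring F) (f : (↥O)[X]) (hf : f.Monic)
    (x : F') (hmin : minpoly F x = f.map (algebraMap O F))
    (hsq : Squarefree (f.map (IsLocalRing.residue O)))
    (y : F') (hy : y ∈ Algebra.adjoin F {x})
    (p : (↥O)[X]) (hp : p.Monic) (hpy : aeval y (p.map (algebraMap O F)) = 0) :
    ∃ h : (↥O)[X], h.degree < f.degree ∧ aeval x (h.map (algebraMap O F)) = y := by
  classical
  have hinj : Function.Injective (algebraMap O F) := fun a b hab => Subtype.ext hab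
  set f' := f.map (algebraMap O F) with hf'
  have hf'm : f'.Monic := hf.map _
  have hroot : aeval x f' = 0 := by rw [← hmin]; exact minpoly.aeval F x
  rw [Algebra.adjoin_singleton_eq_range_aeval] at hy
  obtain ⟨g, hg⟩ := hy
  replace hg : aeval x g = y := hg
  subst hg
  set g0 := g %ₘ f' with hg0
  have hg0x : aeval x g0 = aeval x g :=
    Polynomial.aeval_modByMonic_eq_self_of_root hroot
  have hg0deg : g0.degree < f.degree := by
    have := Polynomial.degree_modByMonic_lt g hf'm
    rwa [hf', Polynomial.degree_map_eq_of_injective hinj] at this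
  by_cases hall : ∀ i, g0.coeff i ∈ O
  · obtain ⟨h, hh⟩ := exists_map_eq_of_coeff_mem O g0 hall
    refine ⟨h, ?_, by rw [hh, hg0x]⟩
    rw [← Polynomial.degree_map_eq_of_injective hinj h, hh]
    exact hg0deg
  · exfalso
    push Not at hall
    obtain ⟨d, h, i₀, hd, hh, hi₀⟩ := exists_scaling O g0 hall
    have hzy : aeval x (h.map (algebraMap O F)) = algebraMap F F' (d : F) * aeval x g := by
      rw [hh, map_mul, Polynomial.aeval_C, hg0x]
    have hdvd := reduction_dvd_pow O f hf x hmin h d hd (aeval x g) hzy p hp hpy
    have hm0 : p.natDegree ≠ 0 := by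
      intro h0
      have hp1 : p = 1 := Polynomial.eq_one_of_monic_natDegree_zero hp h0
      rw [hp1, Polynomial.map_one, map_one] at hpy
      exact one_ne_zero hpy
    rw [hsq.dvd_pow_iff_dvd hm0] at hdvd
    have hdeg : (h.map (IsLocalRing.residue O)).degree < (f.map (IsLocalRing.residue O)).degree := by
      rw [hf.degree_map (IsLocalRing.residue O)]
      refine lt_of_le_of_lt (Polynomial.degree_map_le) ?_
      rw [← Polynomial.degree_map_eq_of_injective hinj h, hh]
      refine lt_of_le_of_lt ?_ hg0deg
      refine (Polynomial.degree_mul_le _ _).trans ?_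
      have := Polynomial.degree_C_le (a := (d : F))
      calc (C (d : F)).degree + g0.degree ≤ 0 + g0.degree := by gcongr
        _ = g0.degree := zero_add _
    have hzero : h.map (IsLocalRing.residue O) = 0 :=
      Polynomial.eq_zero_of_dvd_of_degree_lt hdvd hdeg
    have := congrArg (fun q => q.coeff i₀) hzero
    simp only [Polynomial.coeff_map, hi₀, map_one, Polynomial.coeff_zero] at this
    exact one_ne_zero this

end

end Fermat.Agent.Gateway.ESC
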