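import Mathlib

/-!
# The multiplication matrix on `R[X]/(f)` and its base change (block (c3), step V2)

`mulMatrix n f h` is the matrix of multiplication by `h` on `R[X]/(f)` in the basis
`1, X, …, X^(n-1)` (`n = deg f`), given by the universal formula
`M i j = coeff_i ((X^j * h) %ₘ f)`.  It commutes with ring homomorphisms, and it is the
`Algebra.leftMulMatrix` of `aeval gen h` for every power basis whose generator is killed by `f`.
-/

namespace Fermat.Agent.Gateway.ESC

open Polynomial

section

variable {R S : Type*} [CommRing R] [CommRing S]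

/-- Matrix of multiplication by `h` on `R[X]/(f)` in the monomial basis. -/
noncomputable def mulMatrix (n : ℕ) (f h : R[X]) : Matrix (Fin n) (Fin n) R :=
  fun i j => ((X ^ (j : ℕ) * h) %ₘ f).coeff i

theorem mulMatrix_apply (n : ℕ) (f h : R[X]) (i j : Fin n) :
    mulMatrix n f h i j = ((X ^ (j : ℕ) * h) %ₘ f).coeff i := rfl

theorem mulMatrix_map (φ : R →+* S) (n : ℕ) {f : R[X]} (hf : f.Monic) (h : R[X]) :
    (mulMatrix n f h).map φ = mulMatrix n (f.map φ) (h.map φ) := by
  ext i j
  simp only [Matrix.map_apply, mulMatrix_apply]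
  rw [← Polynomial.coeff_map, Polynomial.map_modByMonic _ hf, Polynomial.map_mul,
    Polynomial.map_pow, Polynomial.map_X]

theorem charpoly_mulMatrix_map (φ : R →+* S) (n : ℕ) {f : R[X]} (hf : f.Monic) (h : R[X]) :
    (mulMatrix n f h).charpoly.map φ = (mulMatrix n (f.map φ) (h.map φ)).charpoly := by
  rw [← Matrix.charpoly_map, mulMatrix_map φ n hf h]

end

section

variable {R S : Type*} [CommRing R] [CommRing S] [Algebra R S]

/-- For a power basis `pb` whose generator is a root of the monic polynomial `f` of degree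
`pb.dim`, the left multiplication matrix of `aeval pb.gen h` is `mulMatrix pb.dim f h`. -/
theorem leftMulMatrix_eq_mulMatrix (pb : PowerBasis R S) {f : R[X]} (hf : f.Monic)
    (hroot : aeval pb.gen f = 0) (hdeg : f.natDegree = pb.dim) (h : R[X]) :
    Algebra.leftMulMatrix pb.basis (aeval pb.gen h) = mulMatrix pb.dim f h := by
  classical
  ext i j
  rw [Algebra.leftMulMatrix_eq_repr_mul, mulMatrix_apply, PowerBasis.coe_basis]
  set r := (X ^ (j : ℕ) * h) %ₘ f with hr
  have hr1 : aeval pb.gen h * pb.gen ^ (j : ℕ) = aeval pb.gen r := by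
    rw [hr, Polynomial.aeval_modByMonic_eq_self_of_root hroot, map_mul, map_pow, aeval_X,
      mul_comm]
  have hrdeg : r.natDegree < pb.dim := by
    rw [← hdeg]
    by_cases h1 : f = 1
    · exfalso
      have hi : (i : ℕ) < pb.dim := i.2
      have h0 : pb.dim = 0 := by rw [← hdeg, h1, natDegree_one]
      omega
    · exact Polynomial.natDegree_modByMonic_lt _ hf h1
  rw [hr1, Polynomial.aeval_eq_sum_range' hrdeg, Finset.sum_range]
  have : ∑ i : Fin pb.dim, r.coeff (i : ℕ) • pb.gen ^ (i : ℕ)
      = ∑ i : Fin pb.dim, r.coeff (i : ℕ) • pb.basis i := by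
    refine Finset.sum_congr rfl fun i _ => ?_
    rw [PowerBasis.coe_basis]
  rw [this, pb.basis.repr_sum_self]

theorem charpoly_lmul_eq_charpoly_mulMatrix (pb : PowerBasis R S) {f : R[X]} (hf : f.Monic)
    (hroot : aeval pb.gen f = 0) (hdeg : f.natDegree = pb.dim) (h : R[X]) :
    haveI := pb.finite
    haveI := Module.Free.of_basis pb.basis
    LinearMap.charpoly (Algebra.lmul R S (aeval pb.gen h)) = (mulMatrix pb.dim f h).charpoly := by
  have := pb.finite
  have := Module.Free.of_basis pb.basis
  rw [← leftMulMatrix_eq_mulMatrix pb hf hroot hdeg h, Algebra.leftMulMatrix_apply,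
    LinearMap.charpoly_toMatrix]

end

end Fermat.Agent.Gateway.ESC
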