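import Mathlib
import Fermat.Agent.S28.Tower.CharZeroRel

/-!
# (C1) `NormQExpFormula`, algebraic route, part 1: the generator argument

In the "`t`-world" `Ω = L((t))`, `q = t^ℓ`: if `x d` (`d ∣ N`) are elements of a field `E ⊇ Ω` such that
`Φ_ℓ(x d, j(t^(dℓ))) = 0` and `Φ_p(x (d' p), x d') = 0`, then there is a single index
`c ∈ {∞, 0, …, ℓ-1}` with `x d = j(t^(dℓ²))` (`c = ∞`) resp. `x d = j((ζ^c t)^d)` for all `d ∣ N`.
-/

set_option autoImplicit false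

noncomputable section

namespace Fermat.Agent.Gateway.ESC

open Polynomial ModularCurve Fermat.Agent.S28 Fermat.Agent.S28.Tower

section GeneratorArgument

variable {L : Type*} [Field L]

/-- The value of the conjugate number `c` on the generator `j(q^d)`. -/
def tauJ (ζ : Lˣ) (ℓ : ℕ) : Option (Fin ℓ) → ℕ → LaurentSeries L
  | none, d => jS L 1 (d * ℓ ^ 2)
  | some i, d => jS L (ζ ^ ((i : ℕ) * d)) d

variable {Φℓ : ℤ[X][X]} {ℓ : ℕ}

/-- Roots (in an extension field) of `Φ_ℓ(X, j(t^(mℓ)))`. -/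
theorem eq_of_rel_emb (hA : IsModEq Φℓ ℓ L) (hℓ : ℓ ≠ 0) {ζ : Lˣ} (hζ : IsPrimitiveRoot ζ ℓ)
    {E : Type*} [Field E] (emb : LaurentSeries L →+* E) {m : ℕ} (hm : m ≠ 0) {x : E}
    (h : Tower.Rel Φℓ x (emb (jS L 1 (m * ℓ)))) :
    x = emb (jS L 1 (m * ℓ ^ 2)) ∨ ∃ k < ℓ, x = emb (jS L (ζ ^ k) m) := by
  have hgen := hA.general hℓ hζ 1 hm
  rw [one_pow, one_pow] at hgen
  unfold Tower.Rel at h
  rw [← polyAt_map, hgen, Polynomial.map_mul, Polynomial.map_sub, Polynomial.map_X,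
    Polynomial.map_C, Polynomial.map_prod, IsRoot.def, eval_mul, eval_prod, mul_eq_zero,
    Finset.prod_eq_zero_iff] at h
  rcases h with h | ⟨k, hk, h⟩
  · left
    rw [eval_sub, eval_X, eval_C, sub_eq_zero] at h
    exact h
  · right
    refine ⟨k, Finset.mem_range.mp hk, ?_⟩
    rw [Polynomial.map_sub, Polynomial.map_X, Polynomial.map_C, eval_sub, eval_X, eval_C,
      sub_eq_zero, mul_one] at h
    exact h

theorem jS_eq_jS_iff {m m' : ℕ} (hm : m ≠ 0) (hm' : m' ≠ 0) {η η' : Lˣ} :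
    jS L η m = jS L η' m' ↔ m = m' ∧ η = η' := by
  constructor
  · intro h
    by_cases hmm : m = m'
    · subst hmm
      exact ⟨rfl, jS_injective_unit hm h⟩
    · exact absurd h (jS_ne_of_ne_exp hm hm' η η' hmm)
  · rintro ⟨rfl, rfl⟩
    rfl

/-- Roots in `L((t))` of `Φ_p(X, j(η^p t^(mp)))`. -/
theorem eq_of_rel_general {Φp : ℤ[X][X]} {p : ℕ} (hA : IsModEq Φp p L) (hp : p ≠ 0) {ζp : Lˣ}
    (hζp : IsPrimitiveRoot ζp p) (η : Lˣ) {m : ℕ} (hm : m ≠ 0) {x : LaurentSeries L}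
    (h : Tower.Rel Φp x (jS L (η ^ p) (m * p))) :
    x = jS L (η ^ (p ^ 2)) (m * p ^ 2) ∨ ∃ k < p, x = jS L (ζp ^ k * η) m := by
  have hgen := hA.general hp hζp η hm
  unfold Tower.Rel at h
  rw [hgen, IsRoot.def, eval_mul, eval_prod, mul_eq_zero, Finset.prod_eq_zero_iff] at h
  rcases h with h | ⟨k, hk, h⟩
  · left
    rw [eval_sub, eval_X, eval_C, sub_eq_zero] at h
    exact h
  · right
    refine ⟨k, Finset.mem_range.mp hk, ?_⟩
    rw [eval_sub, eval_X, eval_C, sub_eq_zero] at h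
    exact h

/-- **The step of the generator argument.** -/
theorem tauJ_step {Φp : ℤ[X][X]} {p : ℕ} (hAp : IsModEq Φp p L) (hℓ : ℓ.Prime) (hp : p.Prime)
    (hpℓ : p ≠ ℓ) {ζ : Lˣ} {ζp : Lˣ} (hζp : IsPrimitiveRoot ζp p)
    (hroot : ∀ a : Lˣ, ∃ η : Lˣ, η ^ p = a)
    (c : Option (Fin ℓ)) {d' : ℕ} (hd' : d' ≠ 0) {ρ : LaurentSeries L}
    (h1 : ρ = jS L 1 (d' * p * ℓ ^ 2) ∨ ∃ k < ℓ, ρ = jS L (ζ ^ k) (d' * p))
    (h2 : Tower.Rel Φp ρ (tauJ ζ ℓ c d')) :
    ρ = tauJ ζ ℓ c (d' * p) := by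
  have hp0 : p ≠ 0 := hp.ne_zero
  have hℓ0 : ℓ ≠ 0 := hℓ.ne_zero
  have hp2 : 2 ≤ p := hp.two_le
  have hℓ2 : 2 ≤ ℓ := hℓ.two_le
  have hd'pos : 0 < d' := Nat.pos_of_ne_zero hd'
  have h3 := h2.map (expand L p)
  have key : ∀ X : ℕ, 0 < X → X < X * ℓ ^ 2 := fun X hX =>
    lt_mul_of_one_lt_right hX (by nlinarith)
  have key2 : ∀ X : ℕ, 0 < X → X < X * p ^ 2 := fun X hX =>
    lt_mul_of_one_lt_right hX (by nlinarith)
  cases c with
  | none =>
    rcases h1 with h1 | ⟨k, -, h1⟩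
    · exact h1
    · exfalso
      simp only [tauJ] at h3
      rw [h1, expand_jS hp0 (Nat.mul_ne_zero hd' hp0),
        expand_jS hp0 (Nat.mul_ne_zero hd' (pow_ne_zero 2 hℓ0)),
        show p * (d' * ℓ ^ 2) = (d' * ℓ ^ 2) * p by ring,
        show (1 : Lˣ) = 1 ^ p by rw [one_pow]] at h3
      rcases eq_of_rel_general hAp hp0 hζp 1 (Nat.mul_ne_zero hd' (pow_ne_zero 2 hℓ0)) h3 with
        h4 | ⟨m, -, h4⟩
      · have := (jS_eq_jS_iff (by positivity) (by positivity)).mp h4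
        have h5 : p * (d' * p) = d' * ℓ ^ 2 * p ^ 2 := this.1
        have h6 := key (d' * p ^ 2) (by positivity)
        have e1 : p * (d' * p) = d' * p ^ 2 := by ring
        have e2 : d' * ℓ ^ 2 * p ^ 2 = d' * p ^ 2 * ℓ ^ 2 := by ring
        omega
      · have := (jS_eq_jS_iff (by positivity) (by positivity)).mp h4
        have h5 : p * (d' * p) = d' * ℓ ^ 2 := this.1
        have h6 : p ^ 2 = ℓ ^ 2 := by
          apply Nat.eq_of_mul_eq_mul_left hd'pos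
          rw [← h5]; ring
        exact hpℓ (Nat.pow_left_injective (by norm_num : 2 ≠ 0) h6)
  | some i =>
    obtain ⟨η, hη⟩ := hroot (ζ ^ ((i : ℕ) * d'))
    simp only [tauJ] at h3 ⊢
    rw [expand_jS hp0 hd', mul_comm p d', ← hη] at h3
    rcases h1 with h1 | ⟨k, -, h1⟩
    · exfalso
      rw [h1, expand_jS hp0 (by positivity)] at h3
      rcases eq_of_rel_general hAp hp0 hζp η hd' h3 with h4 | ⟨m, -, h4⟩
      · have := (jS_eq_jS_iff (by positivity) (by positivity)).mp h4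
        have h5 : p * (d' * p * ℓ ^ 2) = d' * p ^ 2 := this.1
        have h6 := key (d' * p ^ 2) (by positivity)
        have e1 : p * (d' * p * ℓ ^ 2) = d' * p ^ 2 * ℓ ^ 2 := by ring
        omega
      · have := (jS_eq_jS_iff (by positivity) (by positivity)).mp h4
        have h5 : p * (d' * p * ℓ ^ 2) = d' := this.1
        have h6 := key (d' * p ^ 2) (by positivity)
        have h7 := key2 d' hd'pos
        have e1 : p * (d' * p * ℓ ^ 2) = d' * p ^ 2 * ℓ ^ 2 := by ring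
        omega
    · rw [h1, expand_jS hp0 (by positivity)] at h3
      rcases eq_of_rel_general hAp hp0 hζp η hd' h3 with h4 | ⟨m, -, h4⟩
      · have := (jS_eq_jS_iff (by positivity) (by positivity)).mp h4
        rw [h1, this.2, pow_two, pow_mul, hη, ← pow_mul, mul_assoc]
      · exfalso
        have := (jS_eq_jS_iff (by positivity) (by positivity)).mp h4
        have h5 : p * (d' * p) = d' := this.1
        have h7 := key2 d' hd'pos
        have e1 : p * (d' * p) = d' * p ^ 2 := by ring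
        omega

/-- **The generator argument.** -/
theorem exists_tauJ (hAℓ : IsModEq Φℓ ℓ L) (Φ : ℕ → ℤ[X][X]) {N : ℕ}
    (hΦ : ∀ p, p.Prime → p ∣ N → IsModEq (Φ p) p L)
    (hℓ : ℓ.Prime) (hℓN : ¬ ℓ ∣ N) {ζ : Lˣ} (hζ : IsPrimitiveRoot ζ ℓ)
    (hprim : ∀ p, p.Prime → ∃ ζp : Lˣ, IsPrimitiveRoot ζp p)
    (hroot : ∀ p, p.Prime → ∀ a : Lˣ, ∃ η : Lˣ, η ^ p = a)
    {E : Type*} [Field E] (emb : LaurentSeries L →+* E) (x : ℕ → E)
    (hb : ∀ d, d ≠ 0 → d ∣ N → Tower.Rel Φℓ (x d) (emb (jS L 1 (d * ℓ))))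
    (hc : ∀ d' p, p.Prime → d' ≠ 0 → d' * p ∣ N → Tower.Rel (Φ p) (x (d' * p)) (x d')) :
    ∃ c : Option (Fin ℓ), ∀ d, d ≠ 0 → d ∣ N → x d = emb (tauJ ζ ℓ c d) := by
  have hℓ0 : ℓ ≠ 0 := hℓ.ne_zero
  -- the index
  obtain ⟨c, hc1⟩ : ∃ c : Option (Fin ℓ), x 1 = emb (tauJ ζ ℓ c 1) := by
    rcases eq_of_rel_emb hAℓ hℓ0 hζ emb one_ne_zero (hb 1 one_ne_zero (one_dvd N)) with h | ⟨k, hk, h⟩
    · exact ⟨none, h⟩
    · refine ⟨some ⟨k, hk⟩, ?_⟩
      simp only [tauJ, mul_one]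
      exact h
  refine ⟨c, ?_⟩
  intro d
  induction d using Nat.strong_induction_on with
  | _ d ih =>
    intro hd0 hdN
    by_cases hd1 : d = 1
    · subst hd1; exact hc1
    · set p := d.minFac with hp
      have hpp : p.Prime := Nat.minFac_prime hd1
      have hpd : p ∣ d := Nat.minFac_dvd d
      obtain ⟨d', hd'⟩ : ∃ d', d = d' * p := ⟨d / p, (Nat.div_mul_cancel hpd).symm⟩
      have hd'0 : d' ≠ 0 := by
        rintro rfl
        exact hd0 (by rw [hd', zero_mul])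
      have hd'N : d' ∣ N := (Dvd.intro _ hd'.symm).trans hdN
      have hd'lt : d' < d := by
        rw [hd']
        exact lt_mul_of_one_lt_right (Nat.pos_of_ne_zero hd'0) hpp.one_lt
      have hpN : p ∣ N := hpd.trans hdN
      have hpℓ : p ≠ ℓ := fun h => hℓN (h ▸ hpN)
      obtain ⟨ζp, hζp⟩ := hprim p hpp
      have ih' := ih d' hd'lt hd'0 hd'N
      have hrel := hc d' p hpp hd'0 (hd' ▸ hdN)
      rw [← hd', ih'] at hrel
      have hroots := eq_of_rel_emb hAℓ hℓ0 hζ emb hd0 (hb d hd0 hdN)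
      -- `x d = emb ρ`
      obtain ⟨ρ, hρ, hρ1⟩ : ∃ ρ : LaurentSeries L, x d = emb ρ ∧
          (ρ = jS L 1 (d' * p * ℓ ^ 2) ∨ ∃ k < ℓ, ρ = jS L (ζ ^ k) (d' * p)) := by
        rcases hroots with h | ⟨k, hk, h⟩
        · exact ⟨_, h, Or.inl (by rw [hd'])⟩
        · exact ⟨_, h, Or.inr ⟨k, hk, by rw [hd']⟩⟩
      rw [hρ] at hrel
      have hrel' : Tower.Rel (Φ p) ρ (tauJ ζ ℓ c d') :=
        Rel.of_map_injective emb emb.injective hrel
      rw [hρ, tauJ_step (hΦ p hpp hpN) hℓ hpp hpℓ hζp (hroot p hpp) c hd'0 hρ1 hrel', hd']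

end GeneratorArgument

end Fermat.Agent.Gateway.ESC
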