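/-
helper44 (P-GATEWAY (c), ESC block, Step A part 5): a modular relation `Φ(x, y) = 0`
(`Φ ∈ ℤ[Y][X]` monic) and values at places: integrality and reduction of the values.  This gives
the support condition `(SUPP)` of `chart_congruence` for the charts `j` and `1/j`.
-/
import Fermat.Agent.Gateway.ESC.ValueCalc
import Fermat.Agent.S28.Tower.Defs

set_option autoImplicit false

noncomputable section

namespace Fermat.Agent.Gateway.ESC

open Polynomial AlgebraicCurve Fermat.Agent.Gateway.Red Fermat.Agent.S28.Tower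

section ValRing

variable {E : Type*} [Field E] {Φ : ℤ[X][X]}

/-- a valuation subring containing `y` contains every `x` with `Φ(x, y) = 0`, `Φ` monic -/
theorem mem_of_rel (hΦ : Φ.Monic) {x y : E} (h : Rel Φ x y) (O : ValuationSubring E)
    (hy : y ∈ O) : x ∈ O := by
  have hint : IsIntegral O x := by
    refine ⟨polyAt Φ (⟨y, hy⟩ : O), polyAt_monic hΦ _, ?_⟩
    have h1 : (polyAt Φ (⟨y, hy⟩ : O)).map (algebraMap O E) = polyAt Φ y :=
      polyAt_map Φ (algebraMap O E) ⟨y, hy⟩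
    rw [← eval_map, h1]
    exact h
  obtain ⟨z, hz⟩ := IsIntegrallyClosed.isIntegral_iff.mp hint
  rw [← hz]
  exact z.2

/-- the relation descends to the subring -/
theorem rel_subring {x y : E} (h : Rel Φ x y) (O : ValuationSubring E) (hx : x ∈ O)
    (hy : y ∈ O) : Rel Φ (⟨x, hx⟩ : O) ⟨y, hy⟩ := by
  unfold Fermat.Agent.S28.Tower.Rel at h ⊢
  have h1 : (polyAt Φ (⟨y, hy⟩ : O)).map O.subtype = polyAt Φ y :=
    polyAt_map Φ O.subtype ⟨y, hy⟩
  rw [IsRoot.def] at h ⊢
  apply Subtype.ext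
  have h2 : ((eval (⟨x, hx⟩ : O) (polyAt Φ (⟨y, hy⟩ : O)) : O) : E) =
      eval x ((polyAt Φ (⟨y, hy⟩ : O)).map O.subtype) := by
    rw [eval_map]
    exact (eval₂_at_apply O.subtype (⟨x, hx⟩ : O)).symm
  rw [h2, h1, h]
  rfl

end ValRing

section Values

variable {K F : Type*} [Field K] [Field F] [Algebra K F] {W : Place K F} {Φ : ℤ[X][X]}

theorem hasValue_intCast (n : ℤ) : HasValue W (n : F) (n : K) := by
  have := hasValue_algebraMap W (n : K)
  rwa [map_intCast] at this

theorem hasValue_evalAt (p : ℤ[X]) {y : F} {b : K} (h : HasValue W y b) :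
    HasValue W (evalAt y p) (evalAt b p) := by
  show HasValue W (eval₂ (Int.castRingHom F) y p) (eval₂ (Int.castRingHom K) b p)
  rw [eval₂_eq_sum_range, eval₂_eq_sum_range]
  refine hasValue_sum _ _ _ fun i _ => ?_
  exact (hasValue_intCast _).mul (HasValue.pow h i)

theorem polyHasValue_polyAt {y : F} {b : K} (h : HasValue W y b) :
    PolyHasValue W (polyAt Φ y) (polyAt Φ b) := fun n => by
  rw [polyAt, polyAt, coeff_map, coeff_map]
  exact hasValue_evalAt _ h

theorem PolyHasValue.eval {p : F[X]} {q : K[X]} (h : PolyHasValue W p q) {x : F} {a : K}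
    (hx : HasValue W x a) : HasValue W (p.eval x) (q.eval a) := by
  rw [eval_eq_sum_range' (Nat.lt_succ_of_le (le_max_left p.natDegree q.natDegree)),
    eval_eq_sum_range' (Nat.lt_succ_of_le (le_max_right p.natDegree q.natDegree))]
  exact hasValue_sum _ _ _ fun i _ => (h i).mul (HasValue.pow hx i)

/-- values of a relation: `Φ(x, y) = 0`, `x(W) = a`, `y(W) = b` give `Φ(a, b) = 0` -/
theorem rel_values {x y : F} (h : Rel Φ x y) {a b : K} (hx : HasValue W x a)
    (hy : HasValue W y b) : Rel Φ a b := by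
  have h1 := (polyHasValue_polyAt (Φ := Φ) hy).eval hx
  unfold Fermat.Agent.S28.Tower.Rel at h ⊢
  rw [IsRoot.def] at h ⊢
  rw [h] at h1
  exact (h1.unique hasValue_zero)

end Values

section Supp

variable {K F : Type*} [Field K] [Field F] [Algebra K F] {Φ : ℤ[X][X]}
  {k : Type*} [Field k] (A : ValuationSubring K) (π : A →+* k)

/-- **(SUPP) on the chart `j`**: if `y(W) = b ∈ A` and `Φ(x, y) = 0`, then `x(W) = a ∈ A` and
`Φ(ā, b̄) = 0`. -/
theorem supp_chart (hΦ : Φ.Monic) {x y : F} (hxy : Rel Φ x y) (W : Place K F)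
    (hres : Function.Surjective (algebraMap K W.ResidueField)) (b : A)
    (hb : HasValue W y (b : K)) :
    ∃ a : A, HasValue W x (a : K) ∧ Rel Φ (π a) (π b) := by
  have hxW : x ∈ W.toValuationSubring := mem_of_rel hΦ hxy _ hb.mem
  obtain ⟨c, hc⟩ : ∃ c : K, HasValue W x c := by
    obtain ⟨c, hc⟩ := hres (IsLocalRing.residue W.toValuationSubring ⟨x, hxW⟩)
    exact ⟨c, hasValue_iff.mpr ⟨hxW, hc.symm⟩⟩
  have hrel : Rel Φ c (b : K) := rel_values hxy hc hb
  have hcA : c ∈ A := mem_of_rel hΦ hrel A b.2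
  refine ⟨⟨c, hcA⟩, hc, ?_⟩
  have h1 : Rel Φ (⟨c, hcA⟩ : A) b := rel_subring hrel A hcA b.2
  exact h1.map π

/-- **(SUPP) on the chart `1/j`**: if `y⁻¹(W) = b ∈ m_A`, `y ≠ 0` and `Φ(y, x) = 0`, then
`x⁻¹(W) = a ∈ m_A`. -/
theorem supp_chart_inv (hΦ : Φ.Monic) {x y : F} (hyx : Rel Φ y x) (hy0 : y ≠ 0) (W : Place K F)
    (hres : Function.Surjective (algebraMap K W.ResidueField)) (b : A)
    (hbm : b ∈ IsLocalRing.maximalIdeal A) (hb : HasValue W y⁻¹ (b : K)) :
    ∃ a : A, a ∈ IsLocalRing.maximalIdeal A ∧ HasValue W x⁻¹ (a : K) := by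
  by_cases hxW : x ∈ W.toValuationSubring
  · -- then `y` is regular at `W`
    have hyW : y ∈ W.toValuationSubring := mem_of_rel hΦ hyx _ hxW
    obtain ⟨a', ha'⟩ : ∃ c : K, HasValue W x c := by
      obtain ⟨c, hc⟩ := hres (IsLocalRing.residue W.toValuationSubring ⟨x, hxW⟩)
      exact ⟨c, hasValue_iff.mpr ⟨hxW, hc.symm⟩⟩
    obtain ⟨b', hb'⟩ : ∃ c : K, HasValue W y c := by
      obtain ⟨c, hc⟩ := hres (IsLocalRing.residue W.toValuationSubring ⟨y, hyW⟩)
      exact ⟨c, hasValue_iff.mpr ⟨hyW, hc.symm⟩⟩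
    have h1 : b' * (b : K) = 1 := by
      have := hb'.mul hb
      rw [mul_inv_cancel₀ hy0] at this
      exact (this.unique hasValue_one)
    have hrel : Rel Φ b' a' := rel_values hyx hb' ha'
    have ha'A : a' ∉ A := by
      intro h
      have hb'A : b' ∈ A := mem_of_rel hΦ hrel A h
      have hunit : IsUnit b := by
        refine IsUnit.of_mul_eq_one (⟨b', hb'A⟩ : A) (Subtype.ext ?_)
        show (b : K) * b' = 1
        rw [mul_comm]
        exact h1
      exact hbm hunit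
    have ha'0 : a' ≠ 0 := fun h => ha'A (h ▸ A.zero_mem)
    have hinvA : a'⁻¹ ∈ A := (A.mem_or_inv_mem a').resolve_left ha'A
    refine ⟨⟨a'⁻¹, hinvA⟩, ?_, ha'.inv ha'0⟩
    rw [IsLocalRing.mem_maximalIdeal, mem_nonunits_iff]
    intro hu
    apply ha'A
    obtain ⟨u, hu⟩ := hu
    have h2 : ((u : A) : K) * ((u⁻¹ : Aˣ) : K) = 1 := by
      rw [← MulMemClass.coe_mul, Units.mul_inv]
      rfl
    have h3 : ((u : A) : K) = a'⁻¹ := by rw [hu]
    rw [h3] at h2
    have h4 : ((u⁻¹ : Aˣ) : K) = a' := by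
      rw [← inv_inv a']
      exact (inv_eq_of_mul_eq_one_right h2).symm
    rw [← h4]
    exact SetLike.coe_mem _
  · refine ⟨0, Ideal.zero_mem _, ?_⟩
    rw [ZeroMemClass.coe_zero, hasValue_zero_iff, ValuationSubring.mem_nonunits_iff_or]
    right
    rwa [inv_inv]

end Supp

end Fermat.Agent.Gateway.ESC
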