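import Mathlib
import Fermat.Agent.Gateway.ESC.MonogenicClosure
import Fermat.Agent.Gateway.ESC.MulMatrix

set_option autoImplicit false

noncomputable section

namespace Fermat.Agent.Gateway.ESC

open Polynomial

section General

/-- Characteristic polynomial of a scalar endomorphism. -/
theorem charpoly_smul_one {R M : Type*} [CommRing R] [Nontrivial R] [AddCommGroup M] [Module R M]
    [Module.Free R M] [Module.Finite R M] (μ : R) :
    (μ • (1 : Module.End R M)).charpoly = (X - C μ) ^ Module.finrank R M := by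
  have h := LinearMap.charpoly_sub_smul (0 : Module.End R M) (-μ)
  rw [LinearMap.charpoly_zero, zero_sub, neg_smul, neg_neg, pow_comp, X_comp] at h
  rw [h, C_neg, sub_eq_add_neg]

/-- Squarefreeness descends along field extensions of the coefficients. -/
theorem squarefree_of_map {K K' : Type*} [Field K] [Field K'] (ι : K →+* K') {p : K[X]}
    (h : Squarefree (p.map ι)) : Squarefree p := by
  intro a ha
  have h1 : IsUnit (a.map ι) := h _ (by
    rw [← Polynomial.map_mul]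
    exact Polynomial.map_dvd ι ha)
  have h2 : (a.map ι).degree = 0 := Polynomial.degree_eq_zero_of_isUnit h1
  rw [Polynomial.degree_map] at h2
  exact Polynomial.isUnit_iff_degree_eq_zero.mpr h2

end General

section PrimeDegree

variable {κ K₂ : Type*} [Field κ] [Field K₂] [Algebra κ K₂] [FiniteDimensional κ K₂]

/-- In a field extension of prime degree `ℓ` in characteristic `ℓ`, an element whose `ℓ`-th power
is the base element `b` has characteristic polynomial `X^ℓ - b`. -/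
theorem charpoly_lmul_of_pow_eq (ℓ : ℕ) [Fact ℓ.Prime] [CharP κ ℓ]
    (hrank : Module.finrank κ K₂ = ℓ) (γ : K₂) (b : κ) (hγ : γ ^ ℓ = algebraMap κ K₂ b) :
    LinearMap.charpoly (Algebra.lmul κ K₂ γ) = X ^ ℓ - C b := by
  have hℓ : ℓ.Prime := Fact.out
  by_cases hmem : γ ∈ (algebraMap κ K₂).range
  · obtain ⟨c, rfl⟩ := hmem
    have h1 : Algebra.lmul κ K₂ (algebraMap κ K₂ c) = c • (1 : Module.End κ K₂) := by
      ext z
      simp [Algebra.smul_def]
    have h2 : c ^ ℓ = b := by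
      apply (algebraMap κ K₂).injective
      rw [map_pow, hγ]
    rw [h1, charpoly_smul_one, hrank, sub_pow_char, ← C_pow, h2]
  · have hint : IsIntegral κ γ := Algebra.IsIntegral.isIntegral γ
    have hdvd : minpoly κ γ ∣ X ^ ℓ - C b := by
      apply minpoly.dvd
      rw [map_sub, map_pow, aeval_X, aeval_C, hγ, sub_self]
    have hdeg : (minpoly κ γ).natDegree = ℓ := by
      have h1 := minpoly.degree_dvd (K := κ) (L := K₂) hint
      rw [hrank] at h1
      rcases (Nat.dvd_prime hℓ).mp h1 with h | h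
      · exact absurd (minpoly.natDegree_eq_one_iff.mp h) hmem
      · exact h
    have hmonic : (X ^ ℓ - C b : κ[X]).Monic := monic_X_pow_sub_C b hℓ.ne_zero
    have hdeg2 : (X ^ ℓ - C b : κ[X]).natDegree = ℓ := natDegree_X_pow_sub_C
    have hmin : minpoly κ γ = X ^ ℓ - C b :=
      (Polynomial.eq_of_monic_of_dvd_of_natDegree_le (minpoly.monic hint) hmonic hdvd
        (by rw [hdeg, hdeg2])).symm
    have h3 : minpoly κ (Algebra.lmul κ K₂ γ) = minpoly κ γ :=
      minpoly.algHom_eq (Algebra.lmul κ K₂) Algebra.lmul_injective γ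
    have h4 : minpoly κ (Algebra.lmul κ K₂ γ) ∣ LinearMap.charpoly (Algebra.lmul κ K₂ γ) :=
      LinearMap.minpoly_dvd_charpoly _
    rw [h3, hmin] at h4
    apply Polynomial.eq_of_monic_of_dvd_of_natDegree_le hmonic (LinearMap.charpoly_monic _) h4
    rw [LinearMap.charpoly_natDegree, hrank, hdeg2]

end PrimeDegree

section PartA

variable {κ : Type*} [Field κ] (ℓ : ℕ) [Fact ℓ.Prime] [CharP κ ℓ] (a : κ)

/-- The reduction `(X^ℓ - a)(X - a^ℓ)` of the modular polynomial `Φ_ℓ(X, j)`. -/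
def fbar : κ[X] := (X ^ ℓ - C a) * (X - C (a ^ ℓ))

omit [CharP κ ℓ] in
theorem fbar_monic : (fbar ℓ a).Monic :=
  (monic_X_pow_sub_C a (Fact.out : ℓ.Prime).ne_zero).mul (monic_X_sub_C _)

omit [CharP κ ℓ] in
theorem fbar_natDegree : (fbar ℓ a).natDegree = ℓ + 1 := by
  rw [fbar, Polynomial.Monic.natDegree_mul (monic_X_pow_sub_C a (Fact.out : ℓ.Prime).ne_zero)
    (monic_X_sub_C _), natDegree_X_pow_sub_C, natDegree_X_sub_C]

theorem charpoly_lmul_self (x : κ) : LinearMap.charpoly (Algebra.lmul κ κ x) = X - C x := by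
  have h1 : Algebra.lmul κ κ x = x • (1 : Module.End κ κ) := by
    ext
    simp
  rw [h1, charpoly_smul_one, Module.finrank_self, pow_one]

/-- **Two factors**: the characteristic polynomial of multiplication by `h` on
`κ[X]/((X^ℓ - a)(X - a^ℓ))`, when `a` is not an `ℓ`-th power: the factor `X - a^ℓ` contributes
the value `h(a^ℓ)`, the purely inseparable factor `κ(a^{1/ℓ})` contributes `X^ℓ - b` where
`h(a^{1/ℓ})^ℓ = b` (computed in any field `Ω` containing a root `ξ` of `X^ℓ - a`). -/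
theorem charpoly_mulMatrix_twoFactors (ha : ∀ c : κ, c ^ ℓ ≠ a) {Ω : Type*} [Field Ω]
    (ιβ : κ →+* Ω) (ξ : Ω) (hξ : ξ ^ ℓ = ιβ a) (h : κ[X]) (b : κ)
    (hb : (h.eval₂ ιβ ξ) ^ ℓ = ιβ b) :
    (mulMatrix (ℓ + 1) (fbar ℓ a) h).charpoly = (X - C (h.eval (a ^ ℓ))) * (X ^ ℓ - C b) := by
  have hℓ : ℓ.Prime := Fact.out
  set f₂ : κ[X] := X ^ ℓ - C a with hf₂
  have hf₂irr : Irreducible f₂ := X_pow_sub_C_irreducible_of_prime hℓ ha
  have : Fact (Irreducible f₂) := ⟨hf₂irr⟩
  have hf₂ne : f₂ ≠ 0 := hf₂irr.ne_zero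
  have hf₂deg : f₂.natDegree = ℓ := natDegree_X_pow_sub_C
  set fb : κ[X] := fbar ℓ a with hfb
  have hfbm : fb.Monic := fbar_monic ℓ a
  have hfbdeg : fb.natDegree = ℓ + 1 := fbar_natDegree ℓ a
  -- the field `K₂ = κ[X]/(X^ℓ - a)`
  have : FiniteDimensional κ (AdjoinRoot f₂) := (AdjoinRoot.powerBasis hf₂ne).finite
  have hrank₂ : Module.finrank κ (AdjoinRoot f₂) = ℓ := by
    rw [(AdjoinRoot.powerBasis hf₂ne).finrank, AdjoinRoot.powerBasis_dim, hf₂deg]
  -- embedding of `K₂` into `Ω`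
  let ι₂ : AdjoinRoot f₂ →+* Ω := AdjoinRoot.lift ιβ ξ (by
    rw [hf₂, eval₂_sub, eval₂_pow, eval₂_X, eval₂_C, hξ, sub_self])
  set γ : AdjoinRoot f₂ := AdjoinRoot.mk f₂ h with hγ
  have hγpow : γ ^ ℓ = algebraMap κ (AdjoinRoot f₂) b := by
    apply ι₂.injective
    rw [map_pow, AdjoinRoot.algebraMap_eq]
    show (AdjoinRoot.lift ιβ ξ _ (AdjoinRoot.mk f₂ h)) ^ ℓ = AdjoinRoot.lift ιβ ξ _ (AdjoinRoot.of f₂ b)
    rw [AdjoinRoot.lift_mk, AdjoinRoot.lift_of, hb]
  have hchar₂ : LinearMap.charpoly (Algebra.lmul κ (AdjoinRoot f₂) γ) = X ^ ℓ - C b :=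
    charpoly_lmul_of_pow_eq ℓ hrank₂ γ b hγpow
  -- the two projections
  let ψ₁ : AdjoinRoot fb →ₐ[κ] κ := AdjoinRoot.liftAlgHom fb (AlgHom.id κ κ) (a ^ ℓ) (by
    rw [hfb, fbar, eval₂_mul]
    simp)
  let ψ₂ : AdjoinRoot fb →ₐ[κ] AdjoinRoot f₂ :=
    AdjoinRoot.liftAlgHom fb (Algebra.ofId κ (AdjoinRoot f₂)) (AdjoinRoot.root f₂) (by
      rw [hfb, fbar, eval₂_mul]
      have : eval₂ (↑(Algebra.ofId κ (AdjoinRoot f₂))) (AdjoinRoot.root f₂) (X ^ ℓ - C a) = 0 := by
        have := AdjoinRoot.eval₂_root f₂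
        rwa [hf₂] at this
      rw [this, zero_mul])
  let ψ : AdjoinRoot fb →ₐ[κ] κ × AdjoinRoot f₂ := ψ₁.prod ψ₂
  have hψinj : Function.Injective ψ := by
    rw [injective_iff_map_eq_zero]
    intro z hz
    obtain ⟨p, rfl⟩ := AdjoinRoot.mk_surjective z
    have h1 : ψ₁ (AdjoinRoot.mk fb p) = 0 := congrArg Prod.fst hz
    have h2 : ψ₂ (AdjoinRoot.mk fb p) = 0 := congrArg Prod.snd hz
    have h1' : (X - C (a ^ ℓ)) ∣ p := by
      rw [dvd_iff_isRoot, IsRoot.def]
      have : ψ₁ (AdjoinRoot.mk fb p) = eval₂ (AlgHom.id κ κ) (a ^ ℓ) p := rfl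
      rw [this] at h1
      simpa [eval₂_eq_eval_map] using h1
    have h2' : f₂ ∣ p := by
      rw [← AdjoinRoot.mk_eq_zero]
      have : ψ₂ (AdjoinRoot.mk fb p) = eval₂ (Algebra.ofId κ (AdjoinRoot f₂)) (AdjoinRoot.root f₂) p :=
        rfl
      rw [this] at h2
      rw [← h2]
      exact (AdjoinRoot.aeval_eq p).symm
    have hcop : IsCoprime f₂ (X - C (a ^ ℓ)) := by
      refine (hf₂irr.coprime_iff_not_dvd).mpr fun hdvd => ?_
      have := Polynomial.natDegree_le_of_dvd hdvd (X_sub_C_ne_zero _)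
      rw [hf₂deg, natDegree_X_sub_C] at this
      exact absurd this (not_le.mpr hℓ.one_lt)
    rw [AdjoinRoot.mk_eq_zero, hfb, fbar]
    exact hcop.mul_dvd h2' h1'
  -- dimensions
  have : FiniteDimensional κ (AdjoinRoot fb) := (AdjoinRoot.powerBasis' hfbm).finite
  have hrank : Module.finrank κ (AdjoinRoot fb) = ℓ + 1 := by
    rw [(AdjoinRoot.powerBasis' hfbm).finrank, AdjoinRoot.powerBasis'_dim, hfbdeg]
  have hdim : Module.finrank κ (AdjoinRoot fb) = Module.finrank κ (κ × AdjoinRoot f₂) := by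
    rw [hrank, Module.finrank_prod, Module.finrank_self, hrank₂, add_comm]
  let e : AdjoinRoot fb ≃ₗ[κ] κ × AdjoinRoot f₂ :=
    LinearMap.linearEquivOfInjective ψ.toLinearMap hψinj hdim
  have he : ∀ z, e z = ψ z := fun z => rfl
  set c : AdjoinRoot fb := AdjoinRoot.mk fb h with hc
  have hψ₁c : ψ₁ c = h.eval (a ^ ℓ) := by
    have : ψ₁ (AdjoinRoot.mk fb h) = eval₂ (AlgHom.id κ κ) (a ^ ℓ) h := rfl
    rw [hc, this]
    simp [eval₂_eq_eval_map]
  have hψ₂c : ψ₂ c = γ := by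
    have : ψ₂ (AdjoinRoot.mk fb h) = eval₂ (Algebra.ofId κ (AdjoinRoot f₂)) (AdjoinRoot.root f₂) h :=
      rfl
    rw [hc, this, hγ]
    exact AdjoinRoot.aeval_eq h
  have hconj : e.conj (Algebra.lmul κ (AdjoinRoot fb) c) =
      (Algebra.lmul κ κ (h.eval (a ^ ℓ))).prodMap (Algebra.lmul κ (AdjoinRoot f₂) γ) := by
    apply LinearMap.ext
    intro z
    rw [LinearEquiv.conj_apply]
    simp only [LinearMap.coe_comp, LinearEquiv.coe_coe, Function.comp_apply,
      LinearMap.prodMap_apply]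
    have hlm : ∀ (A : Type _) [CommRing A] [Algebra κ A] (x y : A), Algebra.lmul κ A x y = x * y :=
      fun A _ _ x y => rfl
    rw [hlm, hlm, hlm, he, map_mul, ← he (e.symm z), LinearEquiv.apply_symm_apply]
    show (ψ₁ c, ψ₂ c) * z = _
    rw [hψ₁c, hψ₂c]
    rfl
  have hmain : LinearMap.charpoly (Algebra.lmul κ (AdjoinRoot fb) c) =
      (X - C (h.eval (a ^ ℓ))) * (X ^ ℓ - C b) := by
    rw [← LinearEquiv.charpoly_conj e, hconj, LinearMap.charpoly_prodMap, charpoly_lmul_self,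
      hchar₂]
  -- back to the multiplication matrix
  have hkey : ∀ n : ℕ, n = (AdjoinRoot.powerBasis' hfbm).dim → (mulMatrix n fb h).charpoly =
      LinearMap.charpoly (Algebra.lmul κ (AdjoinRoot fb) c) := by
    intro n hn
    subst hn
    have := charpoly_lmul_eq_charpoly_mulMatrix (AdjoinRoot.powerBasis' hfbm) hfbm
      (by rw [AdjoinRoot.powerBasis'_gen, AdjoinRoot.aeval_eq, AdjoinRoot.mk_self])
      (by rw [AdjoinRoot.powerBasis'_dim]) h
    rw [AdjoinRoot.powerBasis'_gen, AdjoinRoot.aeval_eq] at this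
    rw [hc]
    exact this.symm
  rw [hkey (ℓ + 1) (by rw [AdjoinRoot.powerBasis'_dim, hfbdeg]), hmain]

end PartA

end Fermat.Agent.Gateway.ESC
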